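import Fermat.Agent.CurveJacobian.Exp
import Mathlib.Algebra.Module.ZLattice.Basic
import Mathlib.LinearAlgebra.Complex.FiniteDimensional
import Mathlib.Analysis.Normed.Module.FiniteDimension

/-!
# Torsion of `Pic0` over `ℂ`

The kernel of the exponential `ℂ^g → Pic0` is a lattice of rank `2g`, so `Pic0` is a torus and its
`n`-torsion has `n ^ (2g)` elements (`natCard_torsion`).
-/

set_option autoImplicit false

noncomputable section

open AlgebraicCurve Filter Topology

namespace Fermat.Agent.CurveJacobian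

variable (F : Type*) [Field F] [Algebra ℂ F] [IsCurveOver ℂ F] [Algebra.EssFiniteType ℂ F]

/-- The period lattice. -/
def periodLattice : Submodule ℤ (Fin (genusFF ℂ F) → ℂ) :=
  (expHom (F := F)).ker.toIntSubmodule

variable {F}

theorem mem_periodLattice {v : Fin (genusFF ℂ F) → ℂ} :
    v ∈ periodLattice F ↔ expHom v = 0 := Iff.rfl

instance discreteTopology_periodLattice : DiscreteTopology (periodLattice F) := by
  obtain ⟨r, hr, h⟩ := Metric.eventually_nhds_iff_ball.1 (eventually_eq_zero_of_expHom (F := F))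
  refine discreteTopology_iff_isOpen_singleton_zero.mpr
    ⟨Metric.ball 0 r, Metric.isOpen_ball, ?_⟩
  ext x
  simp only [Set.mem_preimage, Set.mem_singleton_iff]
  constructor
  · exact fun hx => Subtype.ext (h _ hx (mem_periodLattice.1 x.2))
  · rintro rfl; simpa using hr

instance isZLattice_periodLattice : IsZLattice ℝ (periodLattice F) := by
  refine ⟨?_⟩
  by_contra hne
  obtain ⟨R, hR⟩ := exists_bound_expHom (F := F)
  obtain ⟨f, hf0, hf⟩ := Submodule.exists_le_ker_of_lt_top _ (lt_top_iff_ne_top.2 hne)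
  obtain ⟨v, hv⟩ : ∃ v, f v ≠ 0 := by
    by_contra hall
    push Not at hall
    exact hf0 (LinearMap.ext hall)
  set fc : (Fin (genusFF ℂ F) → ℂ) →L[ℝ] ℝ := LinearMap.toContinuousLinearMap f
  set u : Fin (genusFF ℂ F) → ℂ := ((‖fc‖ * |R| + 1) / f v) • v
  obtain ⟨w, hw, hwe⟩ := hR (expHom u)
  have hmem : u - w ∈ periodLattice F := by
    rw [mem_periodLattice, map_sub, hwe, sub_self]
  have heq : f u = f w := by
    rw [← sub_eq_zero, ← map_sub]
    exact LinearMap.mem_ker.1 (hf (Submodule.subset_span hmem))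
  have hu : f u = ‖fc‖ * |R| + 1 := by
    simp only [u, map_smul, smul_eq_mul, div_mul_cancel₀ _ hv]
  have hb : |f w| ≤ ‖fc‖ * |R| :=
    (Real.norm_eq_abs (f w) ▸ fc.le_opNorm w).trans
      (mul_le_mul_of_nonneg_left (hw.trans (le_abs_self R)) (norm_nonneg _))
  have := le_abs_self (f w)
  linarith

/-- The period lattice has rank twice the genus. -/
theorem finrank_periodLattice :
    Module.finrank ℤ (periodLattice F) = 2 * genusFF ℂ F := by
  rw [ZLattice.rank ℝ (periodLattice F), finrank_real_of_complex, Module.finrank_fin_fun]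

/-- Over `ℂ`, the `n`-torsion of `Pic0` has `n ^ (2g)` elements. -/
theorem natCard_torsion (F : Type*) [Field F] [Algebra ℂ F] [IsCurveOver ℂ F]
    [Algebra.EssFiniteType ℂ F] (n : ℕ) (hn : 0 < n) :
    Nat.card (Pic0.torsion ℂ F n) = n ^ (2 * genusFF ℂ F) := by
  classical
  have : NeZero n := ⟨hn.ne'⟩
  have : Module.Free ℤ (periodLattice F) := ZLattice.module_free ℝ _
  have : Module.Finite ℤ (periodLattice F) := ZLattice.module_finite ℝ _
  let B := Module.finBasisOfFinrankEq ℤ (periodLattice F) finrank_periodLattice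
  have hnC : (n : ℂ) ≠ 0 := Nat.cast_ne_zero.2 hn.ne'
  have hmul : ∀ x : Fin (genusFF ℂ F) → ℂ, n • ((n : ℂ)⁻¹ • x) = x := fun x => by
    rw [← Nat.cast_smul_eq_nsmul ℂ, smul_smul, mul_inv_cancel₀ hnC, one_smul]
  let ψ : periodLattice F →+ Pic0.torsion ℂ F n :=
    AddMonoidHom.mk'
      (fun x => ⟨expHom ((n : ℂ)⁻¹ • (x : Fin (genusFF ℂ F) → ℂ)), by
        rw [Pic0.mem_torsion, natCast_zsmul, ← map_nsmul, hmul]
        exact mem_periodLattice.1 x.2⟩)
      (fun x y => Subtype.ext (by simp [smul_add]))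
  have hsurj : Function.Surjective ψ := by
    rintro ⟨x, hx⟩
    obtain ⟨R, hR⟩ := exists_bound_expHom (F := F)
    obtain ⟨v, -, rfl⟩ := hR x
    rw [Pic0.mem_torsion, natCast_zsmul, ← map_nsmul] at hx
    refine ⟨⟨n • v, mem_periodLattice.2 hx⟩, Subtype.ext ?_⟩
    show expHom ((n : ℂ)⁻¹ • (n • v)) = expHom v
    rw [← Nat.cast_smul_eq_nsmul ℂ, smul_smul, inv_mul_cancel₀ hnC, one_smul]
  let q : periodLattice F →+ (Fin (2 * genusFF ℂ F) → ZMod n) :=
    AddMonoidHom.mk' (fun x i => (B.equivFun x i : ZMod n))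
      (fun x y => funext fun i => by simp)
  have hq : Function.Surjective q := fun y => by
    refine ⟨B.equivFun.symm fun i => ((y i).val : ℤ), funext fun i => ?_⟩
    show ((B.equivFun (B.equivFun.symm _) i : ℤ) : ZMod n) = _
    rw [LinearEquiv.apply_symm_apply]
    simp
  have hker : ψ.ker = q.ker := by
    ext x
    rw [AddMonoidHom.mem_ker, AddMonoidHom.mem_ker]
    constructor
    · intro h
      have h' : expHom ((n : ℂ)⁻¹ • (x : Fin (genusFF ℂ F) → ℂ)) = 0 := congrArg Subtype.val h
      set y : periodLattice F := ⟨(n : ℂ)⁻¹ • (x : Fin (genusFF ℂ F) → ℂ), mem_periodLattice.2 h'⟩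
      have hx : x = n • y := Subtype.ext (by simp [y, hmul])
      funext i
      show ((B.equivFun x i : ℤ) : ZMod n) = 0
      rw [hx, map_nsmul, Pi.smul_apply, nsmul_eq_mul]
      push_cast
      simp
    · intro h
      have hdvd : ∀ i, ∃ z : ℤ, B.equivFun x i = n * z := fun i =>
        (ZMod.intCast_zmod_eq_zero_iff_dvd _ _).1 (congrFun h i)
      choose z hz using hdvd
      have hx : x = n • B.equivFun.symm z := B.equivFun.injective (funext fun i => by
        rw [map_nsmul, LinearEquiv.apply_symm_apply, Pi.smul_apply, nsmul_eq_mul, hz])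
      refine Subtype.ext ?_
      show expHom ((n : ℂ)⁻¹ • (x : Fin (genusFF ℂ F) → ℂ)) = 0
      rw [hx, Submodule.coe_smul_of_tower, ← Nat.cast_smul_eq_nsmul ℂ, smul_smul,
        inv_mul_cancel₀ hnC, one_smul]
      exact mem_periodLattice.1 (B.equivFun.symm z).2
  calc Nat.card (Pic0.torsion ℂ F n)
      = Nat.card (periodLattice F ⧸ ψ.ker) :=
        (Nat.card_congr (QuotientAddGroup.quotientKerEquivOfSurjective ψ hsurj).toEquiv).symm
    _ = Nat.card (periodLattice F ⧸ q.ker) := by rw [hker]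
    _ = Nat.card (Fin (2 * genusFF ℂ F) → ZMod n) :=
        Nat.card_congr (QuotientAddGroup.quotientKerEquivOfSurjective q hq).toEquiv
    _ = n ^ (2 * genusFF ℂ F) := by simp

end Fermat.Agent.CurveJacobian
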