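import Fermat.Agent.CurveJacobian.Chart
import Mathlib.Analysis.Complex.HasPrimitives
import Mathlib.Analysis.Complex.CauchyIntegral
import Mathlib.Analysis.Calculus.MeanValue
import Mathlib.LinearAlgebra.FiniteDimensional.Lemmas

/-!
# The local inverse of the Abel map near non-special tuples

Integrating polar classes along charts gives `abelSum D`, a local biholomorphism at a non-special
`g`-tuple `D`; `locMap D` sends a small vector to the divisor class of the nearby tuple it
corresponds to, minus `D`. The key identity `three_identity` says that for three disjoint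
non-special tuples the classes of `v₁`, `v₂`, `-v₁ - v₂` sum to zero: a function with poles
bounded by the `3g` centres and `2g` prescribed zeros has its remaining `g` zeros at the place
forced by the vanishing of the abelian sum (Abel's theorem, `sum_prim_eq_zero`, which comes from
the vanishing of the sum of the residues of `df / f`).
-/

set_option autoImplicit false

noncomputable section

open AlgebraicCurve Filter Topology

namespace Fermat.Agent.CurveJacobian

variable {F : Type*} [Field F] [Algebra ℂ F] [IsCurveOver ℂ F] [Algebra.EssFiniteType ℂ F]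

/-- The uniformiser of the fixed chart at each place. -/
abbrev unif : Place ℂ F → F := fun P => (chart P).t

/-- `unif P` is a uniformiser at `P`. -/
theorem ord_unif : ∀ P : Place ℂ F, P.ord (unif P) = 1 := fun P => (chart P).ord_t

local notation "𝔤" => genusFF ℂ F

/-- Coordinates on `H1 0`. -/
def h1Coords : H1 (0 : Divisor ℂ F) ≃ₗ[ℂ] (Fin (genusFF ℂ F) → ℂ) :=
  haveI := finite_H1_zero ℂ F
  LinearEquiv.ofFinrankEq _ _ (by rw [Module.finrank_fin_fun]; rfl)

/-- The moving simple polar class in coordinates. -/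
def polarVec (P : Place ℂ F) (c : ℂ) : Fin (genusFF ℂ F) → ℂ :=
  h1Coords (F := F) (polar ℂ F ((chart P).ψ c) ((chart P).t - algebraMap ℂ F c)⁻¹)

theorem differentiableAt_polarVec (P : Place ℂ F) {c : ℂ}
    (hc : c ∈ Metric.ball (0 : ℂ) (chart P).ρ) : DifferentiableAt ℂ (polarVec P) c :=
  differentiableAt_pi.2 fun i =>
    (chart P).differentiableAt_polar ((LinearMap.proj i).comp (h1Coords (F := F)).toLinearMap) c hc

theorem differentiableOn_polarVec (P : Place ℂ F) :
    DifferentiableOn ℂ (polarVec P) (Metric.ball (0 : ℂ) (chart P).ρ) :=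
  fun _ hc => (differentiableAt_polarVec P hc).differentiableWithinAt

/-- Primitive of `polarVec` vanishing at the centre. -/
def prim (P : Place ℂ F) : ℂ → Fin (genusFF ℂ F) → ℂ :=
  (((differentiableOn_polarVec P).isExactOn_ball).with_val_at 0 0).choose

/-- The primitive vanishes at the centre. -/
theorem prim_zero (P : Place ℂ F) : prim P 0 = 0 :=
  (((differentiableOn_polarVec P).isExactOn_ball).with_val_at 0 0).choose_spec.1

theorem hasDerivAt_prim (P : Place ℂ F) {c : ℂ} (hc : c ∈ Metric.ball (0 : ℂ) (chart P).ρ) :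
    HasDerivAt (prim P) (polarVec P c) c :=
  (((differentiableOn_polarVec P).isExactOn_ball).with_val_at 0 0).choose_spec.2 c hc

/-- The strict derivative of the primitive at the centre is the simple polar class. -/
theorem hasStrictDerivAt_prim (P : Place ℂ F) : HasStrictDerivAt (prim P) (polarVec P 0) 0 := by
  refine hasStrictDerivAt_of_hasDerivAt_of_continuousAt (f' := polarVec P) ?_
    (differentiableAt_polarVec P (chart P).zero_mem_ball).continuousAt
  filter_upwards [Metric.ball_mem_nhds (0 : ℂ) (chart P).ρ_pos] with c hc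
  exact hasDerivAt_prim P hc

theorem polarVec_zero (P : Place ℂ F) : polarVec P 0 = h1Coords (F := F) (simplePolar unif P) := by
  rw [polarVec, simplePolar, (chart P).center, map_zero, sub_zero]

/-- The abelian sum attached to a tuple of places, in chart coordinates. -/
def abelSum (D : Fin (genusFF ℂ F) → Place ℂ F) (c : Fin (genusFF ℂ F) → ℂ) :
    Fin (genusFF ℂ F) → ℂ :=
  ∑ i, prim (D i) (c i)

/-- The abelian sum vanishes at the centre. -/
@[simp] theorem abelSum_zero (D : Fin (genusFF ℂ F) → Place ℂ F) : abelSum D 0 = 0 := by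
  simp [abelSum, prim_zero]

/-- The derivative of `abelSum` at the centre. -/
def abelSumDeriv (D : Fin (genusFF ℂ F) → Place ℂ F) :
    (Fin (genusFF ℂ F) → ℂ) →L[ℂ] (Fin (genusFF ℂ F) → ℂ) :=
  ∑ i, (ContinuousLinearMap.toSpanSingleton ℂ (polarVec (D i) 0)).comp
    (ContinuousLinearMap.proj i)

theorem hasStrictFDerivAt_abelSum (D : Fin (genusFF ℂ F) → Place ℂ F) :
    HasStrictFDerivAt (abelSum D) (abelSumDeriv D) 0 := by
  refine HasStrictFDerivAt.fun_sum fun i _ => ?_
  exact (hasStrictDerivAt_prim (D i)).hasStrictFDerivAt.comp (0 : Fin (genusFF ℂ F) → ℂ)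
    (ContinuousLinearMap.proj (R := ℂ) (φ := fun _ => ℂ) i).hasStrictFDerivAt

/-- At a non-special tuple the derivative of `abelSum` is injective. -/
theorem abelSumDeriv_injective {D : Fin (genusFF ℂ F) → Place ℂ F}
    (hD : NonSpecial unif D) : Function.Injective (abelSumDeriv D) := by
  rw [injective_iff_map_eq_zero]
  intro c hc
  have h : h1Coords (F := F) (∑ i, c i • simplePolar unif (D i)) = 0 := by
    rw [map_sum, ← hc, abelSumDeriv, _root_.sum_apply]
    refine Finset.sum_congr rfl fun i _ => ?_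
    rw [map_smul, ← polarVec_zero]
    rfl
  rw [LinearEquiv.map_eq_zero_iff] at h
  funext i
  exact Fintype.linearIndependent_iff.1 hD.2.1 c h i

/-- The derivative of `abelSum` at a non-special tuple, as an equivalence. -/
def abelSumEquiv {D : Fin (genusFF ℂ F) → Place ℂ F} (h : NonSpecial unif D) :
    (Fin (genusFF ℂ F) → ℂ) ≃L[ℂ] (Fin (genusFF ℂ F) → ℂ) :=
  (LinearEquiv.ofBijective (abelSumDeriv D).toLinearMap
    ⟨abelSumDeriv_injective h,
      LinearMap.surjective_of_injective (abelSumDeriv_injective h)⟩).toContinuousLinearEquiv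

theorem abelSum_strict {D : Fin (genusFF ℂ F) → Place ℂ F} (h : NonSpecial unif D) :
    HasStrictFDerivAt (abelSum D) (abelSumEquiv h : _ →L[ℂ] Fin (genusFF ℂ F) → ℂ) 0 :=
  (hasStrictFDerivAt_abelSum D).congr_fderiv (ContinuousLinearMap.ext fun _ => rfl)

open Classical in
/-- Local inverse of `abelSum`. -/
def abelInv (D : Fin (genusFF ℂ F) → Place ℂ F) :
    (Fin (genusFF ℂ F) → ℂ) → Fin (genusFF ℂ F) → ℂ :=
  if h : NonSpecial unif D then
    HasStrictFDerivAt.localInverse (abelSum D) (abelSumEquiv h) 0 (abelSum_strict h)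
  else 0

/-- `abelInv D` inverts `abelSum D` near `0`. -/
theorem abelInv_spec {D : Fin (genusFF ℂ F) → Place ℂ F} (hD : NonSpecial unif D) :
    (∀ᶠ c in 𝓝 0, abelInv D (abelSum D c) = c) ∧
      (∀ᶠ v in 𝓝 0, abelSum D (abelInv D v) = v) ∧
      Tendsto (abelInv D) (𝓝 0) (𝓝 0) ∧ abelInv D 0 = 0 := by
  rw [abelInv, dif_pos hD]
  have hf := abelSum_strict hD
  refine ⟨hf.eventually_left_inverse, ?_, ?_, ?_⟩
  · have := hf.eventually_right_inverse
    rwa [abelSum_zero] at this
  · have := hf.localInverse_tendsto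
    rwa [abelSum_zero] at this
  · have := hf.localInverse_apply_image
    rwa [abelSum_zero] at this

/-- The moving divisor minus the centre divisor. -/
def movingDiv {ι : Type*} [Fintype ι] (D : ι → Place ℂ F) (c : ι → ℂ) : Divisor ℂ F :=
  tupleDiv (fun i => (chart (D i)).ψ (c i)) - tupleDiv D

theorem degree_movingDiv {ι : Type*} [Fintype ι] (D : ι → Place ℂ F) (c : ι → ℂ) :
    Divisor.degree (movingDiv D c) = 0 := by
  rw [movingDiv, map_sub, degree_tupleDiv, degree_tupleDiv, sub_self]

/-- Its class. -/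
def movingClass {ι : Type*} [Fintype ι] (D : ι → Place ℂ F) (c : ι → ℂ) : Pic0 ℂ F :=
  Pic0.mk ⟨movingDiv D c, degree_movingDiv D c⟩

/-- The local inverse Abel map at a tuple. -/
def locMap (D : Fin (genusFF ℂ F) → Place ℂ F) (v : Fin (genusFF ℂ F) → ℂ) : Pic0 ℂ F :=
  movingClass D (abelInv D v)

omit [IsCurveOver ℂ F] [Algebra.EssFiniteType ℂ F] in
/-- A basis of a finite-dimensional space of functions modulo constants. -/
theorem exists_system (V : Submodule ℂ F) (h1 : (1 : F) ∈ V) (hV : Module.Finite ℂ V) (m : ℕ)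
    (hm : Module.finrank ℂ V = m + 1) :
    ∃ k : Fin m → F, (∀ j, k j ∈ V) ∧
      ∀ (a : Fin m → ℂ) (s : ℂ), ∑ j, a j • k j = algebraMap ℂ F s → a = 0 := by
  obtain ⟨W, hW⟩ := (Submodule.span ℂ {(1 : F)}).exists_isCompl
  set q := V ⊓ W with hq
  have : Module.Finite ℂ q := Submodule.finiteDimensional_inf_left V W
  have hle : Submodule.span ℂ {(1 : F)} ≤ V := by
    rw [Submodule.span_singleton_le_iff_mem]; exact h1
  have hsup : Submodule.span ℂ {(1 : F)} ⊔ q = V := by
    rw [hq, inf_comm, ← sup_inf_assoc_of_le W hle, hW.sup_eq_top, top_inf_eq]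
  have hdisj : Submodule.span ℂ {(1 : F)} ⊓ q = ⊥ := by
    rw [hq, ← inf_assoc, inf_right_comm, hW.inf_eq_bot, bot_inf_eq]
  have hqdim : Module.finrank ℂ q = m := by
    have h := Submodule.finrank_sup_add_finrank_inf_eq (Submodule.span ℂ {(1 : F)}) q
    rw [hsup, hdisj, finrank_bot, finrank_span_singleton one_ne_zero, hm] at h
    omega
  have : Module.Free ℂ q := Module.Free.of_divisionRing ℂ q
  let B := Module.finBasisOfFinrankEq ℂ q hqdim
  refine ⟨fun j => (B j : F), fun j => (B j).2.1, fun a s h => ?_⟩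
  have h0 : ((∑ j, a j • B j : q) : F) = 0 := by
    refine Submodule.disjoint_def.1 hW.disjoint _ ?_ (∑ j, a j • B j : q).2.2
    have : ((∑ j, a j • B j : q) : F) = algebraMap ℂ F s := by
      rw [← h]; simp [AddSubmonoidClass.coe_finsetSum]
    rw [this, Algebra.algebraMap_eq_smul_one]
    exact Submodule.smul_mem _ _ (Submodule.mem_span_singleton_self _)
  rw [ZeroMemClass.coe_eq_zero] at h0
  exact funext (Fintype.linearIndependent_iff.1 B.linearIndependent a h0)

/-- Near their centres, charts at distinct places stay apart. -/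
theorem eventually_chart_good {ι : Type*} [Finite ι] {P : ι → Place ℂ F}
    (hP : Function.Injective P) :
    ∀ᶠ c in 𝓝 (0 : ℂ), ∀ i, c ∈ Metric.ball (0 : ℂ) (chart (P i)).ρ ∧
      ∀ l, l ≠ i → (chart (P i)).ψ c ≠ P l ∧
        ∀ c', c' ∈ Metric.ball (0 : ℂ) (chart (P l)).ρ →
          (chart (P l)).ψ c' ≠ (chart (P i)).ψ c ∨ ¬ ‖c'‖ ≤ ‖c‖ := by
  classical
  obtain ⟨U, hU, hdis⟩ := (Set.finite_range P).t2_separation
  have hr : ∀ l, ∀ᶠ c in 𝓝 (0 : ℂ), (chart (P l)).ψ c ∈ U (P l) := fun l => by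
    have h := (chart (P l)).tendsto 0 (chart (P l)).zero_mem_ball
    rw [(chart (P l)).center] at h
    exact h.eventually ((hU (P l)).2.mem_nhds (hU (P l)).1)
  obtain ⟨δ, hδ, hsmall⟩ := Metric.eventually_nhds_iff_ball.1 (eventually_all.2 hr)
  have key : ∀ {i l : ι}, l ≠ i → ∀ {x : Place ℂ F}, x ∈ U (P i) → x ∉ U (P l) := by
    intro i l hli x hx hx'
    exact Set.disjoint_left.1
      (hdis (Set.mem_range_self l) (Set.mem_range_self i) (fun h => hli (hP h))) hx' hx
  filter_upwards [eventually_all.2 hr, Metric.ball_mem_nhds (0 : ℂ) hδ,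
    eventually_all.2 fun i => Metric.ball_mem_nhds (0 : ℂ) (chart (P i)).ρ_pos] with c hc hcδ hcρ
  refine fun i => ⟨hcρ i, fun l hl => ⟨fun h => key hl (hc i) (h ▸ (hU (P l)).1), ?_⟩⟩
  intro c' _
  by_cases hle : ‖c'‖ ≤ ‖c‖
  · left
    have hc' : c' ∈ Metric.ball (0 : ℂ) δ := by
      rw [Metric.mem_ball, dist_zero_right] at hcδ ⊢; linarith
    exact fun h => key hl (hc i) (h ▸ hsmall c' hc' l)
  · exact Or.inr hle

/-- The value of `t * f` along the chart at `P` with uniformiser `t`: the leading coefficient of a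
function with at most a simple pole at `P`, continued to the nearby places. -/
def chartSection (P : Place ℂ F) (f : F) (c : ℂ) : ℂ :=
  ev ((chart P).ψ c) ((chart P).t * f)

/-- Chart uniformisers are nonzero. -/
theorem chart_t_ne_zero (P : Place ℂ F) : (chart P).t ≠ 0 :=
  ne_zero_of_ord_ne_zero P (by rw [(chart P).ord_t]; omega)

/-- `t * f` is regular at a place where `f` has at most a simple pole. -/
theorem chart_t_mul_mem {ι : Type*} [Fintype ι] {P : ι → Place ℂ F} (hP : Function.Injective P)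
    (x : ι) {f : F} (hf : f ∈ riemannRochSpace (tupleDiv P)) :
    (chart (P x)).t * f ∈ (P x).toValuationSubring := by
  by_cases hf0 : f = 0
  · simp [hf0]
  refine mem_of_ord_nonneg _ ?_
  have h := (mem_riemannRochSpace_iff.1 hf (P x)).resolve_left hf0
  rw [tupleDiv_apply hP] at h
  rw [(P x).ord_mul (chart_t_ne_zero _) hf0, (chart (P x)).ord_t]
  omega

/-- For three disjoint non-special tuples there are `2g` functions with poles bounded by them,
independent modulo constants, whose leading coefficients at the first two tuples are independent. -/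
theorem exists_functions {D : Fin 3 → Fin (genusFF ℂ F) → Place ℂ F}
    (hD : ∀ a, NonSpecial unif (D a))
    (hdisj : Function.Injective fun x : Fin 3 × Fin (genusFF ℂ F) => D x.1 x.2) :
    ∃ k : Fin (2 * genusFF ℂ F) → F,
      (∀ j, k j ∈ riemannRochSpace (tupleDiv fun x : Fin 3 × Fin (genusFF ℂ F) => D x.1 x.2)) ∧
      (∀ (a : Fin (2 * genusFF ℂ F) → ℂ) (s : ℂ), ∑ j, a j • k j = algebraMap ℂ F s → a = 0) ∧
      ∀ a : Fin (2 * genusFF ℂ F) → ℂ, (∀ x : Fin 3 × Fin (genusFF ℂ F), x.1 ≠ 2 →
        ∑ j, a j * chartSection (D x.1 x.2) (k j) 0 = 0) → a = 0 := by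
  let P : Fin 3 × Fin 𝔤 → Place ℂ F := fun x => D x.1 x.2
  have hP : Function.Injective P := hdisj
  set T : Divisor ℂ F := tupleDiv P with hT
  have hle : tupleDiv (D 0) ≤ T := Finsupp.le_def.2 fun v => by
    by_cases hv : v ∈ Set.range (D 0)
    · obtain ⟨i, rfl⟩ := hv
      rw [tupleDiv_apply (hD 0).1]
      exact (tupleDiv_apply hP (0, i)).ge
    · rw [tupleDiv_apply_of_notMem hv]; exact tupleDiv_nonneg P v
  have htop : repartitionsOf T ⊔ principalRepartitions ℂ F = ⊤ :=
    top_le_iff.1 (((hD 0).top ord_unif).ge.trans (sup_le_sup_right (repartitionsOf_mono hle) _))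
  have hdimT : Module.finrank ℂ (riemannRochSpace T) = 2 * 𝔤 + 1 := by
    have h := finrank_L_of_top htop
    rw [hT, degree_tupleDiv, Fintype.card_prod, Fintype.card_fin, Fintype.card_fin] at h
    rw [← hT] at h
    omega
  have h1T : (1 : F) ∈ riemannRochSpace T := mem_riemannRochSpace_iff.2 fun v => Or.inr (by
    have := tupleDiv_nonneg P v
    rw [Place.ord_one, hT]; omega)
  obtain ⟨k, hkmem, hkli⟩ := exists_system (riemannRochSpace T) h1T
    (finite_riemannRochSpace ℂ F T) (2 * 𝔤) hdimT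
  refine ⟨k, hkmem, hkli, fun a ha => ?_⟩
  set f := ∑ j, a j • k j with hf
  have hfT : f ∈ riemannRochSpace T := sum_mem fun j _ => Submodule.smul_mem _ _ (hkmem j)
  have hfV : f ∈ riemannRochSpace (tupleDiv (D 2)) := by
    rw [mem_riemannRochSpace_iff]
    intro v
    by_cases hf0 : f = 0
    · exact Or.inl hf0
    right
    have hv := (mem_riemannRochSpace_iff.1 hfT v).resolve_left hf0
    by_cases hvP : v ∈ Set.range P
    · obtain ⟨x, rfl⟩ := hvP
      by_cases hx : x.1 = 2
      · rw [show P x = D 2 x.2 from congrArg (fun a => D a x.2) hx, tupleDiv_apply (hD 2).1]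
        rw [hT, tupleDiv_apply hP] at hv
        rw [← show P x = D 2 x.2 from congrArg (fun a => D a x.2) hx]
        exact hv
      · have hev0 : ev (P x) ((chart (P x)).t * f) = 0 := by
          rw [← ha x hx, hf, Finset.mul_sum, ev_sum _ _ _ (fun j _ => by
            rw [mul_smul_comm]; exact smul_mem_ring _ _ (chart_t_mul_mem hP x (hkmem j)))]
          refine Finset.sum_congr rfl fun j _ => ?_
          rw [mul_smul_comm, ev_smul _ _ (chart_t_mul_mem hP x (hkmem j))]
          simp only [chartSection, P, (chart (D x.1 x.2)).center]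
        have h1 := div_mem_of_ev_zero (P x) (chart (P x)).ord_t (chart_t_mul_mem hP x hfT) hev0
        rw [mul_div_cancel_left₀ _ (chart_t_ne_zero _)] at h1
        have h2 := ((mem_iff_ord _).1 h1).resolve_left hf0
        have := tupleDiv_nonneg (D 2) (P x)
        omega
    · rw [hT, tupleDiv_apply_of_notMem hvP] at hv
      have := tupleDiv_nonneg (D 2) v
      omega
  obtain ⟨s, hs⟩ := (hD 2).const_of_mem ord_unif hfV
  exact hkli a s hs.symm

/-- Implicit function theorem for a system `c x + ∑ⱼ aⱼ σ x j (c x) = 0`: the coordinates at the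
first two tuples determine the others and the coefficients holomorphically, if the linearised
system is nondegenerate. -/
theorem exists_implicit {g : ℕ} {σ : Fin 3 × Fin g → Fin (2 * g) → ℂ → ℂ}
    (hσ : ∀ x j, ContDiffAt ℂ 1 (σ x j) 0)
    (hnd : ∀ a : Fin (2 * g) → ℂ,
      (∀ x : Fin 3 × Fin g, x.1 ≠ 2 → ∑ j, a j * σ x j 0 = 0) → a = 0) :
    ∃ (C : (Fin g → ℂ) × (Fin g → ℂ) → Fin 3 × Fin g → ℂ)
      (A : (Fin g → ℂ) × (Fin g → ℂ) → Fin (2 * g) → ℂ), C 0 = 0 ∧
      ∀ᶠ w in 𝓝 0, DifferentiableAt ℂ C w ∧ DifferentiableAt ℂ A w ∧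
        (∀ i, C w (0, i) = w.1 i) ∧ (∀ i, C w (1, i) = w.2 i) ∧
        ∀ x, C w x + ∑ j, A w j * σ x j (C w x) = 0 := by
  let Ω : (Fin 3 × Fin g → ℂ) × (Fin (2 * g) → ℂ) →
      ((Fin g → ℂ) × (Fin g → ℂ)) × (Fin 3 × Fin g → ℂ) := fun p =>
    ((fun i => p.1 (0, i), fun i => p.1 (1, i)), fun x => p.1 x + ∑ j, p.2 j * σ x j (p.1 x))
  have hΩc : ContDiffAt ℂ 1 Ω 0 := by
    have hp1 : ∀ x, ContDiffAt ℂ 1
        (fun p : (Fin 3 × Fin g → ℂ) × (Fin (2 * g) → ℂ) => p.1 x) 0 := fun x =>
      ((contDiff_apply ℂ ℂ x).comp contDiff_fst).contDiffAt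
    have hp2 : ∀ j, ContDiffAt ℂ 1
        (fun p : (Fin 3 × Fin g → ℂ) × (Fin (2 * g) → ℂ) => p.2 j) 0 := fun j =>
      ((contDiff_apply ℂ ℂ j).comp contDiff_snd).contDiffAt
    refine ((contDiffAt_pi.2 fun i => hp1 _).prodMk (contDiffAt_pi.2 fun i => hp1 _)).prodMk
      (contDiffAt_pi.2 fun x => (hp1 x).add (ContDiffAt.sum fun j _ => (hp2 j).mul ?_))
    exact ContDiffAt.comp (0 : (Fin 3 × Fin g → ℂ) × (Fin (2 * g) → ℂ)) (hσ x j) (hp1 x)
  have hΩ0 : Ω 0 = 0 := by
    simp [Ω, Prod.ext_iff, funext_iff]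
  obtain ⟨Dm, hDm⟩ : ∃ Dm, HasFDerivAt Ω Dm 0 :=
    ⟨_, (hΩc.differentiableAt one_ne_zero).hasFDerivAt⟩
  have hDval : ∀ p, Dm p = ((fun i => p.1 (0, i), fun i => p.1 (1, i)),
      fun x => p.1 x + ∑ j, p.2 j * σ x j 0) := by
    intro p
    have hline : HasDerivAt (fun s : ℂ => s • p) p 0 := by
      simpa using (hasDerivAt_id (0 : ℂ)).smul_const p
    have h1 : HasDerivAt (fun s : ℂ => Ω (s • p)) (Dm p) 0 :=
      hDm.comp_hasDerivAt_of_eq (0 : ℂ) hline (by simp)
    have hlin : ∀ a : ℂ, HasDerivAt (fun s : ℂ => s * a) a 0 := fun a => by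
      simpa using (hasDerivAt_id (0 : ℂ)).mul_const a
    refine h1.unique ?_
    refine ((hasDerivAt_pi.2 fun i => hlin _).prodMk (hasDerivAt_pi.2 fun i => hlin _)).prodMk
      (hasDerivAt_pi.2 fun x => (hlin _).fun_add (HasDerivAt.fun_sum fun j _ => ?_))
    have hs : HasDerivAt (fun s : ℂ => σ x j (s * p.1 x)) (deriv (σ x j) 0 * p.1 x) 0 :=
      ((hσ x j).differentiableAt one_ne_zero).hasDerivAt.comp_of_eq (0 : ℂ) (hlin _) (by simp)
    simpa using (hlin (p.2 j)).fun_mul hs
  have hDinj : Function.Injective Dm := by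
    rw [injective_iff_map_eq_zero]
    intro p hp
    rw [hDval] at hp
    simp only [Prod.ext_iff, funext_iff, Prod.fst_zero, Prod.snd_zero, Pi.zero_apply] at hp
    obtain ⟨⟨h0, h1⟩, h2⟩ := hp
    have hp2 : p.2 = 0 := hnd p.2 fun x hx => by
      have hp1x : p.1 x = 0 := by
        obtain ⟨a, i⟩ := x
        fin_cases a
        · exact h0 i
        · exact h1 i
        · exact absurd rfl hx
      simpa [hp1x] using h2 x
    refine Prod.ext (funext fun x => ?_) hp2
    simpa [hp2] using h2 x
  have hfin : Module.finrank ℂ ((Fin 3 × Fin g → ℂ) × (Fin (2 * g) → ℂ))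
      = Module.finrank ℂ (((Fin g → ℂ) × (Fin g → ℂ)) × (Fin 3 × Fin g → ℂ)) := by
    simp [Module.finrank_prod]; ring
  let De := (LinearEquiv.ofBijective Dm.toLinearMap
    ⟨hDinj, (LinearMap.injective_iff_surjective_of_finrank_eq_finrank hfin).1 hDinj⟩
    ).toContinuousLinearEquiv
  have hDe : HasFDerivAt Ω (De : _ →L[ℂ] _) 0 := by
    have : (De : _ →L[ℂ] _) = Dm := ContinuousLinearMap.ext fun _ => rfl
    rw [this]; exact hDm
  set Ωi := hΩc.localInverse hDe one_ne_zero with hΩi
  have hΩic : ContDiffAt ℂ 1 Ωi 0 := hΩ0 ▸ hΩc.to_localInverse hDe one_ne_zero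
  have hright : ∀ᶠ y in 𝓝 0, Ω (Ωi y) = y := by
    have := (hΩc.hasStrictFDerivAt' hDe one_ne_zero).eventually_right_inverse
    rwa [hΩ0] at this
  have hΩi0 : Ωi 0 = 0 := by
    have := hΩc.localInverse_apply_image hDe one_ne_zero
    rwa [hΩ0] at this
  let inj : (Fin g → ℂ) × (Fin g → ℂ) →
      ((Fin g → ℂ) × (Fin g → ℂ)) × (Fin 3 × Fin g → ℂ) := fun w => (w, 0)
  have hinj : Tendsto inj (𝓝 0) (𝓝 0) :=
    (continuous_id.prodMk continuous_const).tendsto' _ _ rfl
  refine ⟨fun w => (Ωi (inj w)).1, fun w => (Ωi (inj w)).2, ?_, ?_⟩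
  · show (Ωi (inj 0)).1 = 0
    rw [show inj 0 = 0 from rfl, hΩi0]; rfl
  filter_upwards [hinj.eventually hright, hinj.eventually (hΩic.eventually (by simp))] with w hw hw'
  have h := (hw'.differentiableAt one_ne_zero).comp w
    (differentiableAt_id.prodMk (differentiableAt_const _))
  simp only [Ω, inj, Prod.ext_iff, funext_iff, Pi.zero_apply] at hw
  exact ⟨h.fst, h.snd, hw.1.1, hw.1.2, hw.2⟩

/-- `f = 1 + ∑ⱼ aⱼ kⱼ`, with at most simple poles at the places `P x`, has `t * f` vanishing at the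
nearby places with chart coordinates `c x`, so that its divisor is theirs minus the centres
(`IsVanishingAt.ord_eq`). -/
structure IsVanishingAt {ι J : Type*} [Fintype ι] [Fintype J] (P : ι → Place ℂ F) (k : J → F)
    (c : ι → ℂ) (a : J → ℂ) : Prop where
  injective : Function.Injective P
  mem : ∀ j, k j ∈ riemannRochSpace (tupleDiv P)
  indep : ∀ (b : J → ℂ) (s : ℂ), ∑ j, b j • k j = algebraMap ℂ F s → b = 0
  mem_ball : ∀ x, c x ∈ Metric.ball (0 : ℂ) (chart (P x)).ρ
  injective_ψ : Function.Injective fun x => (chart (P x)).ψ (c x)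
  ne_center : ∀ x l, l ≠ x → (chart (P x)).ψ (c x) ≠ P l
  regular : ∀ x j, (chart (P x)).t * k j ∈ ((chart (P x)).ψ (c x)).toValuationSubring
  eqn : ∀ x, c x + ∑ j, a j * chartSection (P x) (k j) (c x) = 0

/-- The leading coefficients of a combination `e + ∑ⱼ bⱼ kⱼ` along a chart. -/
theorem chartSection_combination {J : Type*} [Fintype J] {P : Place ℂ F} {k : J → F} {c : ℂ}
    (hc : c ∈ Metric.ball (0 : ℂ) (chart P).ρ)
    (hreg : ∀ j, (chart P).t * k j ∈ ((chart P).ψ c).toValuationSubring) (b : J → ℂ) (e : ℂ) :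
    (chart P).t * (algebraMap ℂ F e + ∑ j, b j • k j) ∈ ((chart P).ψ c).toValuationSubring ∧
      chartSection P (algebraMap ℂ F e + ∑ j, b j • k j) c
        = e * c + ∑ j, b j * chartSection P (k j) c := by
  have hterm : ∀ j, b j • ((chart P).t * k j) ∈ ((chart P).ψ c).toValuationSubring := fun j =>
    smul_mem_ring _ _ (hreg j)
  have hlead := smul_mem_ring ((chart P).ψ c) e ((chart P).mem_t c hc)
  rw [chartSection, mul_add, ← Algebra.commutes, ← Algebra.smul_def, Finset.mul_sum]
  simp only [mul_smul_comm]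
  refine ⟨add_mem hlead (sum_mem fun j _ => hterm j), ?_⟩
  rw [ev_add _ hlead (sum_mem fun j _ => hterm j), ev_smul _ _ ((chart P).mem_t c hc),
    (chart P).ev_t c hc, ev_sum _ _ _ fun j _ => hterm j]
  congr 1
  exact Finset.sum_congr rfl fun j _ => ev_smul _ _ (hreg j)

namespace IsVanishingAt

variable {ι J : Type*} [Fintype ι] [Fintype J] {P : ι → Place ℂ F} {k : J → F} {c : ι → ℂ}
  {a : J → ℂ}

/-- The function is not zero. -/
theorem ne_zero (h : IsVanishingAt P k c a) : 1 + ∑ j, a j • k j ≠ 0 := by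
  intro h0
  have := h.indep a (-1) (by rw [map_neg, map_one]; exact eq_neg_of_add_eq_zero_right h0)
  simp [this] at h0

/-- At each nearby place the function times the uniformiser vanishes. -/
theorem t_mul_vanishes (h : IsVanishingAt P k c a) (x : ι) :
    (chart (P x)).t * (1 + ∑ j, a j • k j) ∈ ((chart (P x)).ψ (c x)).toValuationSubring ∧
      ev ((chart (P x)).ψ (c x)) ((chart (P x)).t * (1 + ∑ j, a j • k j)) = 0 := by
  have h1 := chartSection_combination (h.mem_ball x) (h.regular x) a 1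
  rw [map_one, chartSection, one_mul, h.eqn] at h1
  exact h1

/-- At the nearby places the centres have the multiplicities of the uniformisers. -/
theorem tupleDiv_eq_ord_t (h : IsVanishingAt P k c a) (x : ι) :
    tupleDiv P ((chart (P x)).ψ (c x)) = ((chart (P x)).ψ (c x)).ord (chart (P x)).t := by
  by_cases hcx : c x = 0
  · rw [hcx, (chart (P x)).center, tupleDiv_apply h.injective, (chart (P x)).ord_t]
  · have h0 : ev ((chart (P x)).ψ (c x)) (chart (P x)).t ≠ 0 := by
      rw [(chart (P x)).ev_t _ (h.mem_ball x)]; exact hcx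
    rw [((ev_ne_zero_iff _ ((chart (P x)).mem_t _ (h.mem_ball x))).1 h0).2,
      tupleDiv_apply_of_notMem]
    rintro ⟨l, hl⟩
    rcases eq_or_ne l x with rfl | hlx
    · exact hcx (((chart (P l)).ψ_eq_center_iff (h.mem_ball l)).1 hl.symm)
    · exact h.ne_center x l hlx hl.symm

/-- The divisor of `f` is the nearby divisor minus the centres: there is no room for other zeros. -/
theorem ord_eq (h : IsVanishingAt P k c a) (v : Place ℂ F) :
    v.ord (1 + ∑ j, a j • k j) =
      tupleDiv (fun x => (chart (P x)).ψ (c x)) v - tupleDiv P v := by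
  let Q : ι → Place ℂ F := fun x => (chart (P x)).ψ (c x)
  have hQ : Function.Injective Q := h.injective_ψ
  set f := 1 + ∑ j, a j • k j
  have hfT : f ∈ riemannRochSpace (tupleDiv P) :=
    add_mem (mem_riemannRochSpace_iff.2 fun v => Or.inr (by
        have := tupleDiv_nonneg P v
        rw [Place.ord_one]; omega))
      (sum_mem fun j _ => Submodule.smul_mem _ _ (h.mem j))
  have hf0 : f ≠ 0 := h.ne_zero
  obtain ⟨Df, hDf, hdeg⟩ := HasPrincipalDivisors.exists_divisor (K := ℂ) f hf0
  have hzero : Df + tupleDiv P - tupleDiv Q = 0 := by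
    refine eq_zero_of_nonneg (fun v => ?_) ?_
    · by_cases hv : v ∈ Set.range Q
      · obtain ⟨x, rfl⟩ := hv
        have h1 := ((ev_eq_zero_iff _ (h.t_mul_vanishes x).1).1 (h.t_mul_vanishes x).2).resolve_left
          (mul_ne_zero (chart_t_ne_zero _) hf0)
        rw [Place.ord_mul _ (chart_t_ne_zero _) hf0, ← h.tupleDiv_eq_ord_t] at h1
        simp only [Finsupp.sub_apply, Finsupp.add_apply, hDf, tupleDiv_apply hQ]
        simp only [Q]
        omega
      · simp only [Finsupp.sub_apply, Finsupp.add_apply, hDf, tupleDiv_apply_of_notMem hv]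
        have := (mem_riemannRochSpace_iff.1 hfT v).resolve_left hf0
        omega
    · rw [map_sub, map_add, hdeg, degree_tupleDiv, degree_tupleDiv]; simp
  have h1 := congrArg (fun X : Divisor ℂ F => X v) hzero
  simp only [Finsupp.sub_apply, Finsupp.add_apply, hDf, Finsupp.zero_apply] at h1
  show v.ord f = tupleDiv Q v - tupleDiv P v
  omega

/-- The class of the nearby divisor minus the centres vanishes. -/
theorem movingClass_eq_zero (h : IsVanishingAt P k c a) : movingClass P c = 0 := by
  rw [movingClass, Pic0.mk, QuotientAddGroup.eq_zero_iff, AddSubgroup.mem_addSubgroupOf,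
    Divisor.mem_principal]
  exact ⟨_, h.ne_zero, fun v => (h.ord_eq v).symm⟩

/-- The residue of `df / f` at a zero, for a tangent vector `(cd, ad)` to the vanishing locus. -/
theorem residue_eq (h : IsVanishingAt P k c a) (ad : J → ℂ) (cd : ι → ℂ)
    (hd : ∀ x, cd x + ∑ j, (ad j * chartSection (P x) (k j) (c x) +
      a j * (deriv (chartSection (P x) (k j)) (c x) * cd x)) = 0) (x : ι) :
    ((chart (P x)).t - algebraMap ℂ F (c x)) *
        ((∑ j, ad j • k j) / (1 + ∑ j, a j • k j)) ∈
      ((chart (P x)).ψ (c x)).toValuationSubring ∧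
    ev ((chart (P x)).ψ (c x)) (((chart (P x)).t - algebraMap ℂ F (c x)) *
      ((∑ j, ad j • k j) / (1 + ∑ j, a j • k j))) = -cd x := by
  let Q : ι → Place ℂ F := fun x => (chart (P x)).ψ (c x)
  set f := 1 + ∑ j, a j • k j with hf
  have hf0 : f ≠ 0 := h.ne_zero
  set f' := ∑ j, ad j • k j with hf'
  set s := (chart (P x)).t - algebraMap ℂ F (c x) with hs
  have hs1 : (Q x).ord s = 1 := (chart (P x)).ord_sub _ (h.mem_ball x)
  have hs0 : s ≠ 0 := ne_zero_of_ord_ne_zero (Q x) (by omega)
  set u := (chart (P x)).t * f / s with hu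
  have hum : u ∈ (Q x).toValuationSubring :=
    div_mem_of_ev_zero _ hs1 (h.t_mul_vanishes x).1 (h.t_mul_vanishes x).2
  have hu0 : u ≠ 0 := div_ne_zero (mul_ne_zero (chart_t_ne_zero _) hf0) hs0
  have huev : ev (Q x) u ≠ 0 := by
    rw [ev_ne_zero_iff _ hum]
    refine ⟨hu0, ?_⟩
    rw [hu, ord_div' _ (mul_ne_zero (chart_t_ne_zero _) hf0) hs0, hs1,
      Place.ord_mul _ (chart_t_ne_zero _) hf0, h.ord_eq, ← h.tupleDiv_eq_ord_t]
    simp only [Q]
    rw [tupleDiv_apply h.injective_ψ]
    ring
  have hf'm := chartSection_combination (h.mem_ball x) (h.regular x) ad 0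
  simp only [map_zero, zero_add, zero_mul, chartSection] at hf'm
  rw [← hf'] at hf'm
  have hrw : s * (f' / f) = (chart (P x)).t * f' * u⁻¹ := by
    rw [hu]
    have := chart_t_ne_zero (P x)
    field_simp
  obtain ⟨hui, huie⟩ := inv_mem_of_ev_ne_zero _ hum huev
  rw [hrw]
  refine ⟨mul_mem hf'm.1 hui, ?_⟩
  rw [ev_mul _ hf'm.1 hui, hf'm.2, huie]
  have hσ' : ∀ j, HasDerivAt (chartSection (P x) (k j))
      (deriv (chartSection (P x) (k j)) (c x)) (c x) := fun j =>
    ((chart (P x)).differentiableAt _ (h.mem_ball x) _ (h.regular x j)).hasDerivAt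
  have hD1 : HasDerivAt (fun c' => c' + ∑ j, a j * chartSection (P x) (k j) c')
      (1 + ∑ j, a j * deriv (chartSection (P x) (k j)) (c x)) (c x) :=
    (hasDerivAt_id' (c x)).fun_add (HasDerivAt.fun_sum fun j _ => (hσ' j).const_mul (a j))
  have hD2 : HasDerivAt (fun c' => c' + ∑ j, a j * chartSection (P x) (k j) c')
      (ev (Q x) u) (c x) := by
    have hud := ((chart (P x)).differentiableAt _ (h.mem_ball x) u hum).hasDerivAt
    have h2 := ((hasDerivAt_id' (c x)).sub_const (c x)).fun_mul hud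
    simp only [sub_self, one_mul, zero_mul, add_zero] at h2
    refine h2.congr_of_eventuallyEq ?_
    filter_upwards [(chart (P x)).eventually_mem (h.mem_ball x) hum,
      Metric.isOpen_ball.mem_nhds (h.mem_ball x),
      eventually_all.2 fun j => (chart (P x)).eventually_mem (h.mem_ball x) (h.regular x j)]
      with c' hu' hc' hreg
    have htm := (chart (P x)).mem_t c' hc'
    have h1 := (chartSection_combination hc' hreg a 1).2
    rw [map_one, one_mul, ← hf, chartSection] at h1
    rw [← h1, show (chart (P x)).t * f = s * u by rw [hu]; field_simp,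
      ev_mul _ (sub_mem htm (Place.algebraMap_mem' _ _)) hu',
      ev_sub _ htm (Place.algebraMap_mem' _ _), (chart (P x)).ev_t c' hc', ev_algebraMap]
  have hDer : 1 + ∑ j, a j * deriv (chartSection (P x) (k j)) (c x) = ev (Q x) u :=
    hD1.unique hD2
  have hzero := hd x
  have hsplit : ∑ j, (ad j * chartSection (P x) (k j) (c x) +
      a j * (deriv (chartSection (P x) (k j)) (c x) * cd x))
      = (∑ j, ad j * chartSection (P x) (k j) (c x)) +
        (∑ j, a j * deriv (chartSection (P x) (k j)) (c x)) * cd x := by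
    rw [Finset.sum_add_distrib, Finset.sum_mul]
    congr 1
    exact Finset.sum_congr rfl fun j _ => by ring
  rw [hsplit] at hzero
  simp only [chartSection] at hzero hDer ⊢
  field_simp
  linear_combination hzero - cd x * hDer

/-- Abel's relation, infinitesimally: a tangent vector `(cd, ad)` to the vanishing locus is killed
by the differentials, since the polar classes of `df / f` sum to zero. -/
theorem sum_smul_polarVec_eq_zero (h : IsVanishingAt P k c a) (ad : J → ℂ) (cd : ι → ℂ)
    (hd : ∀ x, cd x + ∑ j, (ad j * chartSection (P x) (k j) (c x) +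
      a j * (deriv (chartSection (P x) (k j)) (c x) * cd x)) = 0) :
    ∑ x, cd x • polarVec (P x) (c x) = 0 := by
  classical
  let Q : ι → Place ℂ F := fun x => (chart (P x)).ψ (c x)
  have hQ : Function.Injective Q := h.injective_ψ
  set f := 1 + ∑ j, a j • k j with hf
  have hf0 : f ≠ 0 := h.ne_zero
  set f' := ∑ j, ad j • k j with hf'
  have hres := fun x => h.residue_eq ad cd hd x
  have hsum := sum_polar (K := ℂ) (f' / f) (Finset.univ.image Q) fun v hv => by
    have hv' : v ∉ Set.range Q := by simpa using hv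
    refine div_mem_of_ord_le v ?_
    by_cases hf'0 : f' = 0
    · exact Or.inl hf'0
    right
    have hf'T : f' ∈ riemannRochSpace (tupleDiv P) :=
      sum_mem fun j _ => Submodule.smul_mem _ _ (h.mem j)
    have := (mem_riemannRochSpace_iff.1 hf'T v).resolve_left hf'0
    rw [h.ord_eq, tupleDiv_apply_of_notMem hv']
    omega
  rw [Finset.sum_image fun x _ y _ h => hQ h] at hsum
  simp only [hf, hf', Q,
    fun x => polar_simple _ ((chart (P x)).ord_sub _ (h.mem_ball x)) (hres x).1,
    fun x => (hres x).2] at hsum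
  have h1 := congrArg (h1Coords (F := F)) hsum
  simp only [map_sum, map_smul, map_zero, neg_smul, map_neg, Finset.sum_neg_distrib,
    neg_eq_zero] at h1
  exact h1

end IsVanishingAt

/-- **Abel's theorem, locally.** Along a holomorphic family of nearby tuples which differ from the
centres by divisors of such functions, starting at the centres, the abelian sum is zero. -/
theorem sum_prim_eq_zero {ι J W : Type*} [Fintype ι] [Fintype J] [NormedAddCommGroup W]
    [NormedSpace ℂ W] {P : ι → Place ℂ F} {k : J → F} {C : W → ι → ℂ} {A : W → J → ℂ} {r : ℝ}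
    (h : ∀ w ∈ Metric.ball (0 : W) r, DifferentiableAt ℂ C w ∧ DifferentiableAt ℂ A w ∧
      IsVanishingAt P k (C w) (A w))
    (hC0 : C 0 = 0) {w : W} (hw : w ∈ Metric.ball (0 : W) r) :
    ∑ x, prim (P x) (C w x) = 0 := by
  let S : W → (Fin 𝔤 → ℂ) := fun w => ∑ x, prim (P x) (C w x)
  have hS : ∀ y ∈ Metric.ball (0 : W) r, HasFDerivAt S (0 : W →L[ℂ] (Fin 𝔤 → ℂ)) y := by
    intro y hy
    obtain ⟨hCd, hAd, hy'⟩ := h y hy
    have hSd : DifferentiableAt ℂ S y := DifferentiableAt.fun_sum fun x _ =>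
      DifferentiableAt.comp y (g := prim (P x))
        (hasDerivAt_prim (P x) (hy'.mem_ball x)).differentiableAt (differentiableAt_pi.1 hCd x)
    suffices hdir : ∀ v, fderiv ℂ S y v = 0 by
      have h := hSd.hasFDerivAt
      rwa [show fderiv ℂ S y = 0 from ContinuousLinearMap.ext hdir] at h
    intro v
    have hline : HasDerivAt (fun s : ℂ => y + s • v) v 0 := by
      simpa using ((hasDerivAt_id (0 : ℂ)).smul_const v).const_add y
    set cd := fderiv ℂ C y v with hcd
    set ad := fderiv ℂ A y v with had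
    have hcl : ∀ x, HasDerivAt (fun s : ℂ => C (y + s • v) x) (cd x) 0 := fun x =>
      hasDerivAt_pi.1 (hCd.hasFDerivAt.comp_hasDerivAt_of_eq (0 : ℂ) hline (by simp)) x
    have hal : ∀ j, HasDerivAt (fun s : ℂ => A (y + s • v) j) (ad j) 0 := fun j =>
      hasDerivAt_pi.1 (hAd.hasFDerivAt.comp_hasDerivAt_of_eq (0 : ℂ) hline (by simp)) j
    have hSl : HasDerivAt (fun s : ℂ => S (y + s • v)) (fderiv ℂ S y v) 0 :=
      hSd.hasFDerivAt.comp_hasDerivAt_of_eq (0 : ℂ) hline (by simp)
    have hSl' : HasDerivAt (fun s : ℂ => S (y + s • v))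
        (∑ x, cd x • polarVec (P x) (C y x)) 0 := by
      refine HasDerivAt.fun_sum fun x _ => ?_
      exact HasDerivAt.scomp_of_eq (0 : ℂ) (hasDerivAt_prim (P x) (hy'.mem_ball x)) (hcl x)
        (by simp)
    rw [hSl.unique hSl']
    refine hy'.sum_smul_polarVec_eq_zero ad cd fun x => ?_
    have h1 : HasDerivAt (fun s : ℂ => C (y + s • v) x +
        ∑ j, A (y + s • v) j * chartSection (P x) (k j) (C (y + s • v) x))
        (cd x + ∑ j, (ad j * chartSection (P x) (k j) (C y x) +
          A y j * (deriv (chartSection (P x) (k j)) (C y x) * cd x))) 0 := by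
      refine (hcl x).fun_add (HasDerivAt.fun_sum fun j _ => ?_)
      have hσ' : DifferentiableAt ℂ (chartSection (P x) (k j)) (C y x) :=
        (chart (P x)).differentiableAt _ (hy'.mem_ball x) _ (hy'.regular x j)
      have h3 := (hal j).fun_mul (hσ'.hasDerivAt.comp_of_eq (0 : ℂ) (hcl x) (by simp))
      simp only [Function.comp_apply, zero_smul, add_zero] at h3
      exact h3
    refine h1.unique (HasDerivAt.congr_of_eventuallyEq (hasDerivAt_const (0 : ℂ) (0 : ℂ)) ?_)
    have hyt : Tendsto (fun s : ℂ => y + s • v) (𝓝 0) (𝓝 y) :=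
      (continuous_const.add (continuous_id.smul continuous_const)).tendsto' _ _ (by simp)
    filter_upwards [hyt.eventually (Metric.isOpen_ball.mem_nhds hy)] with s hs
    exact (h _ hs).2.2.eqn x
  have h0 := (convex_ball (0 : W) r).is_const_of_fderivWithin_eq_zero
    (𝕜 := ℂ) (f := S) (fun y hy => (hS y hy).differentiableAt.differentiableWithinAt)
    (fun y hy => by rw [fderivWithin_of_isOpen Metric.isOpen_ball hy]; exact (hS y hy).fderiv)
    hw (Metric.mem_ball_self ((norm_nonneg w).trans_lt (by simpa using hw)))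
  show S w = 0
  rw [h0]
  simp [S, hC0, prim_zero]

/-- The classes of `v₁`, `v₂`, `-v₁ - v₂` at three disjoint non-special tuples sum to `0`. -/
theorem three_identity {D : Fin 3 → Fin (genusFF ℂ F) → Place ℂ F}
    (hD : ∀ a, NonSpecial unif (D a))
    (hdisj : Function.Injective fun x : Fin 3 × Fin (genusFF ℂ F) => D x.1 x.2) :
    ∀ᶠ v : (Fin (genusFF ℂ F) → ℂ) × (Fin (genusFF ℂ F) → ℂ) in 𝓝 0,
      locMap (D 0) v.1 + locMap (D 1) v.2 + locMap (D 2) (-v.1 - v.2) = 0 := by
  classical
  let P : Fin 3 × Fin 𝔤 → Place ℂ F := fun x => D x.1 x.2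
  have hP : Function.Injective P := hdisj
  obtain ⟨k, hkmem, hkli, hnd⟩ := exists_functions hD hdisj
  -- sections are holomorphic and charts apart near the centres
  have hgood : ∀ᶠ c in 𝓝 (0 : ℂ), ∀ x, c ∈ Metric.ball (0 : ℂ) (chart (P x)).ρ ∧
      (∀ l, l ≠ x → (chart (P x)).ψ c ≠ P l ∧
        ∀ c', c' ∈ Metric.ball (0 : ℂ) (chart (P l)).ρ →
          (chart (P l)).ψ c' ≠ (chart (P x)).ψ c ∨ ¬ ‖c'‖ ≤ ‖c‖) ∧
      ∀ j, (chart (P x)).t * k j ∈ ((chart (P x)).ψ c).toValuationSubring := by
    filter_upwards [eventually_chart_good hP, eventually_all.2 fun x => eventually_all.2 fun j =>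
      (chart (P x)).eventually_mem (chart (P x)).zero_mem_ball (f := (chart (P x)).t * k j)
        (by rw [(chart (P x)).center]; exact chart_t_mul_mem hP x (hkmem j))]
      with c h1 h2 x using ⟨(h1 x).1, (h1 x).2, h2 x⟩
  obtain ⟨ρ, hρ, hρgood⟩ := Metric.eventually_nhds_iff_ball.1 hgood
  obtain ⟨C, A, hC0, hCA⟩ := exists_implicit
    (σ := fun x j => chartSection (P x) (k j)) (fun x j =>
      (DifferentiableOn.analyticAt (s := Metric.ball (0 : ℂ) ρ) (fun c hc =>
        ((chart (P x)).differentiableAt c (hρgood c hc x).1 _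
          ((hρgood c hc x).2.2 j)).differentiableWithinAt) (Metric.ball_mem_nhds 0 hρ)).contDiffAt)
    hnd
  have hCt : Tendsto C (𝓝 0) (𝓝 0) := by
    have := hCA.self_of_nhds.1.continuousAt.tendsto
    rwa [hC0] at this
  have hCball : ∀ᶠ w in 𝓝 0, ∀ x, C w x ∈ Metric.ball (0 : ℂ) ρ :=
    eventually_all.2 fun x =>
      (((continuous_apply x).tendsto' 0 0 rfl).comp hCt).eventually (Metric.ball_mem_nhds 0 hρ)
  obtain ⟨r, hr, hball⟩ := Metric.eventually_nhds_iff_ball.1 (hCA.and hCball)
  have hvan : ∀ w ∈ Metric.ball (0 : (Fin 𝔤 → ℂ) × (Fin 𝔤 → ℂ)) r,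
      DifferentiableAt ℂ C w ∧ DifferentiableAt ℂ A w ∧ IsVanishingAt P k (C w) (A w) := by
    intro w hw
    obtain ⟨⟨hCd, hAd, -, -, heq⟩, hCb⟩ := hball w hw
    have hg : ∀ x, _ := fun x => hρgood _ (hCb x) x
    refine ⟨hCd, hAd, hP, hkmem, hkli, fun x => (hg x).1, ?_,
      fun x l hl => ((hg x).2.1 l hl).1, fun x j => (hg x).2.2 j, heq⟩
    intro x y hxy
    by_contra hne
    rcases le_total ‖C w y‖ ‖C w x‖ with hle | hle
    · rcases ((hg x).2.1 y (Ne.symm hne)).2 (C w y) (hg y).1 with h | h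
      · exact h hxy.symm
      · exact h hle
    · rcases ((hg y).2.1 x hne).2 (C w x) (hg x).1 with h | h
      · exact h hxy
      · exact h hle
  -- change to Abelian coordinates
  let w : (Fin 𝔤 → ℂ) × (Fin 𝔤 → ℂ) → (Fin 𝔤 → ℂ) × (Fin 𝔤 → ℂ) := fun v =>
    (abelInv (D 0) v.1, abelInv (D 1) v.2)
  have hw : Tendsto w (𝓝 0) (𝓝 0) :=
    ((abelInv_spec (hD 0)).2.2.1.comp (continuous_fst.tendsto' 0 0 rfl)).prodMk_nhds
      ((abelInv_spec (hD 1)).2.2.1.comp (continuous_snd.tendsto' 0 0 rfl))
  have hC2 : Tendsto (fun v => fun i => C (w v) (2, i)) (𝓝 0) (𝓝 0) :=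
    tendsto_pi_nhds.2 fun i => ((continuous_apply _).tendsto' 0 0 rfl).comp (hCt.comp hw)
  filter_upwards [hw.eventually (Metric.ball_mem_nhds 0 hr),
    (continuous_fst.tendsto' 0 0 rfl).eventually (abelInv_spec (hD 0)).2.1,
    (continuous_snd.tendsto' 0 0 rfl).eventually (abelInv_spec (hD 1)).2.1,
    hC2.eventually (abelInv_spec (hD 2)).1] with v hv h0 h1 h2
  obtain ⟨⟨-, -, he0, he1, -⟩, -⟩ := hball _ hv
  have hS := sum_prim_eq_zero hvan hC0 hv
  simp only [Fintype.sum_prod_type, Fin.sum_univ_three] at hS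
  simp only [he0, he1] at hS
  have hV : abelInv (D 2) (-v.1 - v.2) = fun i => C (w v) (2, i) := by
    rw [← h2]
    congr 1
    simp only [abelSum] at h0 h1 ⊢
    simp only [P, w] at hS
    rw [h0, h1] at hS
    linear_combination (norm := abel) -hS
  rw [← (hvan _ hv).2.2.movingClass_eq_zero]
  simp only [locMap, hV, movingClass, ← Pic0.mk_add]
  refine congrArg Pic0.mk (Subtype.ext ?_)
  show movingDiv (D 0) _ + movingDiv (D 1) _ + movingDiv (D 2) _ = movingDiv P (C (w v))
  simp only [movingDiv, tupleDiv, Fintype.sum_prod_type, Fin.sum_univ_three, he0, he1, P, w]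
  abel

end Fermat.Agent.CurveJacobian
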