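import Fermat.Prelude.Def_AlgebraicCurve_IsCurveOver
import Fermat.Prelude.Def_AlgebraicCurve_Repartitions

/-!
# Values at places and polar classes

For a function field `F` over an algebraically closed field `K`, `ev v f : K` is the value of `f`
at the place `v` (zero at poles); it is multiplicative and additive on the valuation ring of `v`.
`polar v f` is the class in `H1 0` (repartitions modulo regular and principal ones) of the
repartition equal to `f` at `v` and `0` elsewhere. It only depends on the polar part of `f` at `v`,
and the polar classes of a function sum to zero (`sum_polar`).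
-/

set_option autoImplicit false

noncomputable section

open AlgebraicCurve WithZero

namespace Fermat.Agent.CurveJacobian

variable {K F : Type*} [Field K] [Field F] [Algebra K F]

/-- The valuation ring of a place is cut out by its adic valuation. -/
theorem mem_iff_le_one (v : Place K F) {f : F} :
    f ∈ v.toValuationSubring ↔ v.adicValuation f ≤ 1 := by
  constructor
  · exact v.adicValuation_le_one_of_mem
  · intro h
    rcases (v.adicValuation_le_one_iff).1 h with rfl | h0
    · exact zero_mem _
    · by_cases hf : f = 0
      · subst hf; exact zero_mem _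
      obtain ⟨π, hπ⟩ := IsDiscreteValuationRing.exists_irreducible v.toValuationSubring
      obtain ⟨u, hu⟩ := v.exists_unit_mul_zpow hf hπ
      obtain ⟨n, hn⟩ := Int.eq_ofNat_of_zero_le h0
      rw [hu, hn, zpow_natCast]
      exact mul_mem (u : v.toValuationSubring).2 (pow_mem π.2 n)

/-- `f` is regular at `v` iff it is `0` or has nonnegative order. -/
theorem mem_iff_ord (v : Place K F) {f : F} :
    f ∈ v.toValuationSubring ↔ f = 0 ∨ 0 ≤ v.ord f := by
  rw [mem_iff_le_one, v.adicValuation_le_one_iff]

/-- `f` has a pole at `v` iff its order is negative. -/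
theorem notMem_iff_ord (v : Place K F) {f : F} :
    f ∉ v.toValuationSubring ↔ v.ord f < 0 := by
  rw [mem_iff_le_one, v.not_adicValuation_le_one_iff]

/-- A function of nonnegative order is regular. -/
theorem mem_of_ord_nonneg (v : Place K F) {f : F} (h : 0 ≤ v.ord f) :
    f ∈ v.toValuationSubring :=
  (mem_iff_ord v).2 (Or.inr h)

/-- The order of a quotient is the difference of the orders. -/
theorem ord_div' (v : Place K F) {f g : F} (hf : f ≠ 0) (hg : g ≠ 0) :
    v.ord (f / g) = v.ord f - v.ord g := by
  rw [div_eq_mul_inv, v.ord_mul hf (inv_ne_zero hg), v.ord_inv]; ring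

/-- `f / g` is regular when `ord g ≤ ord f`. -/
theorem div_mem_of_ord_le (v : Place K F) {f g : F} (h : f = 0 ∨ v.ord g ≤ v.ord f) :
    f / g ∈ v.toValuationSubring := by
  by_cases hf : f = 0
  · simp [hf]
  by_cases hg : g = 0
  · simp [hg]
  refine mem_of_ord_nonneg v ?_
  rw [ord_div' v hf hg]
  have := h.resolve_left hf
  omega

/-- A function of nonzero order is nonzero. -/
theorem ne_zero_of_ord_ne_zero (v : Place K F) {f : F} (h : v.ord f ≠ 0) : f ≠ 0 := by
  rintro rfl; simp at h

section Value

variable [IsAlgClosed K] [IsCurveOver K F]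

/-- Over an algebraically closed field every residue field is the constant field. -/
theorem residue_bijective (v : Place K F) :
    Function.Bijective (algebraMap K v.ResidueField) := by
  have : Module.Finite K v.ResidueField := IsCurveOver.finiteResidue v
  have : Algebra.IsIntegral K v.ResidueField := Algebra.IsIntegral.of_finite K v.ResidueField
  exact IsAlgClosed.algebraMap_bijective_of_isIntegral

open Classical in
/-- Value of a function at a place (zero at poles). -/
def ev (v : Place K F) (f : F) : K :=
  if h : f ∈ v.toValuationSubring then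
    (Equiv.ofBijective _ (residue_bijective v)).symm (IsLocalRing.residue _ ⟨f, h⟩)
  else 0

theorem algebraMap_ev (v : Place K F) {f : F} (h : f ∈ v.toValuationSubring) :
    algebraMap K v.ResidueField (ev v f) = IsLocalRing.residue _ ⟨f, h⟩ := by
  rw [ev, dif_pos h]
  exact (Equiv.ofBijective _ (residue_bijective v)).apply_symm_apply _

theorem ev_eq_iff_residue (v : Place K F) {f : F} (h : f ∈ v.toValuationSubring) {a : K} :
    ev v f = a ↔ IsLocalRing.residue _ ⟨f, h⟩ = algebraMap K v.ResidueField a := by
  rw [← algebraMap_ev v h]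
  exact ((residue_bijective v).1.eq_iff).symm

/-- Evaluation at a place is additive on regular functions. -/
theorem ev_add (v : Place K F) {f g : F} (hf : f ∈ v.toValuationSubring)
    (hg : g ∈ v.toValuationSubring) : ev v (f + g) = ev v f + ev v g := by
  rw [ev_eq_iff_residue v (add_mem hf hg), map_add, algebraMap_ev v hf, algebraMap_ev v hg,
    ← map_add]
  rfl

/-- Evaluation at a place is multiplicative on regular functions. -/
theorem ev_mul (v : Place K F) {f g : F} (hf : f ∈ v.toValuationSubring)
    (hg : g ∈ v.toValuationSubring) : ev v (f * g) = ev v f * ev v g := by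
  rw [ev_eq_iff_residue v (mul_mem hf hg), map_mul, algebraMap_ev v hf, algebraMap_ev v hg,
    ← map_mul]
  rfl

/-- Constants evaluate to themselves. -/
@[simp] theorem ev_algebraMap (v : Place K F) (a : K) : ev v (algebraMap K F a) = a := by
  rw [ev_eq_iff_residue v (v.algebraMap_mem' a)]
  rfl

/-- Evaluation sends `0` to `0`. -/
@[simp] theorem ev_zero (v : Place K F) : ev v (0 : F) = 0 := by
  simpa using ev_algebraMap v (0 : K)

/-- Evaluation sends `1` to `1`. -/
@[simp] theorem ev_one (v : Place K F) : ev v (1 : F) = 1 := by
  simpa using ev_algebraMap v (1 : K)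

theorem ev_neg (v : Place K F) {f : F} (hf : f ∈ v.toValuationSubring) :
    ev v (-f) = -ev v f := by
  have := ev_add v hf (neg_mem hf)
  rw [add_neg_cancel, ev_zero] at this
  linear_combination -this

/-- Evaluation at a place respects differences of regular functions. -/
theorem ev_sub (v : Place K F) {f g : F} (hf : f ∈ v.toValuationSubring)
    (hg : g ∈ v.toValuationSubring) : ev v (f - g) = ev v f - ev v g := by
  rw [sub_eq_add_neg, ev_add v hf (neg_mem hg), ev_neg v hg, sub_eq_add_neg]

/-- Evaluation at a place commutes with scalars. -/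
theorem ev_smul (v : Place K F) (a : K) {f : F} (hf : f ∈ v.toValuationSubring) :
    ev v (a • f) = a * ev v f := by
  rw [Algebra.smul_def, ev_mul v (v.algebraMap_mem' a) hf, ev_algebraMap]

omit [IsAlgClosed K] [IsCurveOver K F] in
/-- Scalar multiples of regular functions are regular. -/
theorem smul_mem_ring (v : Place K F) (a : K) {f : F} (hf : f ∈ v.toValuationSubring) :
    a • f ∈ v.toValuationSubring := by
  rw [Algebra.smul_def]; exact mul_mem (v.algebraMap_mem' a) hf

/-- Evaluation at a place commutes with finite sums. -/
theorem ev_sum (v : Place K F) {ι : Type*} (s : Finset ι) (f : ι → F)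
    (hf : ∀ i ∈ s, f i ∈ v.toValuationSubring) :
    ev v (∑ i ∈ s, f i) = ∑ i ∈ s, ev v (f i) := by
  classical
  induction s using Finset.induction_on with
  | empty => simp
  | insert i s hi ih =>
    have hs : ∀ j ∈ s, f j ∈ v.toValuationSubring := fun j hj => hf j (Finset.mem_insert_of_mem hj)
    rw [Finset.sum_insert hi, Finset.sum_insert hi,
      ev_add v (hf i (Finset.mem_insert_self i s)) (sum_mem hs), ih hs]

theorem ev_pow (v : Place K F) {f : F} (hf : f ∈ v.toValuationSubring) (n : ℕ) :
    ev v (f ^ n) = ev v f ^ n := by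
  induction n with
  | zero => simp
  | succ n ih => rw [pow_succ, pow_succ, ev_mul v (pow_mem hf n) hf, ih]

/-- Evaluation at a place commutes with polynomials. -/
theorem ev_aeval (v : Place K F) {f : F} (hf : f ∈ v.toValuationSubring) (p : Polynomial K) :
    Polynomial.aeval f p ∈ v.toValuationSubring ∧
      ev v (Polynomial.aeval f p) = p.eval (ev v f) := by
  induction p using Polynomial.induction_on' with
  | add p q hp hq =>
    rw [map_add, Polynomial.eval_add]
    exact ⟨add_mem hp.1 hq.1, by rw [ev_add v hp.1 hq.1, hp.2, hq.2]⟩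
  | monomial n a =>
    rw [Polynomial.aeval_monomial, Polynomial.eval_monomial]
    refine ⟨mul_mem (v.algebraMap_mem' a) (pow_mem hf n), ?_⟩
    rw [ev_mul v (v.algebraMap_mem' a) (pow_mem hf n), ev_algebraMap, ev_pow v hf]

/-- The value of a regular function vanishes iff the function vanishes at the place. -/
theorem ev_eq_zero_iff (v : Place K F) {f : F} (hf : f ∈ v.toValuationSubring) :
    ev v f = 0 ↔ f = 0 ∨ 1 ≤ v.ord f := by
  rw [ev_eq_iff_residue v hf, map_zero, IsLocalRing.residue_eq_zero_iff]
  by_cases h0 : f = 0
  · subst h0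
    refine iff_of_true ?_ (Or.inl rfl)
    rw [IsLocalRing.mem_maximalIdeal, mem_nonunits_iff]
    intro hu
    exact hu.ne_zero rfl
  rw [IsLocalRing.mem_maximalIdeal, mem_nonunits_iff, or_iff_right h0]
  have hn : 0 ≤ v.ord f := ((mem_iff_ord v).1 hf).resolve_left h0
  constructor
  · intro hu
    by_contra hlt
    apply hu
    rw [← v.adicValuation_coe_eq_one_iff]
    show v.adicValuation f = 1
    rw [v.adicValuation_eq_exp_neg_ord h0, show v.ord f = 0 by omega]
    simp
  · intro h1 hu
    have := v.ord_coe_unit hu.unit
    rw [IsUnit.unit_spec] at this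
    change v.ord f = 0 at this
    omega

/-- A regular function has nonzero value at `v` iff it has order `0` there. -/
theorem ev_ne_zero_iff (v : Place K F) {f : F} (hf : f ∈ v.toValuationSubring) :
    ev v f ≠ 0 ↔ f ≠ 0 ∧ v.ord f = 0 := by
  rw [Ne, ev_eq_zero_iff v hf, not_or]
  refine and_congr_right fun h0 => ?_
  have := ((mem_iff_ord v).1 hf).resolve_left h0
  omega

/-- A regular function with nonzero value has a regular inverse. -/
theorem inv_mem_of_ev_ne_zero (v : Place K F) {f : F} (hf : f ∈ v.toValuationSubring)
    (h : ev v f ≠ 0) : f⁻¹ ∈ v.toValuationSubring ∧ ev v f⁻¹ = (ev v f)⁻¹ := by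
  obtain ⟨h0, ho⟩ := (ev_ne_zero_iff v hf).1 h
  have hm : f⁻¹ ∈ v.toValuationSubring := mem_of_ord_nonneg v (by rw [v.ord_inv, ho]; simp)
  refine ⟨hm, ?_⟩
  have := ev_mul v hf hm
  rw [mul_inv_cancel₀ h0, ev_one] at this
  exact eq_inv_of_mul_eq_one_right this.symm

theorem notMem_of_inv_ev_zero (v : Place K F) {f : F} (h0 : f ≠ 0)
    (hi : f⁻¹ ∈ v.toValuationSubring) (h : ev v f⁻¹ = 0) : f ∉ v.toValuationSubring := by
  intro hf
  have := ev_mul v hf hi
  rw [mul_inv_cancel₀ h0, ev_one, h, mul_zero] at this
  exact one_ne_zero this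

/-- The inverse of a function with a pole at `v` vanishes at `v`. -/
theorem inv_mem_of_notMem (v : Place K F) {f : F} (hf : f ∉ v.toValuationSubring) :
    f⁻¹ ∈ v.toValuationSubring ∧ ev v f⁻¹ = 0 := by
  have h := (notMem_iff_ord v).1 hf
  have hm : f⁻¹ ∈ v.toValuationSubring := mem_of_ord_nonneg v (by rw [v.ord_inv]; omega)
  refine ⟨hm, (ev_eq_zero_iff v hm).2 (Or.inr ?_)⟩
  rw [v.ord_inv]; omega

/-- A function vanishing at `v` is divisible by a uniformiser. -/
theorem div_mem_of_ev_zero (v : Place K F) {t f : F} (ht : v.ord t = 1)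
    (hf : f ∈ v.toValuationSubring) (h : ev v f = 0) : f / t ∈ v.toValuationSubring := by
  refine div_mem_of_ord_le v ?_
  rcases (ev_eq_zero_iff v hf).1 h with h1 | h1
  · exact Or.inl h1
  · right; omega

/-- A uniformiser is regular and vanishes. -/
theorem mem_of_ord_eq_one (v : Place K F) {t : F} (ht : v.ord t = 1) :
    t ∈ v.toValuationSubring ∧ ev v t = 0 := by
  have hm : t ∈ v.toValuationSubring := mem_of_ord_nonneg v (by omega)
  exact ⟨hm, (ev_eq_zero_iff v hm).2 (Or.inr (le_of_eq ht.symm))⟩

omit [IsAlgClosed K] [IsCurveOver K F] in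
/-- Every place has a uniformiser. -/
theorem exists_ord_eq_one (v : Place K F) : ∃ t : F, v.ord t = 1 := by
  obtain ⟨π, hπ⟩ := IsDiscreteValuationRing.exists_irreducible v.toValuationSubring
  exact ⟨π, v.ord_coe_irreducible hπ⟩

/-- Two places with one valuation ring inside the other's are equal. -/
theorem place_eq_of_ev (v w : Place K F)
    (h : ∀ f ∈ v.toValuationSubring, f ∈ w.toValuationSubring ∧ ev w f = ev v f) : v = w := by
  refine Place.ext (SetLike.ext fun f => ⟨fun hf => (h f hf).1, fun hf => ?_⟩)
  by_contra hv
  obtain ⟨hi, h0⟩ := inv_mem_of_notMem v hv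
  have hf0 : f ≠ 0 := fun h => hv (h ▸ zero_mem _)
  obtain ⟨hi', h0'⟩ := h _ hi
  exact notMem_of_inv_ev_zero w hf0 hi' (h0'.trans h0) hf

end Value

/-! ### Polar classes -/

section Polar

variable (K F)

/-- The repartition supported at one place. -/
def singleRep (v : Place K F) : F →ₗ[K] ↥(repartitions K F) where
  toFun f :=
    letI := Classical.decEq (Place K F)
    ⟨Pi.single v f, mem_repartitions_of_finite <| (Set.finite_singleton v).subset fun w hw => by
      by_contra hne
      apply hw
      rw [Pi.single_eq_of_ne hne]
      simp⟩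
  map_add' f g := by
    let := Classical.decEq (Place K F)
    apply Subtype.ext
    exact Pi.single_add (f := fun _ : Place K F => F) v f g
  map_smul' a f := by
    let := Classical.decEq (Place K F)
    apply Subtype.ext
    exact Pi.single_smul (f := fun _ : Place K F => F) v a f

/-- The class in `H1 0` of a polar part at a place. -/
def polar (v : Place K F) : F →ₗ[K] H1 (0 : Divisor K F) :=
  (Submodule.mkQ _).comp (singleRep K F v)

variable {K F}

/-- The polar class of a regular function vanishes. -/
theorem polar_eq_zero (v : Place K F) {f : F} (hf : f ∈ v.toValuationSubring) :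
    polar K F v f = 0 := by
  classical
  rw [polar, LinearMap.comp_apply, Submodule.mkQ_apply, Submodule.Quotient.mk_eq_zero]
  refine Submodule.mem_sup_left fun w => ?_
  show w.adicValuation (Pi.single (M := fun _ => F) v f w) ≤ exp ((0 : Divisor K F) w)
  rw [Finsupp.zero_apply, exp_zero]
  rcases eq_or_ne w v with rfl | hw
  · rw [Pi.single_eq_same]; exact (mem_iff_le_one _).1 hf
  · rw [Pi.single_eq_of_ne hw]; simp

/-- The polar class depends only on the function modulo regular functions. -/
theorem polar_congr (v : Place K F) {f g : F} (h : f - g ∈ v.toValuationSubring) :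
    polar K F v f = polar K F v g := by
  rw [← sub_eq_zero, ← map_sub]; exact polar_eq_zero v h

/-- A sum of one-place repartitions, evaluated at a place. -/
theorem coe_singleRep_sum [DecidableEq (Place K F)] (S : Finset (Place K F))
    (g : Place K F → F) (w : Place K F) :
    ((∑ v ∈ S, singleRep K F v (g v) : ↥(repartitions K F)) : Place K F → F) w =
      if w ∈ S then g w else 0 := by
  rw [AddSubmonoidClass.coe_finsetSum, Finset.sum_apply]
  simp only [singleRep, LinearMap.coe_mk, AddHom.coe_mk]
  rw [← Finset.sum_ite_eq S w g]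
  refine Finset.sum_congr rfl fun v _ => ?_
  rcases eq_or_ne w v with rfl | hne
  · simp
  · simp [hne]

/-- The polar classes of a function at any finite set of places containing its poles sum to `0`. -/
theorem sum_polar (f : F) (S : Finset (Place K F))
    (hS : ∀ v ∉ S, f ∈ v.toValuationSubring) : ∑ v ∈ S, polar K F v f = 0 := by
  classical
  have hrw : ∑ v ∈ S, polar K F v f =
      Submodule.Quotient.mk (∑ v ∈ S, singleRep K F v f) := by
    rw [← Submodule.mkQ_apply, map_sum]; rfl
  rw [hrw, Submodule.Quotient.mk_eq_zero]
  have hmem : algebraMap F ↥(repartitions K F) f ∈ principalRepartitions K F :=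
    mem_principalRepartitions_iff.2 ⟨f, rfl⟩
  rw [← sub_add_cancel (∑ v ∈ S, singleRep K F v f) (algebraMap F ↥(repartitions K F) f)]
  refine Submodule.add_mem_sup (fun w => ?_) hmem
  show w.adicValuation ((((∑ v ∈ S, singleRep K F v f) - algebraMap F _ f :
      ↥(repartitions K F)) : Place K F → F) w) ≤ exp ((0 : Divisor K F) w)
  rw [Finsupp.zero_apply, exp_zero, AddSubgroupClass.coe_sub, Pi.sub_apply,
    coe_singleRep_sum S (fun _ => f) w]
  show w.adicValuation ((if w ∈ S then f else 0) - f) ≤ 1
  by_cases hw : w ∈ S
  · simp [hw]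
  · simp only [hw, if_false, zero_sub, Valuation.map_neg]
    exact (mem_iff_le_one _).1 (hS w hw)

variable [IsAlgClosed K] [IsCurveOver K F]

/-- The polar class of a function with at most a simple pole is its residue times that of
`t⁻¹`, for a uniformiser `t`. -/
theorem polar_simple (v : Place K F) {t f : F} (ht : v.ord t = 1)
    (hf : t * f ∈ v.toValuationSubring) :
    polar K F v f = ev v (t * f) • polar K F v t⁻¹ := by
  rw [← map_smul]
  refine polar_congr v ?_
  have ht0 : t ≠ 0 := ne_zero_of_ord_ne_zero v (by omega)
  have e : f - ev v (t * f) • t⁻¹ = (t * f - algebraMap K F (ev v (t * f))) / t := by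
    rw [Algebra.smul_def]; field_simp
  rw [e]
  refine div_mem_of_ev_zero v ht (sub_mem hf (v.algebraMap_mem' _)) ?_
  rw [ev_sub v hf (v.algebraMap_mem' _), ev_algebraMap, sub_self]

end Polar

end Fermat.Agent.CurveJacobian
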