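import Fermat.Agent.CurveJacobian.NonSpecial
import Mathlib.LinearAlgebra.Matrix.NonsingularInverse
import Mathlib.Algebra.Polynomial.AlgebraMap
import Mathlib.Algebra.BigOperators.Field

/-!
# Multiplication matrices of an integral basis over `K[t]`

For a basis `B` over `K[t]` of the functions regular wherever `t` is, `B.mulMatAt c f` is the
matrix of multiplication by `f` specialised at `t = c`. The values of the basis at a place over
`t = c` form a common eigenvector of these matrices (`mulMatAt_bval`), a place is determined by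
them (`place_ext`), and every normalised common eigenvector arises (`exists_place_of_eigen`). A
left eigenvector expresses the polar class of `(t - c)⁻¹` at that place by classes at the poles of
`t` (`polar_inv_sub_eq`).
-/

set_option autoImplicit false

noncomputable section

open AlgebraicCurve Polynomial Matrix

namespace Fermat.Agent.CurveJacobian

variable {K F : Type*} [Field K] [Field F] [Algebra K F]

/-- A basis over `K[t]` of the functions regular wherever `t` is regular. -/
structure BasisData (t : F) where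
  n : ℕ
  b : Fin n → F
  b_mem : ∀ i, b i ∈ regAlg K F t
  inj : Function.Injective (fun p : Fin n → K[X] => ∑ i, aeval t (p i) * b i)
  span : ∀ f ∈ regAlg K F t, ∃ p : Fin n → K[X], ∑ i, aeval t (p i) * b i = f

namespace BasisData

variable {t : F} (B : BasisData (K := K) t)

/-- The element with given polynomial coordinates. -/
def comb (p : Fin B.n → K[X]) : F := ∑ i, aeval t (p i) * B.b i

open Classical in
/-- Coordinates of an element regular wherever `t` is. -/
def coords (f : F) : Fin B.n → K[X] :=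
  if h : f ∈ regAlg K F t then (B.span f h).choose else 0

theorem comb_coords {f : F} (h : f ∈ regAlg K F t) : B.comb (B.coords f) = f := by
  rw [coords, dif_pos h]; exact (B.span f h).choose_spec

theorem self_mem_regAlg : t ∈ regAlg K F t := fun _ hv => hv

theorem comb_injective : Function.Injective B.comb := B.inj

/-- The matrix of multiplication by `f` in the basis, over `K[X]`. -/
def mulMat (f : F) : Matrix (Fin B.n) (Fin B.n) K[X] := fun i j => B.coords (f * B.b i) j

theorem comb_vecMul {f : F} (hf : f ∈ regAlg K F t) (p : Fin B.n → K[X]) :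
    B.comb (p ᵥ* B.mulMat f) = f * B.comb p := by
  have h : ∀ i, ∑ j, aeval t (B.mulMat f i j) * B.b j = f * B.b i := fun i =>
    B.comb_coords (mul_mem hf (B.b_mem i))
  calc B.comb (p ᵥ* B.mulMat f)
      = ∑ j, ∑ i, aeval t (p i) * (aeval t (B.mulMat f i j) * B.b j) := by
        refine Finset.sum_congr rfl fun j _ => ?_
        simp only [Matrix.vecMul, dotProduct, map_sum, map_mul, Finset.sum_mul, mul_assoc]
    _ = f * B.comb p := by
        rw [Finset.sum_comm, comb, Finset.mul_sum]
        refine Finset.sum_congr rfl fun i _ => ?_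
        rw [← Finset.mul_sum, h i, mul_left_comm]

theorem mulMat_commute {f g : F} (hf : f ∈ regAlg K F t) (hg : g ∈ regAlg K F t) :
    B.mulMat f * B.mulMat g = B.mulMat g * B.mulMat f := by
  refine Matrix.ext_iff_vecMul.mpr fun p => B.comb_injective ?_
  rw [← Matrix.vecMul_vecMul, ← Matrix.vecMul_vecMul, B.comb_vecMul hg, B.comb_vecMul hf,
    B.comb_vecMul hf, B.comb_vecMul hg, mul_left_comm]

theorem coords_mul {f g : F} (hf : f ∈ regAlg K F t) (hg : g ∈ regAlg K F t) :
    B.coords (f * g) = B.coords g ᵥ* B.mulMat f :=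
  B.comb_injective (by rw [B.comb_coords (mul_mem hf hg), B.comb_vecMul hf, B.comb_coords hg])

theorem coords_add {f g : F} (hf : f ∈ regAlg K F t) (hg : g ∈ regAlg K F t) :
    B.coords (f + g) = B.coords f + B.coords g := by
  refine B.comb_injective ?_
  rw [B.comb_coords (add_mem hf hg)]
  conv_lhs => rw [← B.comb_coords hf, ← B.comb_coords hg]
  simp only [comb, Pi.add_apply, map_add, add_mul, Finset.sum_add_distrib]

/-- Coordinates evaluated at `t = c`. -/
def coordsAt (c : K) (f : F) : Fin B.n → K := fun i => (B.coords f i).eval c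

/-- Multiplication matrix evaluated at `t = c`. -/
def mulMatAt (c : K) (f : F) : Matrix (Fin B.n) (Fin B.n) K := (B.mulMat f).map (evalRingHom c)

/-- The specialised multiplication matrices commute. -/
theorem mulMatAt_commute (c : K) {f g : F} (hf : f ∈ regAlg K F t) (hg : g ∈ regAlg K F t) :
    B.mulMatAt c f * B.mulMatAt c g = B.mulMatAt c g * B.mulMatAt c f := by
  simp only [mulMatAt, ← Matrix.map_mul, B.mulMat_commute hf hg]

theorem coordsAt_mul (c : K) {f g : F} (hf : f ∈ regAlg K F t) (hg : g ∈ regAlg K F t) :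
    B.coordsAt c (f * g) = B.coordsAt c g ᵥ* B.mulMatAt c f := by
  funext j
  simp [coordsAt, mulMatAt, B.coords_mul hf hg, Matrix.vecMul, dotProduct, eval_finsetSum]

theorem coordsAt_add (c : K) {f g : F} (hf : f ∈ regAlg K F t) (hg : g ∈ regAlg K F t) :
    B.coordsAt c (f + g) = B.coordsAt c f + B.coordsAt c g := by
  funext j; simp [coordsAt, B.coords_add hf hg]

variable [IsAlgClosed K] [IsCurveOver K F]

/-- Values of the basis at a place. -/
def bval (v : Place K F) : Fin B.n → K := fun i => ev v (B.b i)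

theorem aeval_mem (q : K[X]) : aeval t q ∈ regAlg K F t := fun v hv => (ev_aeval v hv q).1

theorem comb_mem (p : Fin B.n → K[X]) : B.comb p ∈ regAlg K F t :=
  sum_mem fun i _ => mul_mem (aeval_mem (K := K) (p i)) (B.b_mem i)

theorem coords_comb (p : Fin B.n → K[X]) : B.coords (B.comb p) = p :=
  B.comb_injective (B.comb_coords (B.comb_mem p))

theorem coords_aeval (q : K[X]) :
    B.coords (aeval t q) = q • B.coords 1 := by
  refine B.comb_injective ?_
  rw [B.comb_coords (aeval_mem (K := K) q)]
  conv_lhs => rw [← mul_one (aeval t q), ← B.comb_coords (one_mem (regAlg K F t))]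
  simp only [comb, Pi.smul_apply, smul_eq_mul, map_mul, Finset.mul_sum, mul_assoc]

theorem coordsAt_aeval (c : K) (q : K[X]) :
    B.coordsAt c (aeval t q) = q.eval c • B.coordsAt c 1 := by
  funext j; simp [coordsAt, B.coords_aeval q]

theorem coordsAt_algebraMap (c a : K) :
    B.coordsAt c (algebraMap K F a) = a • B.coordsAt c 1 := by
  have := B.coordsAt_aeval c (C a)
  simpa using this

/-- Evaluation at a place is the pairing of coordinates at `t(v)` with the values of the basis. -/
theorem ev_eq_dot (v : Place K F) (hv : t ∈ v.toValuationSubring) {f : F}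
    (hf : f ∈ regAlg K F t) :
    ev v f = B.coordsAt (ev v t) f ⬝ᵥ B.bval v := by
  conv_lhs => rw [← B.comb_coords hf, comb]
  rw [ev_sum v _ _ fun i _ => mul_mem (ev_aeval v hv _).1 (B.b_mem i v hv)]
  refine Finset.sum_congr rfl fun i _ => ?_
  rw [ev_mul v (ev_aeval v hv _).1 (B.b_mem i v hv), (ev_aeval v hv _).2]
  rfl

/-- The values of the basis at a place form an eigenvector of every multiplication matrix. -/
theorem mulMatAt_bval (v : Place K F) (hv : t ∈ v.toValuationSubring) {f : F}
    (hf : f ∈ regAlg K F t) :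
    B.mulMatAt (ev v t) f *ᵥ B.bval v = ev v f • B.bval v := by
  funext i
  rw [Pi.smul_apply, smul_eq_mul, show ev v f * B.bval v i = ev v (f * B.b i) from
    (ev_mul v (hf v hv) (B.b_mem i v hv)).symm, B.ev_eq_dot v hv (mul_mem hf (B.b_mem i))]
  rfl

/-- The basis vectors have standard coordinates. -/
theorem coordsAt_b (c : K) (k : Fin B.n) : B.coordsAt c (B.b k) = Pi.single k 1 := by
  have : B.b k = B.comb (Pi.single k 1) := by
    rw [comb, Finset.sum_eq_single k (fun j _ hj => by simp [hj]) (by simp)]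
    simp
  funext j
  rw [coordsAt, this, B.coords_comb]
  rcases eq_or_ne j k with rfl | hj
  · simp
  · simp [hj]

/-- For a separator `z` of `P` among the zeros of the uniformiser `t`, multiplication by `z` at
`t = 0` has rank one. -/
theorem mulMatAt_separator {P : Place K F} (ht : P.ord t = 1) {z : F} (hz : z ∈ regAlg K F t)
    (hzo : ∀ w : Place K F, w ≠ P → t ∈ w.toValuationSubring → ev w t = 0 →
      z / t ∈ w.toValuationSubring) :
    B.mulMatAt 0 z = vecMulVec (B.bval P) (B.coordsAt 0 z) := by
  ext i j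
  set q := (B.b i - algebraMap K F (B.bval P i)) * z / t
  have hq : q ∈ regAlg K F t := by
    intro v hv
    have hbz : (B.b i - algebraMap K F (B.bval P i)) * z ∈ v.toValuationSubring :=
      mul_mem (sub_mem (B.b_mem i v hv) (v.algebraMap_mem' _)) (hz v hv)
    by_cases hvt : ev v t = 0
    · by_cases hvP : v = P
      · subst hvP
        refine div_mem_of_ev_zero v ht hbz ?_
        rw [ev_mul v (sub_mem (B.b_mem i v hv) (v.algebraMap_mem' _)) (hz v hv),
          ev_sub v (B.b_mem i v hv) (v.algebraMap_mem' _), ev_algebraMap, bval, sub_self, zero_mul]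
      · simp only [q]
        rw [mul_div_assoc]
        exact mul_mem (sub_mem (B.b_mem i v hv) (v.algebraMap_mem' _)) (hzo v hvP hv hvt)
    · simp only [q]
      rw [div_eq_mul_inv]
      exact mul_mem hbz (inv_mem_of_ev_ne_zero v hv hvt).1
  have htne : t ≠ 0 := ne_zero_of_ord_ne_zero P (by omega)
  have hsplit : z * B.b i = algebraMap K F (B.bval P i) * z + aeval t (X : K[X]) * q := by
    simp only [q, aeval_X]; field_simp; ring1
  show (B.coords (z * B.b i) j).eval 0 = B.bval P i * B.coordsAt 0 z j
  have h1 : B.coords (z * B.b i)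
      = C (B.bval P i) • B.coords z + (X : K[X]) • B.coords q := by
    refine B.comb_injective ?_
    rw [B.comb_coords (mul_mem hz (B.b_mem i))]
    conv_lhs => rw [hsplit, ← B.comb_coords hz, ← B.comb_coords hq]
    simp only [comb, Pi.add_apply, Pi.smul_apply, smul_eq_mul, map_add, map_mul, add_mul,
      Finset.mul_sum, Finset.sum_add_distrib, aeval_C, mul_assoc]
  simp [h1, coordsAt]

/-- If the eigenspace of multiplication by `z` for its eigenvalue `z(u)` is spanned by `u`, then
`u` is a normalised common eigenvector. -/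
theorem eigen_of_simple {c : K} {z : F} (hz : z ∈ regAlg K F t) {u : Fin B.n → K}
    (hφ : B.coordsAt c z ⬝ᵥ u ≠ 0) (he : B.mulMatAt c z *ᵥ u = (B.coordsAt c z ⬝ᵥ u) • u)
    (hline : ∀ w, B.mulMatAt c z *ᵥ w = (B.coordsAt c z ⬝ᵥ u) • w → ∃ s : K, w = s • u) :
    B.coordsAt c 1 ⬝ᵥ u = 1 ∧ ∀ k, B.mulMatAt c (B.b k) *ᵥ u = u k • u := by
  have hone : B.coordsAt c 1 ⬝ᵥ u = 1 := by
    have h1 : B.coordsAt c z ⬝ᵥ u = (B.coordsAt c z ⬝ᵥ u) * (B.coordsAt c 1 ⬝ᵥ u) := by
      conv_lhs => rw [← mul_one z]
      rw [B.coordsAt_mul c hz (one_mem _), ← dotProduct_mulVec, he, dotProduct_smul, smul_eq_mul]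
    field_simp at h1
    exact h1.symm
  refine ⟨hone, fun k => ?_⟩
  obtain ⟨s, hs⟩ := hline (B.mulMatAt c (B.b k) *ᵥ u) (by
    rw [mulVec_mulVec, ← B.mulMatAt_commute c (B.b_mem k) hz, ← mulVec_mulVec, he, mulVec_smul])
  suffices s = u k by rw [← this]; exact hs
  have h1 := congrArg (fun x => B.coordsAt c 1 ⬝ᵥ x) hs
  simp only [dotProduct_smul, hone, smul_eq_mul, mul_one] at h1
  rw [dotProduct_mulVec, ← B.coordsAt_mul c (B.b_mem k) (one_mem _), mul_one, B.coordsAt_b,
    single_dotProduct, one_mul] at h1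
  exact h1.symm

/-- The value of an element with constant coordinates. -/
theorem ev_comb_C {v : Place K F} (hv : t ∈ v.toValuationSubring) (a : Fin B.n → K) :
    ev v (B.comb fun i => C (a i)) = a ⬝ᵥ B.bval v := by
  rw [B.ev_eq_dot v hv (B.comb_mem _), show B.coordsAt (ev v t) (B.comb fun i => C (a i)) = a from
    funext fun i => by rw [coordsAt, B.coords_comb, eval_C]]

/-- The polar class of a function with constant coordinates over `t - c`, at a pole of `t`, by
geometric expansion in `t⁻¹`. -/
theorem polar_comb_C_div_sub {T : Place K F} (hT : t ∉ T.toValuationSubring) (c : K)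
    (a : Fin B.n → K) (N : ℕ) (hN : ∀ i, (T.ord (B.b i)).natAbs ≤ N) :
    polar K F T (B.comb (fun i => C (a i)) / (t - algebraMap K F c)) =
      ∑ i, ∑ k ∈ Finset.range N, (a i * c ^ k) • polar K F T (B.b i * t⁻¹ ^ (k + 1)) := by
  set s := t - algebraMap K F c with hs
  have hsT : s ∉ T.toValuationSubring := fun h => hT (by
    have := add_mem h (T.algebraMap_mem' c)
    rwa [hs, sub_add_cancel] at this)
  have hs0 : s ≠ 0 := fun h => hsT (h ▸ zero_mem _)
  have htne : t ≠ 0 := fun h => hT (h ▸ zero_mem _)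
  have hgeo : B.comb (fun i => C (a i)) / s - ∑ i, ∑ k ∈ Finset.range N,
      (a i * c ^ k) • (B.b i * t⁻¹ ^ (k + 1)) ∈ T.toValuationSubring := by
    have hexp : ∀ n : ℕ, s⁻¹ - ∑ k ∈ Finset.range n, algebraMap K F (c ^ k) * t⁻¹ ^ (k + 1)
        = algebraMap K F (c ^ n) * t⁻¹ ^ n * s⁻¹ := by
      intro n
      induction n with
      | zero => simp
      | succ n ih =>
        rw [Finset.sum_range_succ, ← sub_sub, ih, map_pow, map_pow, pow_succ, pow_succ]
        have : t = s + algebraMap K F c := by rw [hs]; ring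
        field_simp
        rw [this]; ring
    have hrw : B.comb (fun i => C (a i)) / s -
        ∑ i, ∑ k ∈ Finset.range N, (a i * c ^ k) • (B.b i * t⁻¹ ^ (k + 1))
          = ∑ i, algebraMap K F (a i * c ^ N) * (B.b i * t⁻¹ ^ N) * s⁻¹ := by
      rw [comb, Finset.sum_div, ← Finset.sum_sub_distrib]
      refine Finset.sum_congr rfl fun i _ => ?_
      rw [aeval_C, div_eq_mul_inv]
      calc algebraMap K F (a i) * B.b i * s⁻¹ -
            ∑ k ∈ Finset.range N, (a i * c ^ k) • (B.b i * t⁻¹ ^ (k + 1))
          = algebraMap K F (a i) * B.b i * (s⁻¹ -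
            ∑ k ∈ Finset.range N, algebraMap K F (c ^ k) * t⁻¹ ^ (k + 1)) := by
            rw [mul_sub, Finset.mul_sum]
            congr 1
            refine Finset.sum_congr rfl fun k _ => ?_
            rw [Algebra.smul_def, map_mul]; ring
        _ = _ := by rw [hexp N, map_mul]; ring
    rw [hrw]
    refine sum_mem fun i _ => mul_mem (mul_mem (T.algebraMap_mem' _) ?_)
      (inv_mem_of_notMem T hsT).1
    by_cases hb : B.b i = 0
    · simp [hb]
    refine mem_of_ord_nonneg T ?_
    rw [T.ord_mul hb (pow_ne_zero _ (inv_ne_zero htne)), ← zpow_natCast, T.ord_zpow, T.ord_inv]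
    have h1 := hN i
    have h2 : (N : ℤ) ≤ (N : ℤ) * -T.ord t :=
      le_mul_of_one_le_right (by positivity) (by have := (notMem_iff_ord T).1 hT; omega)
    omega
  rw [polar_congr T hgeo]
  simp only [map_sum, map_smul]

variable [CharZero K] [Algebra.EssFiniteType K F]

/-- A place is determined by the value of `t` and of the basis. -/
theorem place_ext (ht : t ∉ Set.range (algebraMap K F)) {v w : Place K F}
    (hv : t ∈ v.toValuationSubring) (hw : t ∈ w.toValuationSubring)
    (h1 : ev v t = ev w t) (h2 : B.bval v = B.bval w) : v = w := by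
  have heq : ∀ f ∈ regAlg K F t, ev v f = ev w f := fun f hf => by
    rw [B.ev_eq_dot v hv hf, B.ev_eq_dot w hw hf, h1, h2]
  refine place_eq_of_ev v w fun f hf => ?_
  obtain ⟨x, hx, y, hy, hy0, hxy⟩ := exists_quotient K F t ht v hv f hf
  have hy0' : ev w y ≠ 0 := by rw [← heq y hy]; exact hy0
  obtain ⟨hyi, hyie⟩ := inv_mem_of_ev_ne_zero w (hy w hw) hy0'
  have hyne : y ≠ 0 := fun h => hy0 (by rw [h, ev_zero])
  have hfw : f = x * y⁻¹ := by rw [← hxy, mul_assoc, mul_inv_cancel₀ hyne, mul_one]
  obtain ⟨hyiv, hyive⟩ := inv_mem_of_ev_ne_zero v (hy v hv) hy0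
  refine ⟨hfw ▸ mul_mem (hx w hw) hyi, ?_⟩
  rw [hfw, ev_mul w (hx w hw) hyi, ev_mul v (hx v hv) hyiv, hyie, hyive, heq x hx, heq y hy]

/-- A normalised common eigenvector is the value vector of a place. -/
theorem exists_place_of_eigen (ht : t ∉ Set.range (algebraMap K F)) (c : K) (u : Fin B.n → K)
    (hone : B.coordsAt c 1 ⬝ᵥ u = 1)
    (hu : ∀ i, B.mulMatAt c (B.b i) *ᵥ u = u i • u) :
    ∃ v : Place K F, t ∈ v.toValuationSubring ∧ ev v t = c ∧ B.bval v = u := by
  have hmul : ∀ f ∈ regAlg K F t, ∀ g ∈ regAlg K F t,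
      B.coordsAt c (f * g) ⬝ᵥ u = (B.coordsAt c f ⬝ᵥ u) * (B.coordsAt c g ⬝ᵥ u) := by
    have key : ∀ i, ∀ g ∈ regAlg K F t,
        B.coordsAt c (B.b i * g) ⬝ᵥ u = u i * (B.coordsAt c g ⬝ᵥ u) := by
      intro i g hg
      rw [B.coordsAt_mul c (B.b_mem i) hg, ← dotProduct_mulVec, hu i, dotProduct_smul, smul_eq_mul]
    intro f hf g hg
    rw [B.coordsAt_mul c hf hg, ← dotProduct_mulVec]
    have hgf : B.mulMatAt c f *ᵥ u = (B.coordsAt c f ⬝ᵥ u) • u := by
      funext i
      have := key i f hf
      rw [mul_comm (B.b i) f] at this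
      rw [Pi.smul_apply, smul_eq_mul, mul_comm (B.coordsAt c f ⬝ᵥ u) (u i), ← this]
      rfl
    rw [hgf, dotProduct_smul, smul_eq_mul]
  let χ : regAlg K F t →ₐ[K] K :=
    { toFun := fun f => B.coordsAt c (f : F) ⬝ᵥ u
      map_one' := hone
      map_mul' := fun f g => hmul _ f.2 _ g.2
      map_zero' := by
        have h := B.coordsAt_algebraMap c 0
        rw [map_zero, zero_smul] at h
        show B.coordsAt c (0 : F) ⬝ᵥ u = 0
        rw [h, zero_dotProduct]
      map_add' := fun f g => by
        show B.coordsAt c ((f : F) + g) ⬝ᵥ u = _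
        rw [B.coordsAt_add c f.2 g.2, add_dotProduct]
      commutes' := fun a => by
        show B.coordsAt c (algebraMap K F a) ⬝ᵥ u = a
        rw [B.coordsAt_algebraMap, smul_dotProduct, hone, smul_eq_mul, mul_one] }
  obtain ⟨v, hv, hχ⟩ := exists_place_of_hom K F t ht χ
  refine ⟨v, hv, ?_, funext fun i => ?_⟩
  · refine (hχ ⟨t, self_mem_regAlg (K := K)⟩).trans ?_
    show B.coordsAt c t ⬝ᵥ u = c
    have := B.coordsAt_aeval c X
    rw [aeval_X, eval_X] at this
    rw [this, smul_dotProduct, hone, smul_eq_mul, mul_one]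
  · refine (hχ ⟨B.b i, B.b_mem i⟩).trans ?_
    show B.coordsAt c (B.b i) ⬝ᵥ u = u i
    have := hmul _ (B.b_mem i) _ (one_mem _)
    rw [B.coordsAt_mul c (B.b_mem i) (one_mem _), ← dotProduct_mulVec, hu i, dotProduct_smul, hone,
      smul_eq_mul, mul_one, mul_one] at this
    exact this.symm

/-- A left eigenvector `a` of the multiplication matrices at `t = c` with the eigenvalues of the
place `v₀` gives a function vanishing at all other places over `t = c`, to the order of `t - c`. -/
theorem comb_C_div_sub_mem (ht : t ∉ Set.range (algebraMap K F)) {v₀ v : Place K F}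
    (hv₀ : t ∈ v₀.toValuationSubring) (hv : t ∈ v.toValuationSubring) (hne : v ≠ v₀) {c : K}
    (hc : ev v₀ t = c) {a : Fin B.n → K}
    (ha : ∀ k, a ᵥ* B.mulMatAt c (B.b k) = B.bval v₀ k • a) :
    B.comb (fun i => C (a i)) / (t - algebraMap K F c) ∈ v.toValuationSubring := by
  set e := B.comb (fun i => C (a i)) with he'
  have hem : e ∈ regAlg K F t := B.comb_mem _
  have hce : B.coordsAt c e = a := funext fun i => by
    rw [coordsAt, he', B.coords_comb, eval_C]
  set s := t - algebraMap K F c with hs
  have hs0 : s ≠ 0 := fun h => ht ⟨c, (sub_eq_zero.1 h).symm⟩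
  have hsv : s ∈ v.toValuationSubring := sub_mem hv (v.algebraMap_mem' c)
  by_cases hvc : ev v t = c
  · obtain ⟨k, hk⟩ : ∃ k, B.bval v k ≠ B.bval v₀ k := by
      by_contra hall
      push Not at hall
      exact hne (B.place_ext ht hv hv₀ (hvc.trans hc.symm) (funext hall))
    set w := B.b k - algebraMap K F (B.bval v₀ k) with hw
    have hwm : w ∈ regAlg K F t := sub_mem (B.b_mem k) ((regAlg K F t).algebraMap_mem _)
    have hwv : ev v w ≠ 0 := by
      rw [hw, ev_sub v (B.b_mem k v hv) (v.algebraMap_mem' _), ev_algebraMap, sub_ne_zero]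
      exact hk
    have hzero : B.coordsAt c (w * e) = 0 := by
      have hwe : w * e = B.b k * e + algebraMap K F (-(B.bval v₀ k)) * e := by
        rw [hw, map_neg]; ring
      rw [hwe, B.coordsAt_add c (mul_mem (B.b_mem k) hem)
        (mul_mem ((regAlg K F t).algebraMap_mem _) hem), B.coordsAt_mul c (B.b_mem k) hem,
        mul_comm (algebraMap K F _) e, B.coordsAt_mul c hem ((regAlg K F t).algebraMap_mem _),
        B.coordsAt_algebraMap, smul_vecMul, ← B.coordsAt_mul c hem (one_mem _), mul_one, hce, ha]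
      funext i; simp
    have hdvd : ∀ i, ∃ r : K[X], B.coords (w * e) i = (X - C c) * r := fun i =>
      dvd_iff_isRoot.2 (congrFun hzero i)
    choose r hr using hdvd
    have hfac : w * e = s * B.comb r := by
      conv_lhs => rw [← B.comb_coords (mul_mem hwm hem)]
      simp only [comb, hr, map_mul, map_sub, aeval_X, aeval_C, Finset.mul_sum, mul_assoc, ← hs]
    have hw0 : w ≠ 0 := fun h => hwv (by rw [h, ev_zero])
    have hes : e / s = B.comb r * w⁻¹ := by
      field_simp; linear_combination hfac
    rw [hes]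
    exact mul_mem (B.comb_mem r v hv) (inv_mem_of_ev_ne_zero v (hwm v hv) hwv).1
  · rw [div_eq_mul_inv]
    refine mul_mem (hem v hv) (inv_mem_of_ev_ne_zero v hsv ?_).1
    rw [hs, ev_sub v hv (v.algebraMap_mem' c), ev_algebraMap, sub_ne_zero]
    exact hvc

/-- At a simple zero `v₀` of `t - c` the polar class of `(t - c)⁻¹` is a combination of classes at
the poles of `t`, with coefficients polynomial in `c` and in a left eigenvector at `v₀`. -/
theorem polar_inv_sub_eq (ht : t ∉ Set.range (algebraMap K F)) {v₀ : Place K F}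
    (hv₀ : t ∈ v₀.toValuationSubring) {c : K} (hc : ev v₀ t = c)
    (hord : v₀.ord (t - algebraMap K F c) = 1) {a : Fin B.n → K}
    (ha : ∀ k, a ᵥ* B.mulMatAt c (B.b k) = B.bval v₀ k • a) (hone : a ⬝ᵥ B.bval v₀ = 1)
    {S : Finset (Place K F)} (hS : ∀ v, v ∈ S ↔ t ∉ v.toValuationSubring) {N : ℕ}
    (hN : ∀ T ∈ S, ∀ i, (T.ord (B.b i)).natAbs ≤ N) :
    polar K F v₀ (t - algebraMap K F c)⁻¹ =
      -∑ T ∈ S, ∑ i, ∑ k ∈ Finset.range N, (a i * c ^ k) • polar K F T (B.b i * t⁻¹ ^ (k + 1)) := by
  classical
  set s := t - algebraMap K F c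
  set e := B.comb (fun i => C (a i))
  have hem : e ∈ v₀.toValuationSubring := B.comb_mem _ v₀ hv₀
  have hsum := sum_polar (K := K) (e / s) (insert v₀ S) fun v hv => by
    rw [Finset.mem_insert, not_or, hS, not_not] at hv
    exact B.comb_C_div_sub_mem ht hv₀ hv.2 hv.1 hc ha
  rw [Finset.sum_insert (fun h => (hS v₀).1 h hv₀)] at hsum
  have hQ : polar K F v₀ (e / s) = polar K F v₀ s⁻¹ := by
    refine polar_congr _ ?_
    rw [show e / s - s⁻¹ = (e - 1) / s by field_simp]
    refine div_mem_of_ev_zero _ hord (sub_mem hem (one_mem _)) ?_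
    rw [ev_sub _ hem (one_mem _), B.ev_comb_C hv₀, hone, ev_one, sub_self]
  rw [hQ] at hsum
  rw [eq_neg_of_add_eq_zero_left hsum]
  exact congrArg Neg.neg (Finset.sum_congr rfl fun T hT =>
    B.polar_comb_C_div_sub ((hS T).1 hT) c a N (hN T hT))

end BasisData

variable [IsAlgClosed K] [CharZero K] [IsCurveOver K F] [Algebra.EssFiniteType K F]

/-- An integral basis exists for every non-constant `t`. -/
theorem nonempty_basisData (t : F) (ht : t ∉ Set.range (algebraMap K F)) :
    Nonempty (BasisData (K := K) t) := by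
  obtain ⟨n, b, h1, h2, h3⟩ := exists_integralBasis K F t ht
  exact ⟨⟨n, b, h1, h2, h3⟩⟩

end Fermat.Agent.CurveJacobian
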