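import Mathlib.Analysis.Complex.Basic
import Mathlib.Analysis.Calculus.InverseFunctionTheorem.ContDiff
import Mathlib.Analysis.Calculus.Deriv.Mul
import Mathlib.Analysis.Calculus.Deriv.Prod
import Mathlib.Analysis.Normed.Module.FiniteDimension
import Mathlib.LinearAlgebra.Matrix.NonsingularInverse

/-!
# Simple eigenvectors of families of matrices

A rank one matrix `vecMulVec u₀ ζ₀` with `ζ₀ ⬝ u₀ = 1` has the simple eigenvalue `1`. In a
holomorphic family through it the eigenvector deforms holomorphically (`exists_eigenvector`).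
As long as `shiftMatrix M φ u₀ ζ₀` is invertible, the eigenspace of `φ` is a line, and so is the
left one, spanned by `leftVec M φ u₀ ζ₀`, which is an eigenvector of everything commuting with `M`.
-/

set_option autoImplicit false

noncomputable section

open Filter Topology Matrix

namespace Fermat.Agent.CurveJacobian

variable {ι : Type*} [Fintype ι] [DecidableEq ι]

section Algebra

variable {K : Type*} [Field K]

/-- `φ - M`, corrected by a rank one matrix on the eigenline of `φ`. -/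
def shiftMatrix (M : Matrix ι ι K) (φ : K) (u0 ζ0 : ι → K) : Matrix ι ι K :=
  φ • 1 - M + vecMulVec u0 ζ0

/-- The left eigenvector `ζ₀ (shiftMatrix M φ u₀ ζ₀)⁻¹`. -/
def leftVec (M : Matrix ι ι K) (φ : K) (u0 ζ0 : ι → K) : ι → K :=
  ζ0 ᵥ* ((shiftMatrix M φ u0 ζ0).det⁻¹ • (shiftMatrix M φ u0 ζ0).adjugate)

variable {M : Matrix ι ι K} {φ : K} {u0 ζ0 u : ι → K}

/-- `shiftMatrix` maps the eigenvectors of `φ` to the line of `u₀`. -/
theorem shiftMatrix_mulVec {w : ι → K} (hw : M *ᵥ w = φ • w) :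
    shiftMatrix M φ u0 ζ0 *ᵥ w = (ζ0 ⬝ᵥ w) • u0 := by
  simp only [shiftMatrix, Matrix.add_mulVec, Matrix.sub_mulVec, Matrix.smul_mulVec, one_mulVec, hw,
    sub_self, zero_add, vecMulVec_mulVec]
  funext i; simp [mul_comm]

/-- The defining equation of `leftVec`. -/
theorem leftVec_vecMul_shiftMatrix (hd : (shiftMatrix M φ u0 ζ0).det ≠ 0) :
    leftVec M φ u0 ζ0 ᵥ* shiftMatrix M φ u0 ζ0 = ζ0 := by
  rw [leftVec, Matrix.vecMul_vecMul, Matrix.smul_mul, Matrix.adjugate_mul, smul_smul,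
    inv_mul_cancel₀ hd, one_smul, vecMul_one]

/-- The eigenspace of a simple eigenvalue is a line. -/
theorem eigen_eq_smul (hd : (shiftMatrix M φ u0 ζ0).det ≠ 0) (hu : M *ᵥ u = φ • u)
    (hζ : ζ0 ⬝ᵥ u ≠ 0) {w : ι → K} (hw : M *ᵥ w = φ • w) :
    w = ((ζ0 ⬝ᵥ w) / (ζ0 ⬝ᵥ u)) • u := by
  refine Matrix.mulVec_injective_iff_isUnit.2
    ((Matrix.isUnit_iff_isUnit_det (shiftMatrix M φ u0 ζ0)).2 (isUnit_iff_ne_zero.2 hd)) ?_
  show shiftMatrix M φ u0 ζ0 *ᵥ w = shiftMatrix M φ u0 ζ0 *ᵥ _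
  rw [Matrix.mulVec_smul, shiftMatrix_mulVec hw, shiftMatrix_mulVec hu, smul_smul,
    div_mul_cancel₀ _ hζ]

/-- The left eigenspace of a simple eigenvalue is spanned by `leftVec`. -/
theorem leftEigen_eq_smul (hd : (shiftMatrix M φ u0 ζ0).det ≠ 0) {r : ι → K}
    (hr : r ᵥ* M = φ • r) : r = (r ⬝ᵥ u0) • leftVec M φ u0 ζ0 := by
  refine Matrix.vecMul_injective_iff_isUnit.2
    ((Matrix.isUnit_iff_isUnit_det (shiftMatrix M φ u0 ζ0)).2 (isUnit_iff_ne_zero.2 hd)) ?_
  show r ᵥ* shiftMatrix M φ u0 ζ0 = _ ᵥ* shiftMatrix M φ u0 ζ0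
  rw [Matrix.smul_vecMul, leftVec_vecMul_shiftMatrix hd]
  simp only [shiftMatrix, Matrix.vecMul_add, Matrix.vecMul_sub, Matrix.vecMul_smul, vecMul_one, hr,
    sub_self, zero_add, Matrix.vecMul_vecMulVec]

/-- `leftVec` is a left eigenvector. -/
theorem leftVec_vecMul (hd : (shiftMatrix M φ u0 ζ0).det ≠ 0) (hu : M *ᵥ u = φ • u)
    (hζ : ζ0 ⬝ᵥ u ≠ 0) : leftVec M φ u0 ζ0 ᵥ* M = φ • leftVec M φ u0 ζ0 := by
  have h := leftVec_vecMul_shiftMatrix hd
  have hau0 : leftVec M φ u0 ζ0 ⬝ᵥ u0 = 1 := by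
    have h1 : ζ0 ⬝ᵥ u = (ζ0 ⬝ᵥ u) * (leftVec M φ u0 ζ0 ⬝ᵥ u0) := by
      conv_lhs => rw [← h, ← dotProduct_mulVec, shiftMatrix_mulVec hu, dotProduct_smul, smul_eq_mul]
    field_simp at h1
    exact h1.symm
  simp only [shiftMatrix, Matrix.vecMul_add, Matrix.vecMul_sub, Matrix.vecMul_smul, vecMul_one,
    Matrix.vecMul_vecMulVec] at h
  rw [hau0, one_smul] at h
  exact (sub_eq_zero.1 (add_eq_right.1 h)).symm

/-- `leftVec` is an eigenvector of every matrix commuting with `M`, for the same eigenvalue as the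
right eigenvector. -/
theorem leftVec_vecMul_of_commute (hd : (shiftMatrix M φ u0 ζ0).det ≠ 0) (hu : M *ᵥ u = φ • u)
    (hζ : ζ0 ⬝ᵥ u ≠ 0) (hau : leftVec M φ u0 ζ0 ⬝ᵥ u ≠ 0) {N : Matrix ι ι K}
    (hN : N * M = M * N) {μ : K} (hμ : N *ᵥ u = μ • u) :
    leftVec M φ u0 ζ0 ᵥ* N = μ • leftVec M φ u0 ζ0 := by
  have hr := leftEigen_eq_smul hd (r := leftVec M φ u0 ζ0 ᵥ* N) (by
    rw [Matrix.vecMul_vecMul, hN, ← Matrix.vecMul_vecMul, leftVec_vecMul hd hu hζ,
      Matrix.smul_vecMul])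
  have h1 := congrArg (fun x => x ⬝ᵥ u) hr
  simp only [smul_dotProduct, ← dotProduct_mulVec, hμ, dotProduct_smul, smul_eq_mul] at h1
  rwa [← dotProduct_mulVec, ← mul_right_cancel₀ hau h1] at hr

end Algebra

section Analysis

/-- A determinant with holomorphic entries is holomorphic. -/
theorem differentiableAt_det {A : ℂ → Matrix ι ι ℂ}
    {c : ℂ} (h : ∀ i j, DifferentiableAt ℂ (fun x => A x i j) c) :
    DifferentiableAt ℂ (fun x => (A x).det) c := by
  simp only [Matrix.det_apply']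
  refine DifferentiableAt.fun_sum fun σ _ => DifferentiableAt.const_mul ?_ _
  exact (DifferentiableAt.fun_finsetProd fun i _ => h (σ i) i)

/-- An adjugate with holomorphic entries is holomorphic. -/
theorem differentiableAt_adjugate {A : ℂ → Matrix ι ι ℂ}
    {c : ℂ} (h : ∀ i j, DifferentiableAt ℂ (fun x => A x i j) c) (i j : ι) :
    DifferentiableAt ℂ (fun x => (A x).adjugate i j) c := by
  simp only [Matrix.adjugate_apply]
  refine differentiableAt_det fun a b => ?_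
  simp only [Matrix.updateRow_apply]
  split_ifs
  · exact differentiableAt_const _
  · exact h a b

variable {M : ℂ → Matrix ι ι ℂ} {φ : ℂ → ℂ} {u0 ζ0 : ι → ℂ} {c : ℂ}

omit [Fintype ι] in
/-- `shiftMatrix` of a holomorphic family is holomorphic. -/
theorem differentiableAt_shiftMatrix (hM : ∀ i j, DifferentiableAt ℂ (fun x => M x i j) c)
    (hφ : DifferentiableAt ℂ φ c) (i j : ι) :
    DifferentiableAt ℂ (fun x => shiftMatrix (M x) (φ x) u0 ζ0 i j) c := by
  simp only [shiftMatrix, Matrix.add_apply, Matrix.sub_apply, Matrix.smul_apply, smul_eq_mul]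
  exact ((hφ.mul_const _).sub (hM i j)).add (differentiableAt_const _)

/-- The left eigenvector of a holomorphic family is holomorphic. -/
theorem differentiableAt_leftVec (hM : ∀ i j, DifferentiableAt ℂ (fun x => M x i j) c)
    (hφ : DifferentiableAt ℂ φ c) (hd : (shiftMatrix (M c) (φ c) u0 ζ0).det ≠ 0) (j : ι) :
    DifferentiableAt ℂ (fun x => leftVec (M x) (φ x) u0 ζ0 j) c := by
  simp only [leftVec, Matrix.vecMul, dotProduct, Matrix.smul_apply, smul_eq_mul]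
  exact DifferentiableAt.fun_sum fun i _ => (differentiableAt_const _).mul
    (((differentiableAt_det (differentiableAt_shiftMatrix hM hφ)).inv hd).mul
      (differentiableAt_adjugate (differentiableAt_shiftMatrix hM hφ) i j))

/-- Near a rank one projector the eigenvalue stays simple and the left and right eigenvectors stay
non-orthogonal. -/
theorem eventually_simple {u : ℂ → ι → ℂ} (hM : ∀ i j, DifferentiableAt ℂ (fun x => M x i j) 0)
    (hφ : DifferentiableAt ℂ φ 0) (hu : DifferentiableAt ℂ u 0) (hu00 : u 0 = u0)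
    (hu0 : ζ0 ⬝ᵥ u0 = 1) (hφ0 : φ 0 = 1) (hM0 : M 0 = vecMulVec u0 ζ0) :
    ∀ᶠ c in 𝓝 0, (shiftMatrix (M c) (φ c) u0 ζ0).det ≠ 0 ∧
      leftVec (M c) (φ c) u0 ζ0 ⬝ᵥ u c ≠ 0 ∧ ζ0 ⬝ᵥ u c ≠ 0 ∧ φ c ≠ 0 := by
  have hA : shiftMatrix (M 0) (φ 0) u0 ζ0 = 1 := by simp [shiftMatrix, hφ0, hM0]
  have hd : (shiftMatrix (M 0) (φ 0) u0 ζ0).det ≠ 0 := by simp [hA]
  refine ((differentiableAt_det (differentiableAt_shiftMatrix hM hφ)).continuousAt.eventually_ne
    hd).and (Eventually.and ?_ (Eventually.and ?_ ?_))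
  · refine (DifferentiableAt.continuousAt (𝕜 := ℂ) ?_).eventually_ne
      (by simp [leftVec, hA, hu00, hu0])
    exact DifferentiableAt.fun_sum fun i _ =>
      (differentiableAt_leftVec hM hφ hd i).mul (differentiableAt_pi.1 hu i)
  · refine (DifferentiableAt.continuousAt (𝕜 := ℂ) ?_).eventually_ne
      (by rw [hu00, hu0]; exact one_ne_zero)
    exact DifferentiableAt.fun_sum fun i _ =>
      (differentiableAt_const _).mul (differentiableAt_pi.1 hu i)
  · exact hφ.continuousAt.eventually_ne (by rw [hφ0]; exact one_ne_zero)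

omit [DecidableEq ι] in
/-- **Holomorphic deformation of a simple eigenvector.** If `M 0` is the projector
`vecMulVec u₀ (ζ 0)` with `ζ 0 ⬝ u₀ = 1`, then near `0` there is a holomorphic solution of
`M c *ᵥ u = (ζ c ⬝ u) • u` through `u₀`, unique near `(0, u₀)`. -/
theorem exists_eigenvector {ζ : ℂ → ι → ℂ} (hM : ∀ i j, ContDiff ℂ 1 fun c => M c i j)
    (hζ : ∀ i, ContDiff ℂ 1 fun c => ζ c i) (hu0 : ζ 0 ⬝ᵥ u0 = 1)
    (hM0 : M 0 = vecMulVec u0 (ζ 0)) :
    ∃ u : ℂ → ι → ℂ, u 0 = u0 ∧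
      (∀ᶠ c in 𝓝 0, DifferentiableAt ℂ u c ∧ M c *ᵥ u c = (ζ c ⬝ᵥ u c) • u c) ∧
      ∀ᶠ p : ℂ × (ι → ℂ) in 𝓝 (0, u0), M p.1 *ᵥ p.2 = (ζ p.1 ⬝ᵥ p.2) • p.2 → u p.1 = p.2 := by
  let G : ℂ × (ι → ℂ) → ℂ × (ι → ℂ) := fun p => (p.1, (ζ p.1 ⬝ᵥ p.2) • p.2 - M p.1 *ᵥ p.2)
  have hGcd : ContDiff ℂ 1 G := by
    refine contDiff_fst.prodMk (contDiff_pi.2 fun i => ?_)
    simp only [Pi.sub_apply, Pi.smul_apply, smul_eq_mul, Matrix.mulVec, dotProduct]
    have hp : ∀ j, ContDiff ℂ 1 fun p : ℂ × (ι → ℂ) => p.2 j := fun j =>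
      (contDiff_apply ℂ ℂ j).comp contDiff_snd
    exact ((ContDiff.sum fun j _ => ((hζ j).comp contDiff_fst).mul (hp j)).mul (hp i)).sub
      (ContDiff.sum fun j _ => ((hM i j).comp contDiff_fst).mul (hp j))
  have hG0u : G (0, u0) = (0, 0) := by
    show ((0 : ℂ), _) = _
    rw [hu0, hM0, vecMulVec_mulVec, hu0]
    simp
  obtain ⟨D, hD⟩ : ∃ D, HasFDerivAt G D (0, u0) :=
    ⟨_, (hGcd.differentiable one_ne_zero).differentiableAt.hasFDerivAt⟩
  have hD1 : ∀ p, (D p).1 = p.1 := fun p => by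
    have h1 := (hasFDerivAt_fst (𝕜 := ℂ) (E := ℂ) (F := ι → ℂ) (p := G (0, u0))).comp (0, u0) hD
    have h2 : HasFDerivAt (fun p : ℂ × (ι → ℂ) => p.1)
      (ContinuousLinearMap.fst ℂ ℂ (ι → ℂ)) (0, u0) := hasFDerivAt_fst
    exact congrArg (fun T => T p) (h1.unique h2)
  have hD2 : ∀ w, D (0, w) = (0, w) := fun w => by
    have hline : HasDerivAt (fun s : ℂ => ((0 : ℂ), u0 + s • w)) ((0 : ℂ), w) 0 := by
      refine (hasDerivAt_const (0 : ℂ) (0 : ℂ)).prodMk ?_
      simpa using ((hasDerivAt_id (0 : ℂ)).smul_const w).const_add u0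
    have h1 : HasDerivAt (fun s : ℂ => G (0, u0 + s • w)) (D (0, w)) 0 :=
      hD.comp_hasDerivAt_of_eq (0 : ℂ) hline (by simp)
    have h2 : HasDerivAt (fun s : ℂ => ((0 : ℂ), (1 + s * (ζ 0 ⬝ᵥ w)) • (s • w)))
        ((0 : ℂ), w) 0 := by
      refine (hasDerivAt_const (0 : ℂ) (0 : ℂ)).prodMk ?_
      have := (((hasDerivAt_id (0 : ℂ)).mul_const (ζ 0 ⬝ᵥ w)).const_add 1).fun_smul
        ((hasDerivAt_id (0 : ℂ)).smul_const w)
      simpa using this
    refine h1.unique (h2.congr_of_eventuallyEq (Eventually.of_forall fun s => ?_))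
    show G (0, u0 + s • w) = _
    refine Prod.ext rfl ?_
    show (ζ 0 ⬝ᵥ (u0 + s • w)) • (u0 + s • w) - M 0 *ᵥ (u0 + s • w) = _
    rw [hM0, vecMulVec_mulVec, dotProduct_add, dotProduct_smul, hu0]
    funext i
    simp [smul_eq_mul]
    ring
  have hDinj : Function.Injective D := by
    rw [injective_iff_map_eq_zero]
    rintro ⟨x, w⟩ h
    have hx : x = 0 := by simpa [h] using (hD1 (x, w)).symm
    subst hx
    rw [hD2] at h
    exact h
  let De : (ℂ × (ι → ℂ)) ≃L[ℂ] (ℂ × (ι → ℂ)) :=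
    (LinearEquiv.ofBijective D.toLinearMap
      ⟨hDinj, LinearMap.surjective_of_injective hDinj⟩).toContinuousLinearEquiv
  have hDe : HasFDerivAt G (De : _ →L[ℂ] _) (0, u0) := by
    have : (De : _ →L[ℂ] _) = D := ContinuousLinearMap.ext fun _ => rfl
    rw [this]; exact hD
  have hGc : ContDiffAt ℂ 1 G (0, u0) := hGcd.contDiffAt
  let Ginv := hGc.localInverse hDe one_ne_zero
  have hGinv : ContDiffAt ℂ 1 Ginv (0, 0) := hG0u ▸ hGc.to_localInverse hDe one_ne_zero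
  have hright : ∀ᶠ p in 𝓝 ((0 : ℂ), (0 : ι → ℂ)), G (Ginv p) = p := by
    rw [← hG0u]; exact (hGc.hasStrictFDerivAt' hDe one_ne_zero).eventually_right_inverse
  have hι : Tendsto (fun c : ℂ => (c, (0 : ι → ℂ))) (𝓝 0) (𝓝 (0, 0)) :=
    (continuous_id.prodMk continuous_const).tendsto' _ _ rfl
  refine ⟨fun c => (Ginv (c, 0)).2, ?_, ?_, ?_⟩
  · show (Ginv (0, 0)).2 = u0
    rw [← hG0u]
    exact congrArg Prod.snd (hGc.localInverse_apply_image hDe one_ne_zero)
  · filter_upwards [hι.eventually hright, hι.eventually (hGinv.eventually (by simp))] with c hc hc'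
    refine ⟨((hc'.differentiableAt one_ne_zero).comp c
      (differentiableAt_id.prodMk (differentiableAt_const _))).snd, ?_⟩
    have h1 : (Ginv (c, 0)).1 = c := congrArg Prod.fst hc
    have h2 := congrArg Prod.snd hc
    simp only [G, h1] at h2
    exact (sub_eq_zero.1 h2).symm
  · filter_upwards [(hGc.hasStrictFDerivAt' hDe one_ne_zero).eventually_left_inverse] with p hp he
    have hG : G p = (p.1, 0) := Prod.ext rfl (sub_eq_zero.2 he.symm)
    show (Ginv (p.1, 0)).2 = p.2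
    rw [← hG]
    exact congrArg Prod.snd hp

end Analysis

end Fermat.Agent.CurveJacobian
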