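import Fermat.Agent.CurveJacobian.Topology
import Fermat.Agent.CurveJacobian.ChartAlgebra
import Fermat.Agent.CurveJacobian.Eigenvector
import Mathlib.Analysis.Calculus.ContDiff.Polynomial
import Mathlib.Analysis.Calculus.Deriv.Polynomial
import Mathlib.Analysis.Calculus.Deriv.Mul
import Mathlib.Analysis.Calculus.Deriv.Pow
import Mathlib.Analysis.Calculus.Deriv.Prod

/-!
# Holomorphic charts at the places of a complex function field

Every place `P` has a chart (`nonempty_chart`): for a uniformiser `t`, a family of places `ψ c` for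
small `c`, with `t = c` at `ψ c`, covering a neighbourhood of `P`, along which regular functions
and the polar classes of `(t - c)⁻¹` are holomorphic. The family comes from a holomorphic common
eigenvector of the multiplication matrices over `ℂ[t]` (`BasisData.exists_place_family`); regular
functions are holomorphic along it (`eventually_mem_and_differentiableAt`) and `t - c` is a
uniformiser at `ψ c` (`ord_sub_eq_one`).
-/

set_option autoImplicit false

noncomputable section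

open AlgebraicCurve Filter Topology Matrix

namespace Fermat.Agent.CurveJacobian

variable {F : Type*} [Field F] [Algebra ℂ F] [IsCurveOver ℂ F] [Algebra.EssFiniteType ℂ F]

/-- A chart centred at `P`, parametrised by a uniformiser. -/
structure Chart (P : Place ℂ F) where
  t : F
  ord_t : P.ord t = 1
  ψ : ℂ → Place ℂ F
  ρ : ℝ
  ρ_pos : 0 < ρ
  center : ψ 0 = P
  mem_t : ∀ c ∈ Metric.ball (0 : ℂ) ρ, t ∈ (ψ c).toValuationSubring
  ev_t : ∀ c ∈ Metric.ball (0 : ℂ) ρ, ev (ψ c) t = c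
  ord_sub : ∀ c ∈ Metric.ball (0 : ℂ) ρ, (ψ c).ord (t - algebraMap ℂ F c) = 1
  tendsto : ∀ c ∈ Metric.ball (0 : ℂ) ρ, Tendsto ψ (𝓝 c) (𝓝 (ψ c))
  image_mem : ∀ ε > 0, ψ '' Metric.ball (0 : ℂ) ε ∈ 𝓝 P
  differentiableAt : ∀ c ∈ Metric.ball (0 : ℂ) ρ, ∀ f ∈ (ψ c).toValuationSubring,
    DifferentiableAt ℂ (fun c' => ev (ψ c') f) c
  differentiableAt_polar : ∀ (L : H1 (0 : Divisor ℂ F) →ₗ[ℂ] ℂ), ∀ c ∈ Metric.ball (0 : ℂ) ρ,
    DifferentiableAt ℂ (fun c' => L (polar ℂ F (ψ c') (t - algebraMap ℂ F c')⁻¹)) c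

omit [Algebra.EssFiniteType ℂ F] in
theorem notMem_range_of_ord {P : Place ℂ F} {t : F} (h : P.ord t = 1) :
    t ∉ Set.range (algebraMap ℂ F) := by
  rintro ⟨a, rfl⟩
  obtain ⟨hm, h0⟩ := mem_of_ord_eq_one P h
  rw [ev_algebraMap] at h0
  simp [h0] at h

omit [Algebra.EssFiniteType ℂ F] in
/-- A function has finitely many poles. -/
theorem finite_poles (t : F) : {v : Place ℂ F | t ∉ v.toValuationSubring}.Finite := by
  by_cases ht : t = 0
  · subst ht
    simp
  obtain ⟨D, hD, -⟩ := HasPrincipalDivisors.exists_divisor (K := ℂ) t ht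
  refine D.support.finite_toSet.subset fun v hv => ?_
  rw [Finset.mem_coe, Finsupp.mem_support_iff, hD v]
  have := (notMem_iff_ord v).1 hv
  omega

/-- Along a family of places on which the functions regular wherever `t` is are holomorphic, so
are all functions regular at the given member. -/
theorem eventually_mem_and_differentiableAt {t : F} (ht : t ∉ Set.range (algebraMap ℂ F))
    {ψ : ℂ → Place ℂ F} {c : ℂ} (hmem : ∀ᶠ x in 𝓝 c, t ∈ (ψ x).toValuationSubring)
    (hd : ∀ f ∈ regAlg ℂ F t, DifferentiableAt ℂ (fun x => ev (ψ x) f) c) {f : F}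
    (hf : f ∈ (ψ c).toValuationSubring) :
    (∀ᶠ x in 𝓝 c, f ∈ (ψ x).toValuationSubring) ∧
      DifferentiableAt ℂ (fun x => ev (ψ x) f) c := by
  obtain ⟨p, hp, q, hq, hq0, hpq⟩ := exists_quotient ℂ F t ht (ψ c) hmem.self_of_nhds f hf
  have hqne : q ≠ 0 := fun h => hq0 (by rw [h, ev_zero])
  have hfe : f = p * q⁻¹ := by rw [← hpq, mul_assoc, mul_inv_cancel₀ hqne, mul_one]
  have h1 : ∀ᶠ x in 𝓝 c, f ∈ (ψ x).toValuationSubring ∧
      ev (ψ x) f = ev (ψ x) p * (ev (ψ x) q)⁻¹ := by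
    filter_upwards [hmem, (hd q hq).continuousAt.eventually_ne hq0] with x hx hx0
    obtain ⟨hi, hie⟩ := inv_mem_of_ev_ne_zero (ψ x) (hq _ hx) hx0
    exact ⟨hfe ▸ mul_mem (hp _ hx) hi, by rw [hfe, ev_mul _ (hp _ hx) hi, hie]⟩
  exact ⟨h1.mono fun x hx => hx.1,
    ((hd p hp).mul ((hd q hq).inv hq0)).congr_of_eventuallyEq (h1.mono fun x hx => hx.2)⟩

omit [Algebra.EssFiniteType ℂ F] in
/-- If `t` has the value `x` at the members of a holomorphic family of places, then `t - c` is a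
uniformiser at the member over `c`. -/
theorem ord_sub_eq_one {t : F} (ht : t ∉ Set.range (algebraMap ℂ F)) {ψ : ℂ → Place ℂ F} {c : ℂ}
    (hev : ∀ᶠ x in 𝓝 c, t ∈ (ψ x).toValuationSubring ∧ ev (ψ x) t = x)
    (hdiff : ∀ f ∈ (ψ c).toValuationSubring, (∀ᶠ x in 𝓝 c, f ∈ (ψ x).toValuationSubring) ∧
      DifferentiableAt ℂ (fun x => ev (ψ x) f) c) :
    (ψ c).ord (t - algebraMap ℂ F c) = 1 := by
  obtain ⟨htc, hevc⟩ := hev.self_of_nhds
  set s := t - algebraMap ℂ F c with hs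
  have hsm : s ∈ (ψ c).toValuationSubring := sub_mem htc ((ψ c).algebraMap_mem' c)
  have hs0 : s ≠ 0 := fun h => ht ⟨c, (sub_eq_zero.1 h).symm⟩
  have hsev : ev (ψ c) s = 0 := by
    rw [hs, ev_sub _ htc ((ψ c).algebraMap_mem' c), ev_algebraMap, hevc, sub_self]
  have hge : 1 ≤ (ψ c).ord s := ((ev_eq_zero_iff _ hsm).1 hsev).resolve_left hs0
  by_contra hne
  obtain ⟨π, hπ⟩ := exists_ord_eq_one (ψ c)
  obtain ⟨hπm, hπ0⟩ := mem_of_ord_eq_one (ψ c) hπ
  have hπne : π ≠ 0 := ne_zero_of_ord_ne_zero (ψ c) (by omega)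
  set h := s / π ^ 2 with hh
  have hhm : h ∈ (ψ c).toValuationSubring := by
    refine div_mem_of_ord_le _ (Or.inr ?_)
    rw [← zpow_natCast, Place.ord_zpow, hπ]
    push_cast; omega
  have hse : s = π * π * h := by rw [hh]; field_simp
  have hsd : HasDerivAt (fun x => ev (ψ x) s) 1 c := by
    refine (((hasDerivAt_id c).sub_const c)).congr_of_eventuallyEq ?_
    filter_upwards [hev] with x hx
    rw [hs, ev_sub _ hx.1 ((ψ x).algebraMap_mem' c), ev_algebraMap, hx.2]
    rfl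
  have hπd := (hdiff π hπm).2.hasDerivAt
  have hpd := (hπd.mul hπd).mul (hdiff h hhm).2.hasDerivAt
  have hpd' := hpd.congr_of_eventuallyEq (f₁ := fun x => ev (ψ x) s) (by
    filter_upwards [(hdiff π hπm).1, (hdiff h hhm).1] with x hx1 hx2
    show ev (ψ x) s = _
    rw [hse, ev_mul _ (mul_mem hx1 hx1) hx2, ev_mul _ hx1 hx1]
    rfl)
  have := hsd.unique hpd'
  simp [hπ0] at this

variable {P : Place ℂ F}

/-- The places near `P` in a family parametrised by the uniformiser `t`: the values of a basis `B`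
at them form a holomorphic common eigenvector of the multiplication matrices at `t = c`, and there
is a holomorphic left eigenvector normalised against it. -/
theorem BasisData.exists_place_family {t : F} (B : BasisData (K := ℂ) t) (ht : P.ord t = 1) :
    ∃ (ρ : ℝ) (ψ : ℂ → Place ℂ F) (a : ℂ → Fin B.n → ℂ), 0 < ρ ∧ ψ 0 = P ∧
      (∀ ε > 0, ψ '' Metric.ball (0 : ℂ) ε ∈ 𝓝 P) ∧
      ∀ c ∈ Metric.ball (0 : ℂ) ρ, (t ∈ (ψ c).toValuationSubring ∧ ev (ψ c) t = c) ∧
        (∀ i, DifferentiableAt ℂ (fun x => B.bval (ψ x) i) c) ∧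
        (∀ i, DifferentiableAt ℂ (fun x => a x i) c) ∧
        (∀ k, a c ᵥ* B.mulMatAt c (B.b k) = B.bval (ψ c) k • a c) ∧
        a c ⬝ᵥ B.bval (ψ c) = 1 := by
  classical
  have htr := notMem_range_of_ord ht
  obtain ⟨htm, ht0⟩ := mem_of_ord_eq_one P ht
  obtain ⟨z, hz, hzP, hzo⟩ := exists_separator (K := ℂ) t P ht
  set u0 : Fin B.n → ℂ := B.bval P with hu0
  set ζ0 : Fin B.n → ℂ := B.coordsAt 0 z with hζ0
  have hζu : ζ0 ⬝ᵥ u0 = 1 := by
    have := B.ev_eq_dot P htm hz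
    rw [ht0, hzP] at this
    exact this.symm
  have hZ0 : B.mulMatAt 0 z = vecMulVec u0 ζ0 := B.mulMatAt_separator ht hz hzo
  have hpoly : ∀ (f : F) (i : Fin B.n), ContDiff ℂ 1 (fun x : ℂ => B.coordsAt x f i) := fun f i =>
    (B.coords f i).contDiff_aeval 1
  obtain ⟨u, hu00, hu, huniq⟩ := exists_eigenvector (M := fun c => B.mulMatAt c z)
    (ζ := fun c => B.coordsAt c z) (fun i j => hpoly (z * B.b i) j) (hpoly z) hζu hZ0
  let φ : ℂ → ℂ := fun c => B.coordsAt c z ⬝ᵥ u c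
  let l : ℂ → Fin B.n → ℂ := fun c => leftVec (B.mulMatAt c z) (φ c) u0 ζ0
  have hdiffcoord : ∀ (c : ℂ) (f : F) (i : Fin B.n),
      DifferentiableAt ℂ (fun x => B.coordsAt x f i) c := fun c f i =>
    ((hpoly f i).differentiable one_ne_zero).differentiableAt
  have hφD : ∀ c, DifferentiableAt ℂ u c → DifferentiableAt ℂ φ c := fun c hc =>
    DifferentiableAt.fun_sum fun i _ => (hdiffcoord c z i).mul (differentiableAt_pi.1 hc i)
  have hlD : ∀ c, DifferentiableAt ℂ u c →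
      (shiftMatrix (B.mulMatAt c z) (φ c) u0 ζ0).det ≠ 0 →
      ∀ j, DifferentiableAt ℂ (fun x => l x j) c := fun c hc hd =>
    differentiableAt_leftVec (fun i j => hdiffcoord c (z * B.b i) j) (hφD c hc) hd
  have hu0D := hu.self_of_nhds.1
  have hφ0 : φ 0 = 1 := by show B.coordsAt 0 z ⬝ᵥ u 0 = 1; rw [hu00, ← hζ0, hζu]
  have hgood₀ := eventually_simple (M := fun c => B.mulMatAt c z)
    (fun i j => hdiffcoord 0 (z * B.b i) j) (hφD 0 hu0D) hu0D hu00
    hζu hφ0 hZ0
  obtain ⟨ρ, hρ, hgood⟩ := Metric.eventually_nhds_iff_ball.1 (hu.and hgood₀)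
  have heig : ∀ c ∈ Metric.ball (0 : ℂ) ρ,
      B.coordsAt c 1 ⬝ᵥ u c = 1 ∧ ∀ k, B.mulMatAt c (B.b k) *ᵥ u c = u c k • u c := by
    intro c hc
    obtain ⟨⟨-, he⟩, hd, -, hζ, hφ⟩ := hgood c hc
    exact B.eigen_of_simple hz hφ he fun w hw => ⟨_, eigen_eq_smul hd he hζ hw⟩
  have hψex : ∀ c : ℂ, ∃ v : Place ℂ F, c ∈ Metric.ball (0 : ℂ) ρ →
      t ∈ v.toValuationSubring ∧ ev v t = c ∧ B.bval v = u c := by
    intro c
    by_cases hc : c ∈ Metric.ball (0 : ℂ) ρ
    · obtain ⟨v, hv⟩ := B.exists_place_of_eigen htr c (u c) (heig c hc).1 (heig c hc).2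
      exact ⟨v, fun _ => hv⟩
    · exact ⟨P, fun h => absurd h hc⟩
  choose ψ hψ using hψex
  have h0ρ : (0 : ℂ) ∈ Metric.ball (0 : ℂ) ρ := Metric.mem_ball_self hρ
  refine ⟨ρ, ψ, fun c => (l c ⬝ᵥ u c)⁻¹ • l c, hρ, ?_, fun ε hε => ?_, fun c hc => ?_⟩
  · exact B.place_ext htr (hψ 0 h0ρ).1 htm ((hψ 0 h0ρ).2.1.trans ht0.symm)
      (by rw [(hψ 0 h0ρ).2.2, hu00])
  · have hmem : ∀ᶠ v in 𝓝 P, t ∈ v.toValuationSubring := (isOpen_regular t).mem_nhds htm
    have htt : Tendsto (fun v : Place ℂ F => ev v t) (𝓝 P) (𝓝 0) :=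
      ht0 ▸ continuousAt_ev htm
    have hbt : Tendsto (fun v : Place ℂ F => (ev v t, B.bval v)) (𝓝 P) (𝓝 (0, u0)) :=
      htt.prodMk_nhds (tendsto_pi_nhds.2 fun i => continuousAt_ev (B.b_mem i P htm))
    filter_upwards [hmem, hbt.eventually huniq,
      htt.eventually (Metric.ball_mem_nhds 0 (lt_min hε hρ))] with v hv hl hb
    have hb1 : ev v t ∈ Metric.ball (0 : ℂ) ρ :=
      Metric.ball_subset_ball (min_le_right _ _) hb
    refine ⟨ev v t, Metric.ball_subset_ball (min_le_left _ _) hb, ?_⟩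
    refine B.place_ext htr (hψ _ hb1).1 hv (hψ _ hb1).2.1 ?_
    rw [(hψ _ hb1).2.2]
    exact hl (by rw [B.mulMatAt_bval v hv hz, B.ev_eq_dot v hv hz])
  · obtain ⟨⟨huc, he⟩, hd, hlu, hζ, -⟩ := hgood c hc
    obtain ⟨htc, hevc, hbc⟩ := hψ c hc
    refine ⟨⟨htc, hevc⟩, fun i => ?_, fun i => ?_, fun k => ?_, ?_⟩
    · refine (differentiableAt_pi.1 huc i).congr_of_eventuallyEq ?_
      filter_upwards [Metric.isOpen_ball.mem_nhds hc] with x hx
      rw [(hψ x hx).2.2]
    · simp only [Pi.smul_apply, smul_eq_mul]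
      have hlu' : DifferentiableAt ℂ (fun x => l x ⬝ᵥ u x) c :=
        DifferentiableAt.fun_sum fun j _ => (hlD c huc hd j).mul (differentiableAt_pi.1 huc j)
      exact (hlu'.inv hlu).mul (hlD c huc hd i)
    · rw [Matrix.smul_vecMul, leftVec_vecMul_of_commute hd he hζ hlu
        (B.mulMatAt_commute c (B.b_mem k) hz) ((heig c hc).2 k), hbc, smul_comm]
    · rw [hbc, smul_dotProduct, smul_eq_mul, inv_mul_cancel₀ hlu]

variable (P) in
/-- Every place has a chart. -/
theorem nonempty_chart : Nonempty (Chart P) := by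
  classical
  obtain ⟨t, ht⟩ := exists_ord_eq_one P
  have htr := notMem_range_of_ord ht
  obtain ⟨B⟩ := nonempty_basisData t htr
  obtain ⟨ρ, ψ, a, hρ, hcenter, himage, hψ⟩ := B.exists_place_family ht
  have hev : ∀ c ∈ Metric.ball (0 : ℂ) ρ,
      ∀ᶠ x in 𝓝 c, t ∈ (ψ x).toValuationSubring ∧ ev (ψ x) t = x := fun c hc => by
    filter_upwards [Metric.isOpen_ball.mem_nhds hc] with x hx using (hψ x hx).1
  have hdiff : ∀ c ∈ Metric.ball (0 : ℂ) ρ, ∀ f ∈ (ψ c).toValuationSubring,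
      (∀ᶠ x in 𝓝 c, f ∈ (ψ x).toValuationSubring) ∧
        DifferentiableAt ℂ (fun x => ev (ψ x) f) c := by
    refine fun c hc f hf => eventually_mem_and_differentiableAt htr ((hev c hc).mono fun _ h => h.1)
      (fun f hf => ?_) hf
    refine DifferentiableAt.congr_of_eventuallyEq
      (f := fun x => B.coordsAt x f ⬝ᵥ B.bval (ψ x)) ?_ ?_
    · exact DifferentiableAt.fun_sum fun i _ =>
        ((((B.coords f i).contDiff_aeval 1).differentiable one_ne_zero) c).mul ((hψ c hc).2.1 i)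
    · filter_upwards [hev c hc] with x hx
      rw [B.ev_eq_dot (ψ x) hx.1 hf, hx.2]
  have hord : ∀ c ∈ Metric.ball (0 : ℂ) ρ, (ψ c).ord (t - algebraMap ℂ F c) = 1 := fun c hc =>
    ord_sub_eq_one htr (hev c hc) (hdiff c hc)
  have hpolar : ∀ (L : H1 (0 : Divisor ℂ F) →ₗ[ℂ] ℂ), ∀ c ∈ Metric.ball (0 : ℂ) ρ,
      DifferentiableAt ℂ (fun c' => L (polar ℂ F (ψ c') (t - algebraMap ℂ F c')⁻¹)) c := by
    intro L c hc
    set S := (finite_poles t).toFinset with hS
    set N : ℕ := S.sup fun T => Finset.univ.sup fun i => (T.ord (B.b i)).natAbs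
    have hN : ∀ T ∈ S, ∀ i, (T.ord (B.b i)).natAbs ≤ N := fun T hT i =>
      (Finset.le_sup (f := fun i => (T.ord (B.b i)).natAbs) (Finset.mem_univ i)).trans
        (Finset.le_sup (f := fun T : Place ℂ F =>
          Finset.univ.sup fun i => (T.ord (B.b i)).natAbs) hT)
    refine DifferentiableAt.congr_of_eventuallyEq (f := fun x => -∑ T ∈ S, ∑ i,
      ∑ k ∈ Finset.range N, a x i * x ^ k * L (polar ℂ F T (B.b i * t⁻¹ ^ (k + 1)))) ?_ ?_
    · exact (DifferentiableAt.fun_sum fun T _ => DifferentiableAt.fun_sum fun i _ =>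
        DifferentiableAt.fun_sum fun k _ =>
          (((hψ c hc).2.2.1 i).mul (differentiableAt_pow _)).mul_const _).neg
    · filter_upwards [Metric.isOpen_ball.mem_nhds hc] with x hx
      obtain ⟨⟨htx, hevx⟩, -, -, ha, ha1⟩ := hψ x hx
      rw [B.polar_inv_sub_eq htr htx hevx (hord x hx) ha ha1
        (fun v => by rw [hS, Set.Finite.mem_toFinset]; rfl) hN]
      simp only [map_neg, map_sum, map_smul, smul_eq_mul]
  exact ⟨⟨t, ht, ψ, ρ, hρ, hcenter, fun c hc => (hψ c hc).1.1, fun c hc => (hψ c hc).1.2, hord,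
    fun c hc => tendsto_place_iff.2 fun f hf =>
      ⟨(hdiff c hc f hf).1, (hdiff c hc f hf).2.continuousAt.tendsto⟩,
    himage, fun c hc f hf => (hdiff c hc f hf).2, hpolar⟩⟩

variable (P)

/-- A fixed chart at every place. -/
def chart : Chart P := (nonempty_chart P).some

namespace Chart

variable {P} (C : Chart P)

omit [Algebra.EssFiniteType ℂ F] in
/-- A function regular at a point of the chart is regular nearby. -/
theorem eventually_mem {c : ℂ} (hc : c ∈ Metric.ball (0 : ℂ) C.ρ) {f : F}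
    (hf : f ∈ (C.ψ c).toValuationSubring) : ∀ᶠ x in 𝓝 c, f ∈ (C.ψ x).toValuationSubring :=
  (tendsto_place_iff.1 (C.tendsto c hc) f hf).1

omit [Algebra.EssFiniteType ℂ F] in
/-- The centre lies in the disc of the chart. -/
theorem zero_mem_ball : (0 : ℂ) ∈ Metric.ball (0 : ℂ) C.ρ := Metric.mem_ball_self C.ρ_pos

omit [Algebra.EssFiniteType ℂ F] in
/-- Only the parameter `0` gives the centre of the chart. -/
theorem ψ_eq_center_iff {c : ℂ} (hc : c ∈ Metric.ball (0 : ℂ) C.ρ) : C.ψ c = P ↔ c = 0 := by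
  refine ⟨fun h => ?_, fun h => h ▸ C.center⟩
  rw [← C.ev_t c hc, h]
  exact (mem_of_ord_eq_one P C.ord_t).2

end Chart

end Fermat.Agent.CurveJacobian
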