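import Fermat.Agent.CurveJacobian.AbelMap
import Mathlib.Analysis.Complex.AbsMax

/-!
# The exponential map `ℂ^g → Pic0`

The local maps `locMap D` agree near `0` for all non-special `D` and are additive there, so extend
to a homomorphism `expHom : ℂ^g → Pic0`. Its kernel is discrete (`eventually_eq_zero_of_expHom`),
and every class is the image of a vector of bounded norm (`exists_bound_expHom`), because the
space of places is compact and connected.
-/

set_option autoImplicit false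

noncomputable section

open AlgebraicCurve Filter Topology

namespace Fermat.Agent.CurveJacobian

variable {F : Type*} [Field F] [Algebra ℂ F] [IsCurveOver ℂ F] [Algebra.EssFiniteType ℂ F]

local notation "𝔤" => genusFF ℂ F

omit [IsCurveOver ℂ F] [Algebra.EssFiniteType ℂ F] in
theorem injective_three {n : ℕ} {D U V : Fin n → Place ℂ F} (hD : Function.Injective D)
    (hU : Function.Injective U) (hV : Function.Injective V) (hDU : ∀ i j, D i ≠ U j)
    (hDV : ∀ i j, D i ≠ V j) (hUV : ∀ i j, U i ≠ V j) :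
    Function.Injective fun x : Fin 3 × Fin n => (![D, U, V] x.1) x.2 := by
  rintro ⟨a, i⟩ ⟨b, j⟩ h
  fin_cases a <;> fin_cases b <;> simp at h
  · rw [hD h]
  · exact absurd h (hDU i j)
  · exact absurd h (hDV i j)
  · exact absurd h.symm (hDU j i)
  · rw [hU h]
  · exact absurd h (hUV i j)
  · exact absurd h.symm (hDV j i)
  · exact absurd h.symm (hUV j i)
  · rw [hV h]

theorem locMap_zero {D : Fin (genusFF ℂ F) → Place ℂ F} (hD : NonSpecial unif D) :
    locMap D 0 = 0 := by
  rw [locMap, (abelInv_spec hD).2.2.2, movingClass, Pic0.mk, QuotientAddGroup.eq_zero_iff,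
    AddSubgroup.mem_addSubgroupOf]
  show movingDiv D 0 ∈ _
  have : movingDiv D (0 : Fin 𝔤 → ℂ) = 0 := by
    simp [movingDiv, (chart _).center]
  rw [this]
  exact zero_mem _

theorem eventually_add_eq {D U V : Fin (genusFF ℂ F) → Place ℂ F} (hD : NonSpecial unif D)
    (hU : NonSpecial unif U) (hV : NonSpecial unif V) (hDU : ∀ i j, D i ≠ U j)
    (hDV : ∀ i j, D i ≠ V j) (hUV : ∀ i j, U i ≠ V j) :
    ∀ᶠ v : (Fin (genusFF ℂ F) → ℂ) × (Fin (genusFF ℂ F) → ℂ) in 𝓝 0,
      locMap D v.1 + locMap U v.2 + locMap V (-v.1 - v.2) = 0 := by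
  refine three_identity (D := ![D, U, V]) (fun a => ?_) (injective_three hD.1 hU.1 hV.1 hDU hDV hUV)
  fin_cases a
  · exact hD
  · exact hU
  · exact hV

/-- The local map does not depend on the non-special tuple. -/
theorem eventually_locMap_eq {D E : Fin (genusFF ℂ F) → Place ℂ F} (hD : NonSpecial unif D)
    (hE : NonSpecial unif E) : ∀ᶠ v in 𝓝 0, locMap D v = locMap E v := by
  classical
  obtain ⟨U, hU, hU'⟩ := exists_nonSpecial (ord_unif (F := F))
    (Finset.univ.image D ∪ Finset.univ.image E)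
  obtain ⟨V, hV, hV'⟩ := exists_nonSpecial (ord_unif (F := F))
    (Finset.univ.image D ∪ Finset.univ.image E ∪ Finset.univ.image U)
  simp only [Finset.mem_union, Finset.mem_image, Finset.mem_univ, true_and, not_or,
    not_exists] at hU' hV'
  have h1 := eventually_add_eq hD hU hV (fun i j => (hU' j).1 i) (fun i j => (hV' j).1.1 i)
    (fun i j => (hV' j).2 i)
  have h2 := eventually_add_eq hE hU hV (fun i j => (hU' j).2 i) (fun i j => (hV' j).1.2 i)
    (fun i j => (hV' j).2 i)
  have ht : Tendsto (fun v : Fin 𝔤 → ℂ => (v, (0 : Fin 𝔤 → ℂ))) (𝓝 0) (𝓝 0) :=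
    (continuous_id.prodMk continuous_const).tendsto' _ _ rfl
  filter_upwards [ht.eventually h1, ht.eventually h2] with v e1 e2
  exact add_right_cancel (add_right_cancel (e1.trans e2.symm))

/-- The local map is additive near `0`. -/
theorem eventually_locMap_add {D : Fin (genusFF ℂ F) → Place ℂ F} (hD : NonSpecial unif D) :
    ∀ᶠ v : (Fin (genusFF ℂ F) → ℂ) × (Fin (genusFF ℂ F) → ℂ) in 𝓝 0,
      locMap D (v.1 + v.2) = locMap D v.1 + locMap D v.2 := by
  classical
  obtain ⟨U, hU, hU'⟩ := exists_nonSpecial (ord_unif (F := F)) (Finset.univ.image D)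
  obtain ⟨V, hV, hV'⟩ := exists_nonSpecial (ord_unif (F := F))
    (Finset.univ.image D ∪ Finset.univ.image U)
  simp only [Finset.mem_union, Finset.mem_image, Finset.mem_univ, true_and, not_or,
    not_exists] at hU' hV'
  have h1 := eventually_add_eq hD hU hV (fun i j => hU' j i) (fun i j => (hV' j).1 i)
    (fun i j => (hV' j).2 i)
  have ht : Tendsto (fun v : (Fin 𝔤 → ℂ) × (Fin 𝔤 → ℂ) => (v.1 + v.2, (0 : Fin 𝔤 → ℂ)))
      (𝓝 0) (𝓝 0) :=
    ((continuous_fst.add continuous_snd).prodMk continuous_const).tendsto' _ _ (by simp)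
  filter_upwards [h1, ht.eventually h1,
    (continuous_snd.tendsto' (0 : (Fin 𝔤 → ℂ) × (Fin 𝔤 → ℂ)) 0 rfl).eventually
      (eventually_locMap_eq hD hU)] with v e1 e2 e3
  simp only [sub_zero, locMap_zero hU, add_zero] at e2
  rw [← neg_add'] at e1
  rw [e3]
  exact add_right_cancel (b := locMap V (-(v.1 + v.2))) (e2.trans e1.symm)

/-- A fixed non-special tuple. -/
def baseTuple : Fin (genusFF ℂ F) → Place ℂ F :=
  (exists_nonSpecial (ord_unif (F := F)) ∅).choose

theorem nonSpecial_baseTuple : NonSpecial unif (baseTuple (F := F)) :=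
  (exists_nonSpecial (ord_unif (F := F)) ∅).choose_spec.1

theorem exists_radius : ∃ δ > 0, ∀ v ∈ Metric.ball (0 : Fin (genusFF ℂ F) → ℂ) δ,
    ∀ w ∈ Metric.ball (0 : Fin (genusFF ℂ F) → ℂ) δ,
      locMap (baseTuple (F := F)) (v + w) = locMap baseTuple v + locMap baseTuple w := by
  obtain ⟨δ, hδ, h⟩ := Metric.eventually_nhds_iff_ball.1
    (eventually_locMap_add (nonSpecial_baseTuple (F := F)))
  refine ⟨δ, hδ, fun v hv w hw => h (v, w) ?_⟩
  rw [← Prod.mk_zero_zero, ← ball_prod_same]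
  exact ⟨hv, hw⟩

/-- Radius of additivity. -/
def radius (F : Type*) [Field F] [Algebra ℂ F] [IsCurveOver ℂ F] [Algebra.EssFiniteType ℂ F] : ℝ :=
  (exists_radius (F := F)).choose

theorem radius_pos : 0 < radius F := (exists_radius (F := F)).choose_spec.1

theorem locMap_nsmul {m : ℕ} {w : Fin (genusFF ℂ F) → ℂ} (h : m • ‖w‖ < radius F) :
    locMap (baseTuple (F := F)) (m • w) = m • locMap baseTuple w := by
  induction m with
  | zero => simp [locMap_zero nonSpecial_baseTuple]
  | succ m ih =>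
    rw [nsmul_eq_mul] at h ih
    push_cast at h
    have hw := norm_nonneg w
    have hm : (0 : ℝ) ≤ m * ‖w‖ := by positivity
    rw [succ_nsmul, succ_nsmul, ← ih (by linarith)]
    refine (exists_radius (F := F)).choose_spec.2 _ ?_ _ ?_
    · rw [Metric.mem_ball, dist_zero_right]
      refine lt_of_le_of_lt norm_nsmul_le ?_
      exact lt_of_le_of_lt (by nlinarith) h
    · rw [Metric.mem_ball, dist_zero_right]
      exact lt_of_le_of_lt (by nlinarith) h

/-- Number of subdivision steps. -/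
def steps (v : Fin (genusFF ℂ F) → ℂ) : ℕ := ⌊‖v‖ / radius F⌋₊ + 1

/-- The exponential map, as a function. -/
def expFun (v : Fin (genusFF ℂ F) → ℂ) : Pic0 ℂ F :=
  steps v • locMap baseTuple ((steps v : ℂ)⁻¹ • v)

theorem norm_lt_of_steps_le {v : Fin (genusFF ℂ F) → ℂ} {n : ℕ} (h : steps v ≤ n) :
    ‖v‖ < n * radius F := by
  have h1 := Nat.lt_floor_add_one (‖v‖ / radius F)
  rw [div_lt_iff₀ radius_pos] at h1
  refine h1.trans_le (mul_le_mul_of_nonneg_right ?_ radius_pos.le)
  have : ((⌊‖v‖ / radius F⌋₊ + 1 : ℕ) : ℝ) ≤ n := by exact_mod_cast h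
  push_cast at this
  exact this

theorem expFun_eq {v : Fin (genusFF ℂ F) → ℂ} {n : ℕ} (hn : 0 < n)
    (h : ‖v‖ < n * radius F) : expFun v = n • locMap baseTuple ((n : ℂ)⁻¹ • v) := by
  have key : ∀ a b : ℕ, 0 < a → 0 < b → ‖v‖ < a * radius F →
      a • locMap (baseTuple (F := F)) ((a : ℂ)⁻¹ • v)
        = (a * b) • locMap baseTuple (((a * b : ℕ) : ℂ)⁻¹ • v) := by
    intro a b ha hb hv
    have ha' : (a : ℂ) ≠ 0 := Nat.cast_ne_zero.2 ha.ne'
    have hb' : (b : ℂ) ≠ 0 := Nat.cast_ne_zero.2 hb.ne'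
    have hrw : (a : ℂ)⁻¹ • v = b • (((a * b : ℕ) : ℂ)⁻¹ • v) := by
      rw [← Nat.cast_smul_eq_nsmul ℂ, smul_smul]
      push_cast; field_simp
    conv_lhs => rw [hrw]
    rw [locMap_nsmul, mul_nsmul']
    rw [norm_smul, norm_inv, Complex.norm_natCast, nsmul_eq_mul]
    push_cast
    have : (b : ℝ) * (((a : ℝ) * b)⁻¹ * ‖v‖) = ‖v‖ / a := by
      have := (Nat.cast_ne_zero (R := ℝ)).2 hb.ne'
      field_simp
    rw [this, div_lt_iff₀ (Nat.cast_pos.2 ha)]
    linarith
  rw [expFun, key (steps v) n (Nat.succ_pos _) hn (norm_lt_of_steps_le le_rfl),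
    key n (steps v) hn (Nat.succ_pos _) h, mul_comm]

/-- The exponential map. -/
def expHom : (Fin (genusFF ℂ F) → ℂ) →+ Pic0 ℂ F :=
  AddMonoidHom.mk' expFun fun v w => by
    set n := steps v + steps w + steps (v + w) with hn
    have hn0 : 0 < n := by simp only [n, steps]; omega
    have h1 : ‖v‖ < n * radius F := norm_lt_of_steps_le (by omega)
    have h2 : ‖w‖ < n * radius F := norm_lt_of_steps_le (by omega)
    rw [expFun_eq hn0 h1, expFun_eq hn0 h2,
      expFun_eq hn0 (norm_lt_of_steps_le (v := v + w) (n := n) (by omega)), smul_add, ← nsmul_add]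
    congr 1
    refine (exists_radius (F := F)).choose_spec.2 _ ?_ _ ?_ <;>
    · rw [Metric.mem_ball, dist_zero_right, norm_smul, norm_inv, Complex.norm_natCast,
        inv_mul_lt_iff₀ (Nat.cast_pos.2 hn0)]
      assumption

/-- Near `0` the exponential agrees with every local map. -/
theorem eventually_expHom_eq {D : Fin (genusFF ℂ F) → Place ℂ F} (hD : NonSpecial unif D) :
    ∀ᶠ v in 𝓝 0, expHom (F := F) v = locMap D v := by
  filter_upwards [eventually_locMap_eq (nonSpecial_baseTuple (F := F)) hD,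
    Metric.ball_mem_nhds (0 : Fin 𝔤 → ℂ) (radius_pos (F := F))] with v hv hb
  rw [Metric.mem_ball, dist_zero_right] at hb
  show expFun v = _
  rw [expFun_eq one_pos (by simpa using hb), ← hv]
  simp

/-- The kernel of the exponential is discrete. -/
theorem eventually_eq_zero_of_expHom :
    ∀ᶠ v : Fin (genusFF ℂ F) → ℂ in 𝓝 0, expHom (F := F) v = 0 → v = 0 := by
  classical
  have hD := nonSpecial_baseTuple (F := F)
  obtain ⟨-, hright, ht, -⟩ := abelInv_spec hD
  have hgood : ∀ᶠ c : Fin 𝔤 → ℂ in 𝓝 0, ∀ i,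
      c i ∈ Metric.ball (0 : ℂ) (chart (baseTuple (F := F) i)).ρ ∧
      ∀ l, l ≠ i → (chart (baseTuple (F := F) i)).ψ (c i) ≠ baseTuple l :=
    eventually_all.2 fun i => (((continuous_apply i).tendsto' 0 0 rfl).eventually
      (eventually_chart_good hD.1)).mono fun c hc => ⟨(hc i).1, fun l hl => ((hc i).2 l hl).1⟩
  filter_upwards [eventually_expHom_eq hD, hright, ht.eventually hgood] with v hv hr hg h0
  set c := abelInv (baseTuple (F := F)) v
  rw [hv, locMap, movingClass, Pic0.mk, QuotientAddGroup.eq_zero_iff,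
    AddSubgroup.mem_addSubgroupOf, Divisor.mem_principal] at h0
  obtain ⟨f, hf0, hf⟩ := h0
  have hf' : ∀ w, tupleDiv (fun i => (chart (baseTuple (F := F) i)).ψ (c i)) w -
      tupleDiv baseTuple w = w.ord f := fun w => hf w
  obtain ⟨a, ha⟩ := hD.const_of_mem ord_unif (f := f) (by
    rw [mem_riemannRochSpace_iff]
    intro w
    right
    have := hf' w
    have := tupleDiv_nonneg (fun i => (chart (baseTuple (F := F) i)).ψ (c i)) w
    omega)
  have hord : ∀ w : Place ℂ F, w.ord f = 0 := fun w => by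
    have ha0 : a ≠ 0 := by rintro rfl; exact hf0 (by simpa using ha.symm)
    have h1 : ev w (algebraMap ℂ F a) ≠ 0 := by simpa using ha0
    rw [← ha]
    exact ((ev_ne_zero_iff w (w.algebraMap_mem' a)).1 h1).2
  have hc : c = 0 := by
    funext i
    have hi : (chart (baseTuple (F := F) i)).ψ (c i) ∈ Set.range (baseTuple (F := F)) := by
      by_contra hne
      have h := hf' ((chart (baseTuple (F := F) i)).ψ (c i))
      rw [hord, tupleDiv_apply_of_notMem hne] at h
      have h2 : (1 : ℤ) ≤ tupleDiv (fun i => (chart (baseTuple (F := F) i)).ψ (c i))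
          ((chart (baseTuple (F := F) i)).ψ (c i)) := by
        rw [tupleDiv, Finsupp.finsetSum_apply]
        refine le_trans ?_ (Finset.single_le_sum (fun j _ => ?_) (Finset.mem_univ i))
        · simp
        · rw [Finsupp.single_apply]; split_ifs <;> norm_num
      omega
    obtain ⟨l, hl⟩ := hi
    rcases eq_or_ne l i with rfl | hne
    · exact ((chart (baseTuple (F := F) l)).ψ_eq_center_iff (hg l).1).1 hl.symm
    · exact absurd hl.symm ((hg i).2 l hne)
  rw [← hr, hc, abelSum_zero]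

/-- The class of `Q - P`. -/
def diffClass (P Q : Place ℂ F) : Pic0 ℂ F :=
  Pic0.mk ⟨Finsupp.single Q 1 - Finsupp.single P 1, by
    rw [Divisor.mem_degZero, map_sub, degree_single', degree_single', sub_self]⟩

omit [Algebra.EssFiniteType ℂ F] in
theorem diffClass_add (P Q R : Place ℂ F) : diffClass P R = diffClass P Q + diffClass Q R := by
  simp only [diffClass, ← Pic0.mk_add]
  refine congrArg Pic0.mk (Subtype.ext ?_)
  show (_ : Divisor ℂ F) = (_ - _) + (_ - _)
  abel_nf

/-- The classes `Q - P` with `Q` near `P` are exponentials of short vectors. -/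
theorem exists_nhd_small (hg : 0 < genusFF ℂ F) (P : Place ℂ F) :
    ∀ᶠ Q in 𝓝 P, ∃ v : Fin (genusFF ℂ F) → ℂ, ‖v‖ < 1 ∧ expHom v = diffClass P Q := by
  classical
  obtain ⟨D, hD, i, rfl⟩ := exists_nonSpecial_through (ord_unif (F := F)) hg P
  obtain ⟨hleft, -, -, -⟩ := abelInv_spec hD
  have hs : Tendsto (fun c : ℂ => Pi.single (M := fun _ : Fin 𝔤 => ℂ) i c) (𝓝 0) (𝓝 0) :=
    (continuous_single i).tendsto' _ _ (Pi.single_zero i)
  have hG : ∀ c : ℂ, abelSum D (Pi.single i c) = prim (D i) c := fun c => by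
    rw [abelSum, Finset.sum_eq_single i]
    · simp
    · intro j _ hj; simp [Pi.single_eq_of_ne hj, prim_zero]
    · simp
  have hp : Tendsto (prim (D i)) (𝓝 0) (𝓝 0) := by
    have := (hasStrictDerivAt_prim (D i)).hasDerivAt.continuousAt.tendsto
    rwa [prim_zero] at this
  obtain ⟨r, hr, hball⟩ := Metric.eventually_nhds_iff_ball.1
    ((hs.eventually hleft).and ((hp.eventually (eventually_expHom_eq hD)).and
      (hp.eventually (Metric.ball_mem_nhds 0 one_pos))))
  filter_upwards [(chart (D i)).image_mem r hr] with Q hQ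
  obtain ⟨c, hc, rfl⟩ := hQ
  obtain ⟨h1, h2, h3⟩ := hball c hc
  refine ⟨prim (D i) c, by simpa using h3, ?_⟩
  rw [h2, locMap, ← hG, h1, movingClass, diffClass]
  refine congrArg Pic0.mk (Subtype.ext ?_)
  show movingDiv D (Pi.single i c) = _
  rw [movingDiv, tupleDiv, tupleDiv, ← Finset.sum_sub_distrib, Finset.sum_eq_single i]
  · simp
  · intro j _ hj; simp [Pi.single_eq_of_ne hj, (chart _).center]
  · simp

/-- The space of places is connected. -/
theorem eq_univ_of_isClopen {A : Set (Place ℂ F)} (hA : IsClopen A) {Z : Place ℂ F} (hZ : Z ∈ A) :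
    A = Set.univ := by
  by_contra hne
  obtain ⟨f, hf, hfreg⟩ := exists_nonconst_one_pole (K := ℂ) Z
  have hB : IsCompact Aᶜ := hA.2.isClosed_compl.isCompact
  have hBne : Aᶜ.Nonempty := Set.nonempty_compl.2 hne
  have hreg : ∀ Q ∈ Aᶜ, f ∈ Q.toValuationSubring := fun Q hQ =>
    hfreg Q fun h => hQ (h ▸ hZ)
  have hcont : ContinuousOn (fun R : Place ℂ F => ev R f) Aᶜ :=
    fun R hR => (continuousAt_ev (hreg R hR)).continuousWithinAt
  obtain ⟨Q, hQ, hmax⟩ := hB.exists_isMaxOn hBne hcont.norm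
  set C := chart Q
  have hψ : Tendsto C.ψ (𝓝 0) (𝓝 Q) := by
    have := C.tendsto 0 C.zero_mem_ball
    rwa [C.center] at this
  have hinB : ∀ᶠ c in 𝓝 0, C.ψ c ∈ Aᶜ :=
    hψ.eventually (hA.1.isOpen_compl.mem_nhds hQ)
  have hloc : IsLocalMax (norm ∘ fun c => ev (C.ψ c) f) 0 := by
    filter_upwards [hinB] with c hc
    simp only [Function.comp_apply]
    rw [show C.ψ 0 = Q from C.center]
    exact hmax hc
  have hd : ∀ᶠ c in 𝓝 (0 : ℂ), DifferentiableAt ℂ (fun c => ev (C.ψ c) f) c := by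
    filter_upwards [hinB, Metric.ball_mem_nhds (0 : ℂ) C.ρ_pos] with c hc hc'
    exact C.differentiableAt c hc' f (hreg _ hc)
  obtain ⟨r, hr, hball⟩ := Metric.eventually_nhds_iff_ball.1
    ((Complex.eventually_eq_of_isLocalMax_norm hd hloc).and
      (hinB.and (Metric.ball_mem_nhds (0 : ℂ) C.ρ_pos)))
  set s := f - algebraMap ℂ F (ev (C.ψ 0) f) with hs
  have hs0 : s ≠ 0 := fun h => hf ⟨_, (sub_eq_zero.1 h).symm⟩
  obtain ⟨Ds, hDs, -⟩ := HasPrincipalDivisors.exists_divisor (K := ℂ) s hs0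
  have hinf : (C.ψ '' Metric.ball (0 : ℂ) r).Infinite := by
    refine Set.Infinite.image (fun c hc c' hc' h => ?_) ?_
    · rw [← C.ev_t c (hball c hc).2.2, h, C.ev_t c' (hball c' hc').2.2]
    · exact infinite_of_mem_nhds 0 (Metric.ball_mem_nhds 0 hr)
  refine hinf (Ds.support.finite_toSet.subset ?_)
  rintro _ ⟨c, hc, rfl⟩
  obtain ⟨he, hcB, -⟩ := hball c hc
  have hsm : s ∈ (C.ψ c).toValuationSubring :=
    sub_mem (hreg _ hcB) ((C.ψ c).algebraMap_mem' _)
  have hse : ev (C.ψ c) s = 0 := by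
    rw [hs, ev_sub _ (hreg _ hcB) ((C.ψ c).algebraMap_mem' _), ev_algebraMap, he, sub_self]
  have h1 := ((ev_eq_zero_iff _ hsm).1 hse).resolve_left hs0
  rw [Finset.mem_coe, Finsupp.mem_support_iff, hDs]
  omega

/-- All classes `Q - Z` are exponentials of vectors of bounded norm. -/
theorem exists_bound_diffClass (hg : 0 < genusFF ℂ F) (Z : Place ℂ F) :
    ∃ R : ℝ, ∀ Q, ∃ v : Fin (genusFF ℂ F) → ℂ, ‖v‖ ≤ R ∧ expHom v = diffClass Z Q := by
  classical
  let A : Set (Place ℂ F) := {Q | diffClass Z Q ∈ (expHom (F := F)).range}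
  have hZ : Z ∈ A := by
    have : diffClass Z Z = (0 : Pic0 ℂ F) := add_eq_left.1 (diffClass_add Z Z Z).symm
    show diffClass Z Z ∈ (expHom (F := F)).range
    rw [this]
    exact zero_mem _
  have hA : IsClopen A := by
    refine ⟨⟨isOpen_iff_mem_nhds.2 fun P hP => ?_⟩, isOpen_iff_mem_nhds.2 fun P hP => ?_⟩
    · filter_upwards [exists_nhd_small hg P] with Q hQ'
      obtain ⟨v, -, hv⟩ := hQ'
      intro hQ
      apply hP
      have h : diffClass Z Q = diffClass Z P + expHom v := by rw [hv]; exact diffClass_add Z P Q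
      show diffClass Z P ∈ (expHom (F := F)).range
      rw [eq_sub_of_add_eq h.symm]
      exact sub_mem hQ ⟨v, rfl⟩
    · filter_upwards [exists_nhd_small hg P] with Q hQ'
      obtain ⟨v, -, hv⟩ := hQ'
      show diffClass Z Q ∈ (expHom (F := F)).range
      rw [diffClass_add Z P Q, ← hv]
      exact add_mem hP ⟨v, rfl⟩
  have hall := eq_univ_of_isClopen hA hZ
  have hex : ∀ P : Place ℂ F, ∃ v, expHom (F := F) v = diffClass Z P := fun P => by
    have : P ∈ A := hall ▸ Set.mem_univ P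
    exact this
  choose v₀ hv₀ using hex
  obtain ⟨S, hS⟩ := isCompact_univ.elim_nhds_subcover'
    (fun P (_ : P ∈ (Set.univ : Set (Place ℂ F))) =>
      {Q | ∃ v : Fin 𝔤 → ℂ, ‖v‖ < 1 ∧ expHom v = diffClass P Q})
    (fun P _ => exists_nhd_small hg P)
  refine ⟨(∑ P ∈ S, ‖v₀ P.1‖) + 1, fun Q => ?_⟩
  obtain ⟨P, hP, v, hv, hvQ⟩ : ∃ P ∈ S, ∃ v : Fin 𝔤 → ℂ, ‖v‖ < 1 ∧
      expHom v = diffClass (P : Place ℂ F) Q := by
    simpa using hS (Set.mem_univ Q)
  refine ⟨v₀ P.1 + v, (norm_add_le _ _).trans (add_le_add ?_ hv.le), ?_⟩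
  · exact Finset.single_le_sum (f := fun x => ‖v₀ x.1‖) (fun x _ => norm_nonneg _) hP
  · rw [map_add, hv₀, hvQ]
    exact (diffClass_add Z _ Q).symm

/-- Every class is the exponential of a vector of bounded norm. -/
theorem exists_bound_expHom :
    ∃ R : ℝ, ∀ x : Pic0 ℂ F, ∃ v : Fin (genusFF ℂ F) → ℂ, ‖v‖ ≤ R ∧ expHom v = x := by
  classical
  have := infinite_place ℂ F
  obtain ⟨Z⟩ : Nonempty (Place ℂ F) := inferInstance
  obtain ⟨R, hR⟩ : ∃ R : ℝ, 0 ≤ R ∧ ∀ Q, 0 < genusFF ℂ F →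
      ∃ v : Fin (genusFF ℂ F) → ℂ, ‖v‖ ≤ R ∧ expHom v = diffClass Z Q := by
    by_cases hg : 0 < genusFF ℂ F
    · obtain ⟨R, hR⟩ := exists_bound_diffClass hg Z
      exact ⟨max R 0, le_max_right _ _, fun Q _ =>
        (hR Q).imp fun v h => ⟨h.1.trans (le_max_left _ _), h.2⟩⟩
    · exact ⟨0, le_rfl, fun Q h => absurd h hg⟩
  refine ⟨𝔤 * R, fun x => ?_⟩
  obtain ⟨⟨D, hD⟩, rfl⟩ := Pic0.mk_surjective x
  obtain ⟨f, hfL, hf0⟩ := exists_ne_zero_mem_L (K := ℂ) (D := D + Finsupp.single Z (𝔤 : ℤ)) (by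
    rw [map_add, Divisor.mem_degZero.1 hD, degree_single', zero_add])
  obtain ⟨Df, hDf, hdeg⟩ := HasPrincipalDivisors.exists_divisor (K := ℂ) f hf0
  set E : Divisor ℂ F := Df + (D + Finsupp.single Z (𝔤 : ℤ)) with hE
  have hE0 : ∀ w, 0 ≤ E w := fun w => by
    have := (mem_riemannRochSpace_iff.1 hfL w).resolve_left hf0
    simp only [hE, Finsupp.add_apply, hDf] at this ⊢
    omega
  have hEdeg : Divisor.degree E = (𝔤 : ℤ) := by
    rw [hE, map_add, map_add, hdeg, Divisor.mem_degZero.1 hD, degree_single']; simp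
  have hEsum : ∑ Q ∈ E.support, E Q = (𝔤 : ℤ) := by rw [← hEdeg, degree_eq_sum]; rfl
  let δ : Place ℂ F → Divisor.degZero (K := ℂ) (F := F) := fun Q =>
    ⟨Finsupp.single Q 1 - Finsupp.single Z 1, by
      rw [Divisor.mem_degZero, map_sub, degree_single', degree_single', sub_self]⟩
  have hcl : Pic0.mk ⟨D, hD⟩ = ∑ Q ∈ E.support, (E Q).toNat • diffClass Z Q := by
    let π : Divisor.degZero (K := ℂ) (F := F) →+ Pic0 ℂ F := QuotientAddGroup.mk' _
    have hrw : ∑ Q ∈ E.support, (E Q).toNat • diffClass Z Q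
        = π (∑ Q ∈ E.support, (E Q).toNat • δ Q) := by
      rw [map_sum]
      exact Finset.sum_congr rfl fun Q _ => (map_nsmul π _ _).symm
    rw [hrw]
    show QuotientAddGroup.mk _ = QuotientAddGroup.mk _
    rw [QuotientAddGroup.eq, AddSubgroup.mem_addSubgroupOf, Divisor.mem_principal]
    refine ⟨f, hf0, fun w => ?_⟩
    have hcoe : ((∑ Q ∈ E.support, (E Q).toNat • δ Q : Divisor.degZero (K := ℂ) (F := F)) :
        Divisor ℂ F) = E - Finsupp.single Z (𝔤 : ℤ) := by
      rw [AddSubmonoidClass.coe_finsetSum]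
      simp only [δ, AddSubmonoidClass.coe_nsmul, smul_sub, Finsupp.smul_single,
        Finset.sum_sub_distrib]
      congr 1
      · conv_rhs => rw [← Finsupp.sum_single E]
        exact Finset.sum_congr rfl fun Q _ => by simp [Int.toNat_of_nonneg (hE0 Q)]
      · rw [← Finsupp.single_finsetSum]
        congr 1
        rw [← hEsum]
        exact Finset.sum_congr rfl fun Q _ => by simp [Int.toNat_of_nonneg (hE0 Q)]
    rw [AddSubgroup.coe_add, NegMemClass.coe_neg, hcoe, ← hDf w]
    simp [hE]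
    abel_nf
  rcases Nat.eq_zero_or_pos 𝔤 with hg0 | hg0
  · refine ⟨0, by rw [norm_zero]; exact mul_nonneg (Nat.cast_nonneg _) hR.1, ?_⟩
    rw [map_zero, hcl]
    refine (Finset.sum_eq_zero fun Q hQ => ?_).symm
    have := eq_zero_of_nonneg hE0 (by rw [hEdeg, hg0]; rfl)
    simp [this] at hQ
  choose v hv hve using fun Q => hR.2 Q hg0
  refine ⟨∑ Q ∈ E.support, (E Q).toNat • v Q, ?_, ?_⟩
  · calc ‖∑ Q ∈ E.support, (E Q).toNat • v Q‖
        ≤ ∑ Q ∈ E.support, (((E Q).toNat : ℕ) : ℝ) * R := by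
          refine (norm_sum_le _ _).trans (Finset.sum_le_sum fun Q _ => ?_)
          refine norm_nsmul_le.trans ?_
          exact mul_le_mul_of_nonneg_left (hv Q) (Nat.cast_nonneg _)
      _ = (𝔤 : ℝ) * R := by
          rw [← Finset.sum_mul]
          congr 1
          have h2 : ((∑ Q ∈ E.support, (E Q).toNat : ℕ) : ℤ) = (𝔤 : ℤ) := by
            push_cast
            rw [← hEsum]
            exact Finset.sum_congr rfl fun Q _ => Int.toNat_of_nonneg (hE0 Q)
          exact_mod_cast h2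
  · rw [map_sum, hcl]
    exact Finset.sum_congr rfl fun Q _ => by rw [map_nsmul, hve]

end Fermat.Agent.CurveJacobian
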