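import Fermat.Agent.CurveJacobian.Basic
import Fermat.Agent.FunctionField.Curve
import Fermat.Agent.FunctionField.RiemannRoch
import Fermat.Agent.FFPlaces.Center
import Fermat.Agent.FFPlaces.Global
import Mathlib.LinearAlgebra.FreeModule.PID

/-!
# Function fields of one variable over an algebraically closed field of characteristic zero

Riemann–Roch and the existence of places, restated for fields `F` with `IsCurveOver K F`, and the
three properties of the integral closure of `K[t]` in `F` used to build charts: it is free over
`K[t]`, its characters are values at places, and it localises to every valuation ring at a place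
where `t` is regular.
-/

set_option autoImplicit false

noncomputable section

open AlgebraicCurve Polynomial IntermediateField

namespace Fermat.Agent.CurveJacobian

variable (K F : Type*) [Field K] [Field F] [Algebra K F] [CharZero K]
  [IsCurveOver K F] [Algebra.EssFiniteType K F]

/-- A curve in the sense of `IsCurveOver` is a function field of one variable. -/
theorem isFunctionField : FunctionField.IsFunctionField K F :=
  FunctionField.isFunctionField_of_isCurveOver

/-- A proper valuation subring containing the constants is a place. -/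
theorem exists_place_of_valuationSubring (A : ValuationSubring F)
    (hK : ∀ a : K, algebraMap K F a ∈ A) (hA : A ≠ ⊤) :
    ∃ v : Place K F, v.toValuationSubring = A :=
  haveI := isFunctionField K F
  ⟨FunctionField.placeOfValuationSubring A hK hA, rfl⟩

/-- A curve function field contains a nonconstant function. -/
theorem exists_not_const : ∃ x : F, x ∉ Set.range (algebraMap K F) := by
  have := isFunctionField K F
  obtain ⟨x, hx⟩ := FunctionField.IsFunctionField.exists_transcendental (K := K) (F := F)
  refine ⟨x, ?_⟩
  rintro ⟨a, rfl⟩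
  exact hx (isAlgebraic_algebraMap a)

/-- `H1 0` is finite-dimensional. -/
theorem finite_H1_zero : Module.Finite K (H1 (0 : Divisor K F)) :=
  haveI := isFunctionField K F
  inferInstance

/-- Riemann–Roch spaces are finite-dimensional. -/
theorem finite_riemannRochSpace (D : Divisor K F) : Module.Finite K (riemannRochSpace D) :=
  haveI := isFunctionField K F
  inferInstance

/-- Divisors of large degree are non-special. -/
theorem exists_nonspecial_bound : ∃ N : ℤ, ∀ D : Divisor K F, N ≤ Divisor.degree D →
    repartitionsOf D ⊔ principalRepartitions K F = ⊤ := by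
  have := isFunctionField K F
  obtain ⟨c, hc⟩ := FunctionField.exists_index_eq_zero (K := K) (F := F)
  exact ⟨c, fun D hD => Submodule.Quotient.subsingleton_iff.1
    (Module.finrank_zero_iff.1 (hc D hD))⟩

variable [IsAlgClosed K]

omit [CharZero K] [IsCurveOver K F] [Algebra.EssFiniteType K F] in
theorem transcendental_of_notMem_range {t : F} (ht : t ∉ Set.range (algebraMap K F)) :
    Transcendental K t := fun halg => ht <| by
  obtain ⟨p, hp, hroot⟩ := halg
  have hs : p.Splits := IsAlgClosed.splits p
  obtain ⟨a, ha⟩ : t ∈ (algebraMap K F).range :=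
    hs.mem_range_of_isRoot hp (by rwa [Polynomial.IsRoot, Polynomial.eval_map_algebraMap])
  exact ⟨a, ha⟩

/-- **Riemann–Roch**, with `H1 D` as error term. -/
theorem riemann_eq (D : Divisor K F) :
    (Module.finrank K (riemannRochSpace D) : ℤ)
      = Divisor.degree D + 1 - genusFF K F + Module.finrank K (H1 D) := by
  have := isFunctionField K F
  have := FunctionField.riemann_roch D
  simp only [FunctionField.ell, FunctionField.index] at this
  omega

/-- A function regular everywhere is constant. -/
theorem eq_algebraMap_of_forall_mem (f : F) (h : ∀ v : Place K F, f ∈ v.toValuationSubring) :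
    ∃ a : K, algebraMap K F a = f := by
  by_contra hf
  have := isFunctionField K F
  have ht := transcendental_of_notMem_range K F (t := f) hf
  obtain ⟨v, hv⟩ := FunctionField.exists_place_ord_pos (FunctionField.transcendental_inv ht)
  rw [v.ord_inv] at hv
  exact (notMem_iff_ord v).2 (by omega) (h v)

/-- There are infinitely many places. -/
theorem infinite_place : Infinite (Place K F) := by
  have := isFunctionField K F
  obtain ⟨x, hx⟩ := exists_not_const K F
  have hex : ∀ a : K, ∃ v : Place K F, 0 < v.ord (x - algebraMap K F a) := fun a =>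
    FunctionField.exists_place_ord_pos <| transcendental_of_notMem_range K F <| by
      rintro ⟨b, hb⟩
      exact hx ⟨b + a, by rw [map_add, hb, sub_add_cancel]⟩
  choose v hv using hex
  have : Infinite K := inferInstance
  refine Infinite.of_injective v fun a b hab => ?_
  have hval : ∀ c : K, x ∈ (v c).toValuationSubring ∧ ev (v c) x = c := fun c => by
    have hm := mem_of_ord_nonneg (v c) (hv c).le
    have hx' : x ∈ (v c).toValuationSubring := by
      simpa using add_mem hm ((v c).algebraMap_mem' c)
    refine ⟨hx', ?_⟩
    have h0 : ev (v c) (x - algebraMap K F c) = 0 :=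
      (ev_eq_zero_iff _ hm).2 (Or.inr (hv c))
    rw [ev_sub _ hx' ((v c).algebraMap_mem' c), ev_algebraMap, sub_eq_zero] at h0
    exact h0
  rw [← (hval a).2, ← (hval b).2, hab]

/-- Functions regular at every place where `t` is. -/
def regAlg (t : F) : Subalgebra K F where
  carrier := {f | ∀ v : Place K F, t ∈ v.toValuationSubring → f ∈ v.toValuationSubring}
  mul_mem' hf hg v hv := mul_mem (hf v hv) (hg v hv)
  add_mem' hf hg v hv := add_mem (hf v hv) (hg v hv)
  algebraMap_mem' a v _ := v.algebraMap_mem' a

open FFPlaces in
/-- The three facts about the integral closure of `K[t]`. -/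
theorem integralClosure_facts (t : F) (ht : t ∉ Set.range (algebraMap K F)) :
    (∃ (n : ℕ) (b : Fin n → F), (∀ i, b i ∈ regAlg K F t) ∧
      Function.Injective (fun p : Fin n → K[X] => ∑ i, aeval t (p i) * b i) ∧
      ∀ f ∈ regAlg K F t, ∃ p : Fin n → K[X], ∑ i, aeval t (p i) * b i = f) ∧
    (∀ χ : regAlg K F t →ₐ[K] K,
      ∃ v : Place K F, t ∈ v.toValuationSubring ∧ ∀ f : regAlg K F t, ev v (f : F) = χ f) ∧
    (∀ v : Place K F, t ∈ v.toValuationSubring → ∀ f ∈ v.toValuationSubring,
      ∃ u ∈ regAlg K F t, ∃ w ∈ regAlg K F t, ev v w ≠ 0 ∧ f * w = u) := by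
  have htr := transcendental_of_notMem_range K F ht
  have := isFunctionField K F
  let := genAlgebra (K := K) t
  let := genAlgebraField (K := K) t
  have := genAlgebra_tower_base (K := K) t
  have := genAlgebra_tower (K := K) t
  have := genAlgebra_isFractionRing htr
  have := FunctionField.IsFunctionField.finiteDimensional_adjoin t htr
  have := charZero_adjoin (K := K) t
  have := ring₀_isDedekind K F K⟮t⟯
  have := ring₀_isFractionRing K F K⟮t⟯
  have := ring₀_finite K F K⟮t⟯
  have := faithful K F K⟮t⟯
  have htO : tOf K F = t := Polynomial.aeval_X t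
  have halg : ∀ p : K[X], algebraMap K[X] F p = aeval t p := fun _ => rfl
  have hmem : ∀ f : F, f ∈ regAlg K F t ↔ f ∈ integralClosure K[X] F := by
    intro f
    constructor
    · intro hf
      obtain ⟨b, hb⟩ := IsDedekindDomain.HeightOneSpectrum.mem_integers_of_valuation_le_one F f
        (fun P => (Valuation.mem_valuationSubring_iff _ _).1
          (hf (placeOf K F P) (mem_of_ord_nonneg _
          (by have := tOf_ord_nonneg K F P; rwa [htO] at this))))
      exact hb ▸ b.2
    · intro hf v hv
      refine coe_mem K F v ?_ ⟨f, hf⟩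
      rw [htO]
      exact ((mem_iff_ord v).1 hv).elim (fun h => by simp [h]) id
  refine ⟨?_, fun χ => ?_, fun v hv f hf => ?_⟩
  · have : Module.IsTorsionFree K[X] F := Module.isTorsionFree_iff_algebraMap_injective.mpr
      (FaithfulSMul.algebraMap_injective K[X] F)
    obtain ⟨n, B⟩ := Module.basisOfFiniteTypeTorsionFree' (R := K[X]) (M := Ring₀ K F)
    have hcomb : ∀ p : Fin n → K[X],
        ∑ i, aeval t (p i) * (B i : F) = ((∑ i, p i • B i : Ring₀ K F) : F) := fun p => by
      simp [AddSubmonoidClass.coe_finsetSum, Algebra.smul_def, halg]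
    refine ⟨n, fun i => (B i : F), fun i => (hmem _).2 (B i).2, fun p q h => ?_, fun f hf => ?_⟩
    · simp only [hcomb] at h
      exact funext (Fintype.linearIndependent_iffₛ.1 B.linearIndependent p q (Subtype.ext h))
    · exact ⟨fun i => B.repr ⟨f, (hmem f).1 hf⟩ i, by rw [hcomb, B.sum_repr]⟩
  · let ψ : Ring₀ K F → K := fun b => χ ⟨b, (hmem b).2 b.2⟩
    let I : Ideal (Ring₀ K F) :=
      { carrier := {b | ψ b = 0}
        zero_mem' := map_zero χ
        add_mem' := fun {a b} (ha : ψ a = 0) (hb : ψ b = 0) => by
          show χ (⟨(a : F), (hmem _).2 a.2⟩ + ⟨(b : F), (hmem _).2 b.2⟩) = 0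
          rw [map_add]; simp only [ψ] at ha hb; rw [ha, hb, add_zero]
        smul_mem' := fun a {b} (hb : ψ b = 0) => by
          show χ (⟨(a : F), (hmem _).2 a.2⟩ * ⟨(b : F), (hmem _).2 b.2⟩) = 0
          rw [map_mul]; simp only [ψ] at hb; rw [hb, mul_zero] }
    have hIp : I.IsPrime := by
      refine ⟨fun h => ?_, fun {a b} hab => ?_⟩
      · have h1 : ψ 1 = 0 := show (1 : Ring₀ K F) ∈ I from h ▸ Submodule.mem_top
        exact one_ne_zero ((map_one χ).symm.trans h1)
      · have h1 : ψ a * ψ b = 0 := by
          simp only [ψ]; rw [← map_mul]; exact hab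
        exact mul_eq_zero.1 h1
    set c := χ ⟨t, fun _ h => h⟩
    have hI0 : I ≠ ⊥ := by
      intro hbot
      have hcm : t - algebraMap K F c ∈ integralClosure K[X] F :=
        (hmem _).1 (sub_mem (fun _ h => h) ((regAlg K F t).algebraMap_mem c))
      have h1 : (⟨t - algebraMap K F c, hcm⟩ : Ring₀ K F) ∈ I := by
        show χ ((⟨t, fun _ h => h⟩ : regAlg K F t) - algebraMap K (regAlg K F t) c) = 0
        rw [map_sub, AlgHom.commutes]; exact sub_self c
      rw [hbot, Submodule.mem_bot, Subtype.ext_iff] at h1
      exact ht ⟨c, (sub_eq_zero.1 h1).symm⟩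
    let P : IsDedekindDomain.HeightOneSpectrum (Ring₀ K F) := ⟨I, hIp, hI0⟩
    set v := placeOf K F P
    have hvt : t ∈ v.toValuationSubring := mem_of_ord_nonneg v (by
      have := tOf_ord_nonneg K F P; rwa [htO] at this)
    refine ⟨v, hvt, fun f => ?_⟩
    have hs : (f : F) - algebraMap K F (χ f) ∈ regAlg K F t :=
      sub_mem f.2 ((regAlg K F t).algebraMap_mem _)
    have hI : (⟨(f : F) - algebraMap K F (χ f), (hmem _).1 hs⟩ : Ring₀ K F) ∈ I := by
      show χ (f - algebraMap K (regAlg K F t) (χ f)) = 0
      rw [map_sub, AlgHom.commutes]; exact sub_self _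
    have h0 : ev v ((f : F) - algebraMap K F (χ f)) = 0 := by
      by_cases hz : (f : F) - algebraMap K F (χ f) = 0
      · rw [hz, ev_zero]
      · refine (ev_eq_zero_iff v (hs v hvt)).2 (Or.inr ?_)
        exact (placeOf_pos_iff K F P (b := ⟨_, (hmem _).1 hs⟩)
          (fun h => hz (congrArg Subtype.val h))).2 hI
    rw [ev_sub v (f.2 v hvt) (v.algebraMap_mem' _), ev_algebraMap, sub_eq_zero] at h0
    exact h0
  · have hv0 : 0 ≤ v.ord (tOf K F) := by
      rw [htO]; exact ((mem_iff_ord v).1 hv).elim (fun h => by simp [h]) id
    have hle : (center K F v hv0).valuation F f ≤ 1 := by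
      refine (Valuation.mem_valuationSubring_iff _ _).1 ?_
      show f ∈ (placeOf K F (center K F v hv0)).toValuationSubring
      rw [placeOf_center K F v hv0]; exact hf
    obtain ⟨a, ⟨s, hs⟩, hfs⟩ :=
      (center K F v hv0).exists_primeCompl_mul_eq_of_integer (K := F) f hle
    have hs' : ¬ s ∈ centerIdeal K F v hv0 := hs
    rw [mem_centerIdeal_iff, not_or] at hs'
    have hsv : (s : F) ∈ v.toValuationSubring := (hmem _).2 s.2 v hv
    refine ⟨(a : F), (hmem _).2 a.2, (s : F), (hmem _).2 s.2, ?_, hfs⟩
    rw [ev_ne_zero_iff v hsv]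
    refine ⟨by simpa using hs'.1, ?_⟩
    have := ((mem_iff_ord v).1 hsv).resolve_left (by simpa using hs'.1)
    omega

/-- The functions regular wherever `t` is have a basis over `K[t]`. -/
theorem exists_integralBasis (t : F) (ht : t ∉ Set.range (algebraMap K F)) :
    ∃ (n : ℕ) (b : Fin n → F), (∀ i, b i ∈ regAlg K F t) ∧
      Function.Injective (fun p : Fin n → K[X] => ∑ i, aeval t (p i) * b i) ∧
      ∀ f ∈ regAlg K F t, ∃ p : Fin n → K[X], ∑ i, aeval t (p i) * b i = f :=
  (integralClosure_facts K F t ht).1

/-- A character of the functions regular wherever `t` is, is the value at a place. -/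
theorem exists_place_of_hom (t : F) (ht : t ∉ Set.range (algebraMap K F))
    (χ : regAlg K F t →ₐ[K] K) :
    ∃ v : Place K F, t ∈ v.toValuationSubring ∧ ∀ f : regAlg K F t, ev v (f : F) = χ f :=
  (integralClosure_facts K F t ht).2.1 χ

/-- A function regular at `v` is a quotient of functions regular wherever `t` is, with
denominator not vanishing at `v`. -/
theorem exists_quotient (t : F) (ht : t ∉ Set.range (algebraMap K F)) (v : Place K F)
    (hv : t ∈ v.toValuationSubring) (f : F) (hf : f ∈ v.toValuationSubring) :
    ∃ u ∈ regAlg K F t, ∃ w ∈ regAlg K F t, ev v w ≠ 0 ∧ f * w = u :=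
  (integralClosure_facts K F t ht).2.2 v hv f hf

end Fermat.Agent.CurveJacobian
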