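import Fermat.Agent.CurveJacobian.FieldFacts
import Mathlib.LinearAlgebra.Basis.VectorSpace
import Mathlib.LinearAlgebra.Dimension.Finrank
import Mathlib.LinearAlgebra.FiniteDimensional.Basic

/-!
# Consequences of Riemann–Roch: separators and non-special tuples

Given a choice `τ` of uniformisers, `simplePolar τ v` is the class of the simple pole `(τ v)⁻¹` in
`H1 0`. A tuple of `g` distinct places is non-special if these classes form a basis of `H1 0`. Such
tuples exist avoiding any finite set of places (`exists_nonSpecial`) and through any given place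
(`exists_nonSpecial_through`), and a function with poles bounded by such a tuple is constant
(`NonSpecial.const_of_mem`).
-/

set_option autoImplicit false

noncomputable section

open AlgebraicCurve WithZero

namespace Fermat.Agent.CurveJacobian

variable {K F : Type*} [Field K] [Field F] [Algebra K F] [IsAlgClosed K] [CharZero K]
  [IsCurveOver K F] [Algebra.EssFiniteType K F]

omit [CharZero K] [Algebra.EssFiniteType K F] in
/-- All places have degree one. -/
theorem degree_eq_sum (D : Divisor K F) : Divisor.degree D = D.sum fun _ n => n := by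
  induction D using Finsupp.induction with
  | zero => simp
  | single_add v n D hv hn ih =>
    rw [map_add, Divisor.degree_single, IsCurveOver.deg_eq_one_of_isAlgClosed, ih,
      Finsupp.sum_add_index' (fun _ => rfl) (fun _ _ _ => rfl), Finsupp.sum_single_index rfl]
    simp

omit [CharZero K] [Algebra.EssFiniteType K F] in
/-- The divisor `n v` has degree `n`. -/
theorem degree_single' (v : Place K F) (n : ℤ) : Divisor.degree (Finsupp.single v n) = n := by
  rw [Divisor.degree_single, IsCurveOver.deg_eq_one_of_isAlgClosed]; simp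

omit [CharZero K] [Algebra.EssFiniteType K F] in
/-- An effective divisor of degree at most `0` is `0`. -/
theorem eq_zero_of_nonneg {D : Divisor K F} (h : ∀ v, 0 ≤ D v) (hd : Divisor.degree D ≤ 0) :
    D = 0 := by
  ext v
  by_contra hne
  rw [degree_eq_sum] at hd
  have hv : v ∈ D.support := Finsupp.mem_support_iff.2 (by simpa using hne)
  have := Finset.single_le_sum (f := fun w => D w) (fun w _ => h w) hv
  have h0 := h v
  simp only [Finsupp.sum] at hd
  simp only [Finsupp.zero_apply] at hne
  omega

omit [CharZero K] [Algebra.EssFiniteType K F] in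
theorem divisor_nonneg_degree {D : Divisor K F} (h : ∀ v, 0 ≤ D v) : 0 ≤ Divisor.degree D := by
  rw [degree_eq_sum]
  exact Finset.sum_nonneg fun v _ => h v

/-- Riemann–Roch for a non-special divisor. -/
theorem finrank_L_of_top {D : Divisor K F}
    (h : repartitionsOf D ⊔ principalRepartitions K F = ⊤) :
    (Module.finrank K (riemannRochSpace D) : ℤ) = Divisor.degree D + 1 - genusFF K F := by
  have : Subsingleton (H1 D) := Submodule.Quotient.subsingleton_iff.2 h
  rw [riemann_eq, Module.finrank_zero_of_subsingleton]
  simp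

/-- Riemann's inequality. -/
theorem le_finrank_L (D : Divisor K F) :
    Divisor.degree D + 1 - genusFF K F ≤ (Module.finrank K (riemannRochSpace D) : ℤ) := by
  rw [riemann_eq]; simp

/-- A divisor of degree at least the genus has a nonzero section. -/
theorem exists_ne_zero_mem_L {D : Divisor K F} (h : (genusFF K F : ℤ) ≤ Divisor.degree D) :
    ∃ f ∈ riemannRochSpace D, f ≠ 0 := by
  refine Submodule.exists_mem_ne_zero_of_ne_bot fun hb => ?_
  have h1 := le_finrank_L D
  rw [hb, finrank_bot] at h1
  omega

/-- There is a non-constant function whose only pole is a given place. -/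
theorem exists_nonconst_one_pole (P : Place K F) :
    ∃ f : F, f ∉ Set.range (algebraMap K F) ∧ ∀ v, v ≠ P → f ∈ v.toValuationSubring := by
  set D : Divisor K F := Finsupp.single P ((genusFF K F : ℤ) + 1) with hD
  have := finite_riemannRochSpace K F D
  by_contra hall
  push Not at hall
  have hle : riemannRochSpace D ≤ Submodule.span K {(1 : F)} := by
    intro f hf
    obtain ⟨a, ha⟩ : f ∈ Set.range (algebraMap K F) := by
      by_contra hc
      obtain ⟨v, hv, hvf⟩ := hall f hc
      refine hvf ?_
      rcases (mem_riemannRochSpace_iff.1 hf v) with h0 | h0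
      · exact h0 ▸ zero_mem _
      · exact mem_of_ord_nonneg v (by simpa [hD, Finsupp.single_eq_of_ne hv] using h0)
    exact Submodule.mem_span_singleton.2 ⟨a, by rw [Algebra.smul_def, mul_one, ha]⟩
  have h1 := Submodule.finrank_mono hle
  have h2 := le_finrank_L D
  rw [hD, degree_single'] at h2
  rw [finrank_span_singleton one_ne_zero] at h1
  rw [← hD] at h2
  omega

/-- For a uniformiser `t` at `v`: a function regular wherever `t` is, with value `1` at `v`,
divisible by `t` at the other zeros of `t`. -/
theorem exists_separator (t : F) (v : Place K F) (hv : v.ord t = 1) :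
    ∃ z ∈ regAlg K F t, ev v z = 1 ∧ ∀ w : Place K F, w ≠ v → t ∈ w.toValuationSubring →
      ev w t = 0 → z / t ∈ w.toValuationSubring := by
  classical
  have ht0 : t ≠ 0 := ne_zero_of_ord_ne_zero v (by omega)
  obtain ⟨Dt, hDt, hdeg⟩ := HasPrincipalDivisors.exists_divisor (K := K) t ht0
  set Z : Divisor K F := Dt.mapRange (fun n => max n 0) (by simp) with hZ
  set T : Divisor K F := Dt.mapRange (fun n => max (-n) 0) (by simp) with hT
  obtain ⟨N, hN⟩ := exists_nonspecial_bound K F
  have hT1 : 1 ≤ Divisor.degree T := by
    have hsplit : Dt = Z - T := by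
      ext w; simp [hZ, hT]
    have hZ1 : 1 ≤ Divisor.degree Z := by
      have h := divisor_nonneg_degree (D := Z - Finsupp.single v 1) (fun w => by
        rcases eq_or_ne w v with rfl | hw
        · simp [hZ, hDt, hv]
        · simp [hZ, Finsupp.single_eq_of_ne hw])
      rw [map_sub, degree_single'] at h
      omega
    have := congrArg Divisor.degree hsplit
    rw [map_sub, hdeg] at this
    omega
  set n : ℤ := |N| + Divisor.degree Z + 1 with hn
  have hbound : N ≤ Divisor.degree (n • T - Z) := by
    rw [map_sub, map_zsmul, smul_eq_mul]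
    have : n ≤ n * Divisor.degree T := le_mul_of_one_le_right (by
      have := divisor_nonneg_degree (D := Z) fun w => by simp [hZ]
      have := abs_nonneg N
      omega) hT1
    have := le_abs_self N
    omega
  set E0 : Divisor K F := n • T - Z
  set E1 : Divisor K F := E0 + Finsupp.single v 1 with hE1
  have hd1 : N ≤ Divisor.degree E1 := by rw [hE1, map_add, degree_single']; omega
  obtain ⟨z, hz1, hz0⟩ : ∃ z ∈ riemannRochSpace E1, z ∉ riemannRochSpace E0 := by
    by_contra hall
    push Not at hall
    have := finite_riemannRochSpace K F E0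
    have h1 := Submodule.finrank_mono (t := riemannRochSpace E0) (s := riemannRochSpace E1) hall
    have h2 := finrank_L_of_top (hN E0 hbound)
    have h3 := finrank_L_of_top (hN E1 hd1)
    rw [hE1, map_add, degree_single'] at h3
    rw [← hE1] at h3
    omega
  have hzne : z ≠ 0 := fun h => hz0 (h ▸ zero_mem _)
  have hge : ∀ w, -E1 w ≤ w.ord z := fun w =>
    ((mem_riemannRochSpace_iff.1 hz1) w).resolve_left hzne
  have hreg : z ∈ regAlg K F t := fun w hw => by
    have hT0 : T w = 0 := by
      have := ((mem_iff_ord w).1 hw).resolve_left ht0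
      simp [hT, hDt, this]
    refine mem_of_ord_nonneg w ?_
    have h := hge w
    have hZ0 : 0 ≤ Z w := by simp [hZ]
    rcases eq_or_ne w v with rfl | hwv
    · simp only [hE1, E0, Finsupp.add_apply, Finsupp.sub_apply, Finsupp.smul_apply, smul_eq_mul,
        hT0, Finsupp.single_eq_same] at h
      have : Z w = 1 := by simp [hZ, hDt, hv]
      omega
    · simp only [hE1, E0, Finsupp.add_apply, Finsupp.sub_apply, Finsupp.smul_apply, smul_eq_mul,
        hT0, Finsupp.single_eq_of_ne hwv] at h
      omega
  obtain ⟨htm, -⟩ := mem_of_ord_eq_one v hv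
  have hev : ev v z ≠ 0 := by
    rw [ev_ne_zero_iff v (hreg v htm)]
    refine ⟨hzne, ?_⟩
    by_contra hne
    have h1 := ((mem_iff_ord v).1 (hreg v htm)).resolve_left hzne
    apply hz0
    rw [mem_riemannRochSpace_iff]
    intro w
    right
    rcases eq_or_ne w v with rfl | hwv
    · have hT0 : T w = 0 := by simp [hT, hDt, hv]
      have : Z w = 1 := by simp [hZ, hDt, hv]
      simp only [E0, Finsupp.sub_apply, Finsupp.smul_apply, smul_eq_mul, hT0]
      omega
    · have := hge w
      simpa [hE1, Finsupp.single_eq_of_ne hwv] using this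
  refine ⟨algebraMap K F (ev v z)⁻¹ * z, mul_mem ((regAlg K F t).algebraMap_mem _) hreg, ?_, ?_⟩
  · rw [ev_mul v (v.algebraMap_mem' _) (hreg v htm), ev_algebraMap, inv_mul_cancel₀ hev]
  · intro w hwv hw hw0
    rw [mul_div_assoc]
    refine mul_mem (w.algebraMap_mem' _) (div_mem_of_ord_le w (Or.inr ?_))
    have hpos : 1 ≤ w.ord t := ((ev_eq_zero_iff w hw).1 hw0).resolve_left ht0
    have hT0 : T w = 0 := by
      simp [hT, hDt]; omega
    have hZw : Z w = w.ord t := by simp [hZ, hDt]; omega
    have := hge w
    simp only [hE1, E0, Finsupp.add_apply, Finsupp.sub_apply, Finsupp.smul_apply, smul_eq_mul,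
      hT0, Finsupp.single_eq_of_ne hwv, hZw] at this
    omega

/-- The class in `H1 0` of the simple pole `(τ v)⁻¹` at `v`. -/
def simplePolar (τ : Place K F → F) (v : Place K F) : H1 (0 : Divisor K F) := polar K F v (τ v)⁻¹

/-- The reduced divisor of a finite family of places. -/
def tupleDiv {ι : Type*} [Fintype ι] (D : ι → Place K F) : Divisor K F :=
  ∑ i, Finsupp.single (D i) 1

omit [CharZero K] [Algebra.EssFiniteType K F] in
/-- The divisor of a family of places has degree the size of the family. -/
theorem degree_tupleDiv {ι : Type*} [Fintype ι] (D : ι → Place K F) :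
    Divisor.degree (tupleDiv D) = Fintype.card ι := by
  simp [tupleDiv, map_sum, IsCurveOver.deg_eq_one_of_isAlgClosed]

omit [IsAlgClosed K] [CharZero K] [IsCurveOver K F] [Algebra.EssFiniteType K F] in
/-- The divisor of a family of places is effective. -/
theorem tupleDiv_nonneg {ι : Type*} [Fintype ι] (D : ι → Place K F) (v : Place K F) :
    0 ≤ tupleDiv D v := by
  classical
  rw [tupleDiv, Finsupp.finsetSum_apply]
  exact Finset.sum_nonneg fun i _ => by rw [Finsupp.single_apply]; split_ifs <;> norm_num

omit [IsAlgClosed K] [CharZero K] [IsCurveOver K F] [Algebra.EssFiniteType K F] in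
/-- For an injective family, each member has coefficient `1`. -/
theorem tupleDiv_apply {ι : Type*} [Fintype ι] {D : ι → Place K F} (hD : Function.Injective D)
    (i : ι) : tupleDiv D (D i) = 1 := by
  classical
  rw [tupleDiv, Finsupp.finsetSum_apply, Finset.sum_eq_single i]
  · simp
  · intro j _ hj; rw [Finsupp.single_eq_of_ne]; exact fun h => hj (hD h).symm
  · simp

omit [IsAlgClosed K] [CharZero K] [IsCurveOver K F] [Algebra.EssFiniteType K F] in
/-- Places outside the family have coefficient `0`. -/
theorem tupleDiv_apply_of_notMem {ι : Type*} [Fintype ι] {D : ι → Place K F} {v : Place K F}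
    (h : v ∉ Set.range D) : tupleDiv D v = 0 := by
  classical
  rw [tupleDiv, Finsupp.finsetSum_apply]
  exact Finset.sum_eq_zero fun i _ => Finsupp.single_eq_of_ne fun e => h ⟨i, e.symm⟩

variable {τ : Place K F → F} (hτ : ∀ v : Place K F, v.ord (τ v) = 1)
include hτ

/-- Simple polar classes outside any finite set span `H1 0`. -/
theorem span_simplePolar (S : Finset (Place K F)) :
    Submodule.span K (simplePolar τ '' {v | v ∉ S}) = ⊤ := by
  classical
  obtain ⟨N, hN⟩ := exists_nonspecial_bound K F
  have := infinite_place K F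
  obtain ⟨E, hES, hEc⟩ : ∃ E : Finset (Place K F), (↑E ⊆ {v : Place K F | v ∉ S}) ∧
      E.card = N.toNat := by
    have hinf : ({v : Place K F | v ∉ S}).Infinite :=
      (S.finite_toSet.infinite_compl : ((↑S : Set (Place K F))ᶜ).Infinite)
    exact hinf.exists_subset_card_eq N.toNat
  set D : Divisor K F := tupleDiv (fun p : E => (p : Place K F)) with hD
  have htop : repartitionsOf D ⊔ principalRepartitions K F = ⊤ := hN D (by
    rw [hD, degree_tupleDiv, Fintype.card_coe, hEc]; exact Int.self_le_toNat N)
  rw [eq_top_iff]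
  intro x _
  obtain ⟨r, rfl⟩ := Submodule.Quotient.mk_surjective _ x
  obtain ⟨β, hβ, γ, hγ, rfl⟩ := Submodule.mem_sup.1 (htop ▸ Submodule.mem_top (x := r))
  set g : Place K F → F := fun v => (β : Place K F → F) v
  have hmk : Submodule.Quotient.mk (p := repartitionsOf (0 : Divisor K F) ⊔
      principalRepartitions K F) (β + γ) = ∑ v ∈ E, polar K F v (g v) := by
    have hrw : ∑ v ∈ E, polar K F v (g v) =
        Submodule.Quotient.mk (∑ v ∈ E, singleRep K F v (g v)) := by
      rw [← Submodule.mkQ_apply, map_sum]; rfl
    rw [hrw, Submodule.Quotient.eq, add_sub_right_comm]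
    refine Submodule.add_mem_sup (fun w => ?_) hγ
    show w.adicValuation (((β - ∑ v ∈ E, singleRep K F v (g v) : ↥(repartitions K F)) :
      Place K F → F) w) ≤ exp ((0 : Divisor K F) w)
    rw [Finsupp.zero_apply, exp_zero, AddSubgroupClass.coe_sub, Pi.sub_apply,
      coe_singleRep_sum E g w]
    by_cases hw : w ∈ E
    · simp [hw, g]
    · simp only [hw, if_false, sub_zero]
      have := hβ w
      rwa [hD, tupleDiv_apply_of_notMem (by simpa using hw), exp_zero] at this
  rw [hmk]
  refine Submodule.sum_mem _ fun v hv => ?_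
  have hm : τ v * g v ∈ v.toValuationSubring := by
    rcases mem_repartitionsOf_iff.1 hβ v with h | h
    · simp [g, h]
    · by_cases h0 : g v = 0
      · simp [h0]
      refine mem_of_ord_nonneg v ?_
      rw [hD, show v = (fun p : E => (p : Place K F)) ⟨v, hv⟩ from rfl,
        tupleDiv_apply Subtype.val_injective] at h
      rw [v.ord_mul (ne_zero_of_ord_ne_zero v (by rw [hτ]; omega)) h0, hτ]
      simp only [g] at h ⊢
      omega
  rw [polar_simple v (hτ v) hm]
  exact Submodule.smul_mem _ _ (Submodule.subset_span ⟨v, hES hv, rfl⟩)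

/-- `D` is a non-special tuple: the simple polar classes form a basis of `H1 0`. -/
def NonSpecial (τ : Place K F → F) {g : ℕ} (D : Fin g → Place K F) : Prop :=
  Function.Injective D ∧ LinearIndependent K (simplePolar τ ∘ D) ∧
    Submodule.span K (Set.range (simplePolar τ ∘ D)) = ⊤

/-- In positive genus no simple polar class vanishes. -/
theorem simplePolar_ne_zero (hg : 0 < genusFF K F) (P : Place K F) : simplePolar τ P ≠ 0 := by
  classical
  intro h0
  rw [simplePolar, polar, LinearMap.comp_apply, Submodule.mkQ_apply,
    Submodule.Quotient.mk_eq_zero] at h0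
  obtain ⟨β, hβ, γ, hγ, hsum⟩ := Submodule.mem_sup.1 h0
  obtain ⟨f, hf⟩ := mem_principalRepartitions_iff.1 hγ
  have hpt : ∀ w, (β : Place K F → F) w + f = if w = P then (τ P)⁻¹ else 0 := by
    intro w
    have h1 := congrFun (congrArg Subtype.val hsum) w
    have h2 := coe_singleRep_sum {P} (fun _ => (τ P)⁻¹) w
    simp only [Finset.sum_singleton, Finset.mem_singleton] at h2
    rw [AddMemClass.coe_add, Pi.add_apply, hf] at h1
    exact h1.trans h2
  have hβm : ∀ w, (β : Place K F → F) w ∈ w.toValuationSubring := fun w => by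
    rw [mem_iff_le_one]; simpa using hβ w
  have hreg : ∀ w, w ≠ P → f ∈ w.toValuationSubring := fun w hw => by
    have := hpt w
    rw [if_neg hw, add_eq_zero_iff_neg_eq] at this
    exact this ▸ neg_mem (hβm w)
  have hPf : f ∉ P.toValuationSubring := by
    intro hc
    have := hpt P
    rw [if_pos rfl] at this
    have hm : (τ P)⁻¹ ∈ P.toValuationSubring := this ▸ add_mem (hβm P) hc
    have := ((mem_iff_ord P).1 hm)
    rcases this with h | h
    · rw [inv_eq_zero] at h
      exact ne_zero_of_ord_ne_zero P (by rw [hτ]; omega) h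
    · rw [P.ord_inv, hτ] at h; omega
  have hPord : -1 ≤ P.ord f := by
    have h1 := hpt P
    rw [if_pos rfl] at h1
    have h2 : τ P * f ∈ P.toValuationSubring := by
      have : τ P * f = 1 - τ P * (β : Place K F → F) P := by
        have hτ0 : τ P ≠ 0 := ne_zero_of_ord_ne_zero P (by rw [hτ]; omega)
        linear_combination (τ P) * h1 + mul_inv_cancel₀ hτ0
      rw [this]
      exact sub_mem (one_mem _) (mul_mem (mem_of_ord_eq_one P (hτ P)).1 (hβm P))
    have hf0 : f ≠ 0 := fun h => hPf (h ▸ zero_mem _)
    have h3 := ((mem_iff_ord P).1 h2).resolve_left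
      (mul_ne_zero (ne_zero_of_ord_ne_zero P (by rw [hτ]; omega)) hf0)
    rw [P.ord_mul (ne_zero_of_ord_ne_zero P (by rw [hτ]; omega)) hf0, hτ] at h3
    omega
  have hvanish : ∀ Q, Q ≠ P → simplePolar τ Q = 0 := by
    intro Q hQ
    set s := f - algebraMap K F (ev Q f) with hs
    have hsP : s ∉ P.toValuationSubring := fun h => hPf (by
      have := add_mem h (P.algebraMap_mem' (ev Q f))
      rwa [hs, sub_add_cancel] at this)
    have hs0 : s ≠ 0 := fun h => hsP (h ▸ zero_mem _)
    have hsQ : s ∈ Q.toValuationSubring := sub_mem (hreg Q hQ) (Q.algebraMap_mem' _)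
    have hsQ0 : 1 ≤ Q.ord s := ((ev_eq_zero_iff Q hsQ).1 (by
      rw [hs, ev_sub Q (hreg Q hQ) (Q.algebraMap_mem' _), ev_algebraMap,
          sub_self])).resolve_left hs0
    obtain ⟨Ds, hDs, hdeg⟩ := HasPrincipalDivisors.exists_divisor (K := K) s hs0
    have hsPord : -1 ≤ P.ord s := by
      have hm : τ P * s ∈ P.toValuationSubring := by
        rw [hs, mul_sub]
        refine sub_mem ?_ (mul_mem (mem_of_ord_eq_one P (hτ P)).1 (P.algebraMap_mem' _))
        refine mem_of_ord_nonneg P ?_
        have hf0 : f ≠ 0 := fun h => hPf (h ▸ zero_mem _)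
        rw [P.ord_mul (ne_zero_of_ord_ne_zero P (by rw [hτ]; omega)) hf0, hτ]
        omega
      have h3 := ((mem_iff_ord P).1 hm).resolve_left
        (mul_ne_zero (ne_zero_of_ord_ne_zero P (by rw [hτ]; omega)) hs0)
      rw [P.ord_mul (ne_zero_of_ord_ne_zero P (by rw [hτ]; omega)) hs0, hτ] at h3
      omega
    have hzero := eq_zero_of_nonneg (D := Ds + Finsupp.single P 1 - Finsupp.single Q 1)
      (fun w => by
        rcases eq_or_ne w P with rfl | hwP
        · simp [Finsupp.single_eq_of_ne hQ.symm, hDs]; omega
        · rcases eq_or_ne w Q with rfl | hwQ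
          · simp [Finsupp.single_eq_of_ne hwP, hDs]; omega
          · have h1 : s ∈ w.toValuationSubring :=
              sub_mem (hreg w hwP) (w.algebraMap_mem' _)
            have := ((mem_iff_ord w).1 h1).resolve_left hs0
            simp [Finsupp.single_eq_of_ne hwP, Finsupp.single_eq_of_ne hwQ, hDs, this])
      (by rw [map_sub, map_add, hdeg, degree_single', degree_single']; omega)
    have hordQ : Q.ord s = 1 := by
      have := congrArg (fun X : Divisor K F => X Q) hzero
      simp [Finsupp.single_eq_of_ne hQ, hDs] at this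
      omega
    have hsum := sum_polar (K := K) s⁻¹ {Q} fun w hw => by
      rw [Finset.mem_singleton] at hw
      have := congrArg (fun X : Divisor K F => X w) hzero
      rcases eq_or_ne w P with rfl | hwP
      · refine (inv_mem_of_notMem w hsP).1
      · simp [Finsupp.single_eq_of_ne hwP, Finsupp.single_eq_of_ne hw, hDs] at this
        exact mem_of_ord_nonneg w (by rw [w.ord_inv]; omega)
    rw [Finset.sum_singleton] at hsum
    have hτs : τ Q * s⁻¹ ∈ Q.toValuationSubring := mem_of_ord_nonneg Q (by
      rw [Q.ord_mul (ne_zero_of_ord_ne_zero Q (by rw [hτ]; omega)) (inv_ne_zero hs0), hτ,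
        Q.ord_inv, hordQ]; omega)
    rw [polar_simple Q (hτ Q) hτs] at hsum
    refine (smul_eq_zero.1 hsum).resolve_left ?_
    rw [← ne_eq, ev_ne_zero_iff Q hτs]
    refine ⟨mul_ne_zero (ne_zero_of_ord_ne_zero Q (by rw [hτ]; omega)) (inv_ne_zero hs0), ?_⟩
    rw [Q.ord_mul (ne_zero_of_ord_ne_zero Q (by rw [hτ]; omega)) (inv_ne_zero hs0), hτ,
      Q.ord_inv, hordQ]
    omega
  have hbot : Submodule.span K (simplePolar τ '' {v | v ∉ ({P} : Finset (Place K F))}) = ⊥ := by
    rw [Submodule.span_eq_bot]
    rintro _ ⟨v, hv, rfl⟩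
    exact hvanish v (by simpa using hv)
  rw [span_simplePolar hτ] at hbot
  have : genusFF K F = 0 := by
    rw [genusFF, ← finrank_top K (H1 (0 : Divisor K F)), hbot, finrank_bot]
  omega

/-- Independent simple polar classes extend to a non-special tuple, avoiding a finite set. -/
theorem exists_nonSpecial_extending (S : Finset (Place K F)) (s : Set (Place K F))
    (hs : LinearIndepOn K (simplePolar τ) s) :
    ∃ D : Fin (genusFF K F) → Place K F, NonSpecial τ D ∧ s ⊆ Set.range D ∧
      ∀ i, D i ∈ s ∨ D i ∉ S := by
  classical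
  have := finite_H1_zero K F
  have hst : s ⊆ s ∪ {v | v ∉ S} := Set.subset_union_left
  set b := hs.extend hst with hb
  have hli : LinearIndepOn K (simplePolar τ) b := hs.linearIndepOn_extend hst
  have hspan : Submodule.span K (Set.range (fun x : b => simplePolar τ x)) = ⊤ := by
    rw [eq_top_iff, ← span_simplePolar hτ S, Submodule.span_le, show
      Set.range (fun x : b => simplePolar τ x) = simplePolar τ '' b from
        Set.range_comp' _ _ |>.trans
        (by rw [Subtype.range_coe])]
    exact (Set.image_mono Set.subset_union_right).trans (hs.image_subset_span_image_extend hst)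
  let B := Module.Basis.mk hli hspan.ge
  have : Fintype b := FiniteDimensional.fintypeBasisIndex B
  have hcard : Fintype.card b = genusFF K F := (Module.finrank_eq_card_basis B).symm
  let e := (Fintype.equivFinOfCardEq hcard).symm
  refine ⟨fun i => (e i : Place K F), ⟨Subtype.val_injective.comp e.injective,
    hli.linearIndependent.comp e e.injective, ?_⟩, fun v hv => ?_, fun i => ?_⟩
  · rw [← hspan]
    exact congrArg _ (e.surjective.range_comp (fun x : b => simplePolar τ x))
  · exact ⟨e.symm ⟨v, hs.subset_extend hst hv⟩, by simp⟩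
  · exact (hs.extend_subset hst (e i).2)

/-- Non-special tuples exist outside any finite set of places. -/
theorem exists_nonSpecial (S : Finset (Place K F)) :
    ∃ D : Fin (genusFF K F) → Place K F, NonSpecial τ D ∧ ∀ i, D i ∉ S := by
  obtain ⟨D, h1, -, h3⟩ := exists_nonSpecial_extending hτ S ∅ (linearIndepOn_empty _ _)
  exact ⟨D, h1, fun i => (h3 i).resolve_left (Set.notMem_empty _)⟩

/-- In positive genus every place lies in a non-special tuple. -/
theorem exists_nonSpecial_through (hg : 0 < genusFF K F) (P : Place K F) :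
    ∃ D : Fin (genusFF K F) → Place K F, NonSpecial τ D ∧ P ∈ Set.range D := by
  obtain ⟨D, h1, h2, -⟩ := exists_nonSpecial_extending hτ ∅ {P}
    ((linearIndepOn_singleton_iff (R := K)).2 (simplePolar_ne_zero hτ hg P))
  exact ⟨D, h1, h2 rfl⟩

omit [IsAlgClosed K] [CharZero K] [IsCurveOver K F] [Algebra.EssFiniteType K F] in
/-- The divisor of a non-special tuple is non-special. -/
theorem NonSpecial.top {g : ℕ} {D : Fin g → Place K F} (hD : NonSpecial τ D) :
    repartitionsOf (tupleDiv D) ⊔ principalRepartitions K F = ⊤ := by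
  classical
  rw [eq_top_iff]
  intro r _
  have hx : Submodule.Quotient.mk r ∈ Submodule.span K (Set.range (simplePolar τ ∘ D)) :=
    hD.2.2 ▸ Submodule.mem_top
  obtain ⟨c, hc⟩ := (Submodule.mem_span_range_iff_exists_fun K).1 hx
  have h1 : Submodule.Quotient.mk (p := repartitionsOf (0 : Divisor K F) ⊔
      principalRepartitions K F) r
        = Submodule.Quotient.mk (∑ i, c i • singleRep K F (D i) (τ (D i))⁻¹) := by
    rw [← hc, ← Submodule.mkQ_apply, map_sum]
    exact Finset.sum_congr rfl fun i _ => by rw [map_smul]; rfl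
  rw [Submodule.Quotient.eq] at h1
  rw [← sub_add_cancel r (∑ i, c i • singleRep K F (D i) (τ (D i))⁻¹)]
  have hle : repartitionsOf (0 : Divisor K F) ≤ repartitionsOf (tupleDiv D) :=
    repartitionsOf_mono (Finsupp.le_def.2 fun v => by simpa using tupleDiv_nonneg D v)
  refine add_mem (sup_le_sup_right hle _ h1) (Submodule.mem_sup_left ?_)
  refine Submodule.sum_mem _ fun i _ => Submodule.smul_mem _ _ fun w => ?_
  show w.adicValuation ((singleRep K F (D i) (τ (D i))⁻¹ : Place K F → F) w) ≤ _
  have h2 := coe_singleRep_sum {D i} (fun _ => (τ (D i))⁻¹) w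
  simp only [Finset.sum_singleton, Finset.mem_singleton] at h2
  rw [h2]
  split_ifs with hw
  · subst hw
    rw [(D i).adicValuation_le_exp_iff, tupleDiv_apply hD.1, Place.ord_inv, hτ]
    exact Or.inr le_rfl
  · simp

/-- A function whose poles are bounded by a non-special tuple is constant. -/
theorem NonSpecial.const_of_mem {g : ℕ} {D : Fin g → Place K F} (hD : NonSpecial τ D) {f : F}
    (hf : f ∈ riemannRochSpace (tupleDiv D)) : ∃ a : K, algebraMap K F a = f := by
  classical
  refine eq_algebraMap_of_forall_mem K F f ?_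
  have hout : ∀ w ∉ Set.range D, f ∈ w.toValuationSubring := fun w hw => by
    rcases mem_riemannRochSpace_iff.1 hf w with h | h
    · exact h ▸ zero_mem _
    · exact mem_of_ord_nonneg w (by rw [tupleDiv_apply_of_notMem hw] at h; omega)
  have hτf : ∀ i, τ (D i) * f ∈ (D i).toValuationSubring := fun i => by
    by_cases hf0 : f = 0
    · simp [hf0]
    refine mem_of_ord_nonneg _ ?_
    have h := ((mem_riemannRochSpace_iff.1 hf) (D i)).resolve_left hf0
    rw [tupleDiv_apply hD.1] at h
    rw [(D i).ord_mul (ne_zero_of_ord_ne_zero _ (by rw [hτ]; omega)) hf0, hτ]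
    omega
  have hsum := sum_polar (K := K) f (Finset.univ.image D) fun w hw => hout w (by simpa using hw)
  rw [Finset.sum_image fun a _ b _ h => hD.1 h] at hsum
  simp only [fun i => polar_simple (D i) (hτ _) (hτf i)] at hsum
  have hz := Fintype.linearIndependent_iff.1 hD.2.1 _ hsum
  intro w
  by_cases hw : w ∈ Set.range D
  · obtain ⟨i, rfl⟩ := hw
    have h1 := div_mem_of_ev_zero (D i) (hτ _) (hτf i) (hz i)
    rwa [mul_div_cancel_left₀ _ (ne_zero_of_ord_ne_zero _ (by rw [hτ]; omega))] at h1
  · exact hout w hw

end Fermat.Agent.CurveJacobian
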