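import Fermat.Agent.CurveJacobian.FieldFacts
import Mathlib.Topology.Compactification.OnePoint.Basic
import Mathlib.Analysis.Complex.Basic
import Mathlib.Analysis.Complex.Polynomial.Basic

/-!
# The analytic topology on the places of a complex function field

The values of all functions embed the set of places into a product of Riemann spheres. With the
induced topology it is Hausdorff, and compact, as its image is closed (`range_evInf`);
convergence is detected on the functions regular at the limit (`tendsto_place_iff`).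
-/

set_option autoImplicit false

noncomputable section

open AlgebraicCurve Filter Topology OnePoint

namespace Fermat.Agent.CurveJacobian

variable {F : Type*} [Field F] [Algebra ℂ F] [IsCurveOver ℂ F]

open Classical in
/-- The value of a function at a place, in the Riemann sphere. -/
def evInf (v : Place ℂ F) (f : F) : OnePoint ℂ :=
  if f ∈ v.toValuationSubring then ((ev v f : ℂ) : OnePoint ℂ) else ∞

theorem evInf_of_mem {v : Place ℂ F} {f : F} (h : f ∈ v.toValuationSubring) :
    evInf v f = ((ev v f : ℂ) : OnePoint ℂ) := by rw [evInf, if_pos h]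

theorem evInf_of_notMem {v : Place ℂ F} {f : F} (h : f ∉ v.toValuationSubring) :
    evInf v f = ∞ := by rw [evInf, if_neg h]

theorem evInf_eq_infty_iff {v : Place ℂ F} {f : F} :
    evInf v f = ∞ ↔ f ∉ v.toValuationSubring := by
  by_cases h : f ∈ v.toValuationSubring
  · simp [evInf_of_mem h, h]
  · simp [evInf_of_notMem h, h]

/-- The topology of pointwise convergence of values in the sphere. -/
instance instTopologicalSpacePlace : TopologicalSpace (Place ℂ F) :=
  TopologicalSpace.induced evInf inferInstance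

theorem evInf_injective : Function.Injective (evInf (F := F)) := fun v w h => by
  refine place_eq_of_ev v w fun f hf => ?_
  have h1 := congrFun h f
  rw [evInf_of_mem hf] at h1
  have hw : f ∈ w.toValuationSubring := by
    by_contra hw
    rw [evInf_of_notMem hw] at h1
    exact coe_ne_infty _ h1
  rw [evInf_of_mem hw, coe_eq_coe] at h1
  exact ⟨hw, h1.symm⟩

theorem isEmbedding_evInf : IsEmbedding (evInf (F := F)) :=
  ⟨⟨rfl⟩, evInf_injective⟩

instance instT2SpacePlace : T2Space (Place ℂ F) := isEmbedding_evInf.t2Space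

theorem continuous_evInf (f : F) : Continuous fun v : Place ℂ F => evInf v f :=
  (continuous_apply (A := fun _ : F => OnePoint ℂ) f).comp
    (continuous_induced_dom (f := evInf (F := F)))

/-- The set of places where a function is regular is open. -/
theorem isOpen_regular (f : F) : IsOpen {v : Place ℂ F | f ∈ v.toValuationSubring} := by
  have : {v : Place ℂ F | f ∈ v.toValuationSubring}
      = (fun v => evInf v f) ⁻¹' ({∞}ᶜ : Set (OnePoint ℂ)) := by
    ext v; simp [evInf_eq_infty_iff]
  rw [this]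
  exact isOpen_compl_singleton.preimage (continuous_evInf f)

/-- A function is continuous where it is regular. -/
theorem continuousAt_ev {f : F} {v : Place ℂ F} (h : f ∈ v.toValuationSubring) :
    ContinuousAt (fun w : Place ℂ F => ev w f) v := by
  have h1 : ContinuousAt (fun w : Place ℂ F => evInf w f) v := (continuous_evInf f).continuousAt
  rw [ContinuousAt, evInf_of_mem h] at h1
  rw [ContinuousAt, OnePoint.isOpenEmbedding_coe.isEmbedding.tendsto_nhds_iff]
  refine h1.congr' ?_
  filter_upwards [(isOpen_regular f).mem_nhds h] with w hw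
  exact evInf_of_mem hw

/-- Convergence is detected on functions regular at the limit. -/
theorem tendsto_place_iff {α : Type*} {l : Filter α} {g : α → Place ℂ F} {v : Place ℂ F} :
    Tendsto g l (𝓝 v) ↔ ∀ f ∈ v.toValuationSubring,
      (∀ᶠ a in l, f ∈ (g a).toValuationSubring) ∧
        Tendsto (fun a => ev (g a) f) l (𝓝 (ev v f)) := by
  constructor
  · intro h f hf
    exact ⟨h.eventually ((isOpen_regular f).mem_nhds hf), (continuousAt_ev hf).tendsto.comp h⟩
  intro h
  rw [isEmbedding_evInf.tendsto_nhds_iff, tendsto_pi_nhds]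
  intro f
  by_cases hf : f ∈ v.toValuationSubring
  · rw [evInf_of_mem hf]
    refine (((OnePoint.continuous_coe).tendsto _).comp (h f hf).2).congr' ?_
    filter_upwards [(h f hf).1] with a ha
    exact (evInf_of_mem ha).symm
  · rw [evInf_of_notMem hf]
    have hf0 : f ≠ 0 := fun e => hf (e ▸ zero_mem _)
    obtain ⟨hi, hi0⟩ := inv_mem_of_notMem v hf
    obtain ⟨h1, h2⟩ := h _ hi
    rw [hi0] at h2
    rw [OnePoint.hasBasis_nhds_infty.tendsto_right_iff]
    rintro s ⟨hs1, hs2⟩
    obtain ⟨R, hR⟩ := hs2.isBounded.subset_closedBall (0 : ℂ)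
    have hsmall : ∀ᶠ a in l, ‖ev (g a) f⁻¹‖ < (|R| + 1)⁻¹ := by
      have := h2.norm
      rw [norm_zero] at this
      exact this.eventually (gt_mem_nhds (by positivity))
    filter_upwards [h1, hsmall] with a ha hsm
    show evInf (g a) f ∈ _
    by_cases hga : f ∈ (g a).toValuationSubring
    · rw [evInf_of_mem hga]
      refine Or.inl ⟨ev (g a) f, ?_, rfl⟩
      intro hmem
      have h3 : ‖ev (g a) f‖ ≤ |R| := by
        have := hR hmem
        rw [Metric.mem_closedBall, dist_zero_right] at this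
        exact this.trans (le_abs_self R)
      have h4 := ev_mul (g a) hga ha
      rw [mul_inv_cancel₀ hf0, ev_one] at h4
      have h5 : (1 : ℝ) = ‖ev (g a) f‖ * ‖ev (g a) f⁻¹‖ := by
        rw [← norm_mul, ← h4, norm_one]
      have h6 : ‖ev (g a) f‖ * ‖ev (g a) f⁻¹‖ ≤ |R| * (|R| + 1)⁻¹ :=
        mul_le_mul h3 hsm.le (norm_nonneg _) (abs_nonneg R)
      have h7 : |R| * (|R| + 1)⁻¹ < 1 := by
        rw [mul_inv_lt_iff₀ (by positivity)]; linarith
      linarith
    · rw [evInf_of_notMem hga]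
      exact Or.inr rfl

section Compact

variable [Algebra.EssFiniteType ℂ F]

omit [Field F] [Algebra ℂ F] [IsCurveOver ℂ F] [Algebra.EssFiniteType ℂ F] in
theorem isClosed_finite_imp_eq {Φ : (F → OnePoint ℂ) → Prop} {f g h : F} {op : ℂ → ℂ → ℂ}
    (hop : Continuous fun p : ℂ × ℂ => op p.1 p.2)
    (hΦ : ∀ φ, Φ φ ↔ ∀ a b : ℂ, φ f = (a : OnePoint ℂ) → φ g = (b : OnePoint ℂ) →
      φ h = ((op a b : ℂ) : OnePoint ℂ)) :
    IsClosed {φ | Φ φ} := by
  let U : Set (F → OnePoint ℂ) := {φ | φ f ≠ ∞ ∧ φ g ≠ ∞}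
  let toC : OnePoint ℂ → ℂ := fun x => x.elim 0 id
  have hcont : ∀ x : OnePoint ℂ, x ≠ ∞ → ContinuousAt toC x := by
    intro x hx
    induction x with
    | infty => exact absurd rfl hx
    | coe a =>
      rw [OnePoint.continuousAt_coe]
      exact continuous_id.continuousAt
  rw [← isOpen_compl_iff, isOpen_iff_mem_nhds]
  intro φ hφ
  rw [Set.mem_compl_iff, Set.mem_ofPred_eq, hΦ] at hφ
  push Not at hφ
  obtain ⟨a, b, ha, hb, hne⟩ := hφ
  have hc : ContinuousAt (fun ψ : F → OnePoint ℂ =>
      (((op (toC (ψ f)) (toC (ψ g))) : ℂ) : OnePoint ℂ)) φ := by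
    have hf' : ContinuousAt (fun ψ : F → OnePoint ℂ => toC (ψ f)) φ :=
      ContinuousAt.comp (f := fun ψ : F → OnePoint ℂ => ψ f)
        (hcont _ (by rw [ha]; exact coe_ne_infty a)) (continuous_apply f).continuousAt
    have hg' : ContinuousAt (fun ψ : F → OnePoint ℂ => toC (ψ g)) φ :=
      ContinuousAt.comp (f := fun ψ : F → OnePoint ℂ => ψ g)
        (hcont _ (by rw [hb]; exact coe_ne_infty b)) (continuous_apply g).continuousAt
    exact OnePoint.continuous_coe.continuousAt.comp
      (hop.continuousAt.comp (hf'.prodMk hg'))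
  have hval : (((op (toC (φ f)) (toC (φ g))) : ℂ) : OnePoint ℂ) = ((op a b : ℂ) : OnePoint ℂ) := by
    rw [ha, hb]; rfl
  have h1 : ∀ᶠ ψ in 𝓝 φ, ψ h ≠ (((op (toC (ψ f)) (toC (ψ g))) : ℂ) : OnePoint ℂ) := by
    have hp : ContinuousAt (fun ψ : F → OnePoint ℂ =>
        (ψ h, (((op (toC (ψ f)) (toC (ψ g))) : ℂ) : OnePoint ℂ))) φ :=
      (continuous_apply h).continuousAt.prodMk hc
    exact hp.eventually
      ((isClosed_diagonal.isOpen_compl).mem_nhds (by
        show ¬ φ h = (((op (toC (φ f)) (toC (φ g))) : ℂ) : OnePoint ℂ)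
        rw [hval]; exact hne))
  have h2 : ∀ᶠ ψ in 𝓝 φ, ψ f ≠ ∞ :=
    (continuous_apply f).continuousAt.eventually_ne (by rw [ha]; exact coe_ne_infty a)
  have h3 : ∀ᶠ ψ in 𝓝 φ, ψ g ≠ ∞ :=
    (continuous_apply g).continuousAt.eventually_ne (by rw [hb]; exact coe_ne_infty b)
  filter_upwards [h1, h2, h3] with ψ e1 e2 e3
  rw [Set.mem_compl_iff, Set.mem_ofPred_eq, hΦ]
  intro hall
  obtain ⟨a', ha'⟩ := ne_infty_iff_exists.1 e2
  obtain ⟨b', hb'⟩ := ne_infty_iff_exists.1 e3
  apply e1
  rw [hall a' b' ha'.symm hb'.symm, ← ha', ← hb']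
  rfl

/-- The conditions cutting out the image of the places in the product of spheres. -/
def sphereSet : Set (F → OnePoint ℂ) :=
  (⋂ a : ℂ, {φ | φ (algebraMap ℂ F a) = ((a : ℂ) : OnePoint ℂ)}) ∩
  (⋂ f : F, ⋂ g : F, {φ | ∀ a b : ℂ, φ f = (a : OnePoint ℂ) → φ g = (b : OnePoint ℂ) →
      φ (f + g) = ((a + b : ℂ) : OnePoint ℂ)}) ∩
  (⋂ f : F, ⋂ g : F, {φ | ∀ a b : ℂ, φ f = (a : OnePoint ℂ) → φ g = (b : OnePoint ℂ) →
      φ (f * g) = ((a * b : ℂ) : OnePoint ℂ)}) ∩
  (⋂ f : F, {φ | φ f ∈ OnePoint.some '' Metric.closedBall (0 : ℂ) 1 ∨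
      φ f⁻¹ ∈ OnePoint.some '' Metric.closedBall (0 : ℂ) 1})

omit [IsCurveOver ℂ F] [Algebra.EssFiniteType ℂ F] in
theorem isClosed_sphereSet : IsClosed (sphereSet (F := F)) := by
  have hball : IsClosed (OnePoint.some '' Metric.closedBall (0 : ℂ) 1) :=
    ((isCompact_closedBall (0 : ℂ) 1).image OnePoint.continuous_coe).isClosed
  refine (((isClosed_iInter fun a => ?_).inter (isClosed_iInter fun f => isClosed_iInter fun g =>
    ?_)).inter (isClosed_iInter fun f => isClosed_iInter fun g => ?_)).inter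
    (isClosed_iInter fun f => ?_)
  · exact isClosed_eq (continuous_apply _) continuous_const
  · exact isClosed_finite_imp_eq (op := (· + ·)) continuous_add fun _ => Iff.rfl
  · exact isClosed_finite_imp_eq (op := (· * ·)) continuous_mul fun _ => Iff.rfl
  · exact (hball.preimage (continuous_apply (A := fun _ : F => OnePoint ℂ) f)).union
      (hball.preimage (continuous_apply (A := fun _ : F => OnePoint ℂ) f⁻¹))

/-- The image of the places in the product of spheres is `sphereSet`. -/
theorem range_evInf : Set.range (evInf (F := F)) = sphereSet := by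
  refine Set.Subset.antisymm ?_ ?_
  · rintro _ ⟨v, rfl⟩
    simp only [sphereSet, Set.mem_inter_iff, Set.mem_iInter, Set.mem_ofPred_eq]
    have key : ∀ {f : F} {a : ℂ}, evInf v f = (a : OnePoint ℂ) →
        f ∈ v.toValuationSubring ∧ ev v f = a := by
      intro f a h
      by_cases hf : f ∈ v.toValuationSubring
      · rw [evInf_of_mem hf, coe_eq_coe] at h; exact ⟨hf, h⟩
      · rw [evInf_of_notMem hf] at h; exact absurd h.symm (coe_ne_infty _)
    refine ⟨⟨⟨fun a => ?_, fun f g a b ha hb => ?_⟩, fun f g a b ha hb => ?_⟩, fun f => ?_⟩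
    · rw [evInf_of_mem (v.algebraMap_mem' a), ev_algebraMap]
    · obtain ⟨hf, rfl⟩ := key ha; obtain ⟨hg, rfl⟩ := key hb
      rw [evInf_of_mem (add_mem hf hg), ev_add v hf hg]
    · obtain ⟨hf, rfl⟩ := key ha; obtain ⟨hg, rfl⟩ := key hb
      rw [evInf_of_mem (mul_mem hf hg), ev_mul v hf hg]
    · by_cases hf : f ∈ v.toValuationSubring
      · by_cases hn : ‖ev v f‖ ≤ 1
        · exact Or.inl ⟨ev v f, by simpa using hn, (evInf_of_mem hf).symm⟩
        · have hne : ev v f ≠ 0 := by intro h; simp [h] at hn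
          obtain ⟨hi, hie⟩ := inv_mem_of_ev_ne_zero v hf hne
          refine Or.inr ⟨ev v f⁻¹, ?_, (evInf_of_mem hi).symm⟩
          rw [Metric.mem_closedBall, dist_zero_right, hie, norm_inv]
          exact inv_le_one_of_one_le₀ (le_of_not_ge hn)
      · obtain ⟨hi, hie⟩ := inv_mem_of_notMem v hf
        exact Or.inr ⟨ev v f⁻¹, by simp [hie], (evInf_of_mem hi).symm⟩
  intro φ hφ
  simp only [sphereSet, Set.mem_inter_iff, Set.mem_iInter, Set.mem_ofPred_eq] at hφ
  obtain ⟨⟨⟨hC, hadd⟩, hmul⟩, hval⟩ := hφ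
  have hfin : ∀ {f : F}, φ f ≠ ∞ → ∃ a : ℂ, φ f = (a : OnePoint ℂ) := fun h => by
    obtain ⟨a, ha⟩ := ne_infty_iff_exists.1 h
    exact ⟨a, ha.symm⟩
  let A : ValuationSubring F :=
    { carrier := {f | φ f ≠ ∞}
      mul_mem' := fun {f g} hf hg => by
        obtain ⟨a, ha⟩ := hfin hf; obtain ⟨b, hb⟩ := hfin hg
        show φ (f * g) ≠ ∞
        rw [hmul f g a b ha hb]; exact coe_ne_infty _
      one_mem' := by
        show φ 1 ≠ ∞
        rw [← map_one (algebraMap ℂ F), hC]; exact coe_ne_infty _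
      add_mem' := fun {f g} hf hg => by
        obtain ⟨a, ha⟩ := hfin hf; obtain ⟨b, hb⟩ := hfin hg
        show φ (f + g) ≠ ∞
        rw [hadd f g a b ha hb]; exact coe_ne_infty _
      zero_mem' := by
        show φ 0 ≠ ∞
        rw [← map_zero (algebraMap ℂ F), hC]; exact coe_ne_infty _
      neg_mem' := fun {f} hf => by
        obtain ⟨a, ha⟩ := hfin hf
        show φ (-f) ≠ ∞
        have : (-f) = algebraMap ℂ F (-1) * f := by rw [map_neg, map_one, neg_one_mul]
        rw [this, hmul _ f (-1) a (hC _) ha]; exact coe_ne_infty _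
      mem_or_inv_mem' := fun f => by
        rcases hval f with ⟨a, -, ha⟩ | ⟨a, -, ha⟩
        · exact Or.inl (show φ f ≠ ∞ by rw [← ha]; exact coe_ne_infty _)
        · exact Or.inr (show φ f⁻¹ ≠ ∞ by rw [← ha]; exact coe_ne_infty _) }
  have hmemA : ∀ f, f ∈ A ↔ φ f ≠ ∞ := fun _ => Iff.rfl
  have hzero : ∀ {f : F}, f ≠ 0 → φ f = ((0 : ℂ) : OnePoint ℂ) → f⁻¹ ∉ A := by
    intro f hf h hi
    obtain ⟨b, hb⟩ := hfin ((hmemA _).1 hi)
    have := hmul f f⁻¹ 0 b h hb
    rw [mul_inv_cancel₀ hf, zero_mul, ← map_one (algebraMap ℂ F), hC, coe_eq_coe] at this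
    exact one_ne_zero this
  have hsub : ∀ {f : F} {a : ℂ}, φ f = (a : OnePoint ℂ) →
      φ (f - algebraMap ℂ F a) = ((0 : ℂ) : OnePoint ℂ) := by
    intro f a h
    rw [sub_eq_add_neg, ← map_neg, hadd f _ a (-a) h (hC _), add_neg_cancel]
  have hA : A ≠ ⊤ := by
    intro htop
    obtain ⟨x, hx⟩ := exists_not_const ℂ F
    obtain ⟨a, ha⟩ := hfin ((hmemA x).1 (htop ▸ ValuationSubring.mem_top x))
    have hne : x - algebraMap ℂ F a ≠ 0 := fun h => hx ⟨a, (sub_eq_zero.1 h).symm⟩
    exact hzero hne (hsub ha) (htop ▸ ValuationSubring.mem_top _)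
  obtain ⟨v, hv⟩ := exists_place_of_valuationSubring ℂ F A
    (fun a => (hmemA _).2 (by rw [hC]; exact coe_ne_infty _)) hA
  refine ⟨v, funext fun f => ?_⟩
  by_cases hf : φ f = ∞
  · rw [hf, evInf_eq_infty_iff, hv]
    exact fun h => (hmemA f).1 h hf
  obtain ⟨a, ha⟩ := hfin hf
  have hmem : f ∈ v.toValuationSubring := by rw [hv]; exact (hmemA f).2 hf
  rw [evInf_of_mem hmem, ha, coe_eq_coe, ← sub_eq_zero]
  have hs : ev v (f - algebraMap ℂ F a) = ev v f - a := by
    rw [ev_sub v hmem (v.algebraMap_mem' a), ev_algebraMap]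
  rw [← hs]
  by_contra hne
  have h0 : f - algebraMap ℂ F a ≠ 0 := fun h => hne (by rw [h, ev_zero])
  have := (inv_mem_of_ev_ne_zero v (sub_mem hmem (v.algebraMap_mem' a)) hne).1
  rw [hv] at this
  exact hzero h0 (hsub ha) this

/-- The space of places is compact. -/
instance instCompactSpacePlace : CompactSpace (Place ℂ F) := by
  refine ⟨?_⟩
  rw [isEmbedding_evInf.isCompact_iff, Set.image_univ, range_evInf]
  exact isClosed_sphereSet.isCompact

end Compact

end Fermat.Agent.CurveJacobian
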